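import Fermat.Agent.GoldbachSchnirelmann.Main
import Fermat.Agent.Root.SummaryPrimeNumberTheorem

/-!
# The primes of `(M, 2 M]`

There are at least a constant times `M / log M` of them, and their additive energy is at most a
constant times the fourth power of their number over `M`.
-/

set_option autoImplicit false

noncomputable section

namespace FA.LogChowla

open Finset Filter
open scoped Topology Nat.Prime

/-- The primes of `(M, 2 M]`. -/
def dyadicPrimes (M : ℕ) : Finset ℕ := (Ioc M (2 * M)).filter Nat.Prime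

theorem mem_dyadicPrimes {M p : ℕ} :
    p ∈ dyadicPrimes M ↔ p.Prime ∧ M < p ∧ p ≤ 2 * M := by
  rw [dyadicPrimes, mem_filter, mem_Ioc]
  tauto

instance (M : ℕ) (p : ↥(dyadicPrimes M)) : NeZero (p : ℕ) :=
  ⟨(mem_dyadicPrimes.1 p.2).1.ne_zero⟩

theorem card_dyadicPrimes_le (M : ℕ) : (dyadicPrimes M).card ≤ M :=
  (card_filter_le _ _).trans (by rw [Nat.card_Ioc]; omega)

theorem eventually_card_dyadicPrimes_ge :
    ∀ᶠ M : ℕ in atTop, (M : ℝ) / (4 * Real.log M) ≤ (dyadicPrimes M).card := by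
  have hpnt := PNT.Summary.prime_number_theorem.comp (tendsto_natCast_atTop_atTop (R := ℝ))
  have h2 : Tendsto (fun M : ℕ => 2 * M) atTop atTop :=
    tendsto_id.const_mul_atTop' two_pos
  filter_upwards [hpnt.eventually (gt_mem_nhds (show (1 : ℝ) < 11 / 10 by norm_num)),
    (hpnt.comp h2).eventually (lt_mem_nhds (show (9 / 10 : ℝ) < 1 by norm_num)),
    eventually_ge_atTop (2 ^ 8)] with M hM h2M hM8
  simp only [Function.comp_apply, Nat.floor_natCast] at hM h2M
  have hM0 : (0 : ℝ) < M := Nat.cast_pos.2 (by omega)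
  have hlog2 : 0 < Real.log 2 := Real.log_pos one_lt_two
  have hl : 8 * Real.log 2 ≤ Real.log M := by
    rw [show (8 : ℝ) = ((8 : ℕ) : ℝ) by norm_num, ← Real.log_pow]
    exact Real.log_le_log (by norm_num) (by exact_mod_cast hM8)
  have hlM : 0 < Real.log M := by linarith
  have h2l : Real.log ((2 * M : ℕ) : ℝ) = Real.log 2 + Real.log M := by
    rw [Nat.cast_mul, Nat.cast_ofNat, Real.log_mul two_ne_zero hM0.ne']
  rw [div_lt_iff₀ hM0] at hM
  rw [lt_div_iff₀ (by push_cast; linarith), h2l] at h2M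
  push_cast at h2M
  have hcard : π (2 * M) ≤ π M + (dyadicPrimes M).card := by
    rw [← Nat.primesLE_card_eq_primeCounting, ← Nat.primesLE_card_eq_primeCounting]
    refine (card_le_card fun p hp => ?_).trans (card_union_le _ _)
    rw [Nat.mem_primesLE] at hp
    rw [mem_union, Nat.mem_primesLE, mem_dyadicPrimes]
    rcases le_or_gt p M with h | h
    · exact Or.inl ⟨h, hp.2⟩
    · exact Or.inr ⟨hp.2, h, hp.1⟩
  have hc : (π (2 * M) : ℝ) ≤ π M + (dyadicPrimes M).card := by exact_mod_cast hcard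
  rw [div_le_iff₀ (by positivity)]
  have h3 : (π (2 * M) : ℝ) * (Real.log 2 + Real.log M) ≤
      ((π M : ℝ) + (dyadicPrimes M).card) * (9 / 8 * Real.log M) :=
    mul_le_mul hc (by linarith) (by linarith) (by positivity)
  linarith

/-- The pairs of primes of `(M, 2 M]` with a given sum. -/
def primeSumPairs (M s : ℕ) : Finset (ℕ × ℕ) :=
  (dyadicPrimes M ×ˢ dyadicPrimes M).filter fun z => z.1 + z.2 = s

theorem card_primeSumPairs_le (M s : ℕ) :
    (primeSumPairs M s).card ≤ (GoldbachSchnirelmann.goldbachReps s).card := by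
  refine card_le_card_of_injOn Prod.fst (fun z hz => ?_) fun z hz z' hz' e => ?_
  · simp only [mem_coe, primeSumPairs, mem_filter, mem_product, mem_dyadicPrimes] at hz
    simp only [mem_coe, GoldbachSchnirelmann.goldbachReps, mem_filter, mem_Ioc]
    obtain ⟨⟨⟨hp, -, -⟩, hq, -, -⟩, rfl⟩ := hz
    exact ⟨⟨hp.pos, by omega⟩, hp, by rw [Nat.add_sub_cancel_left]; exact hq⟩
  · simp only [mem_coe, primeSumPairs, mem_filter] at hz hz'
    refine Prod.ext e ?_
    have := hz.2
    have := hz'.2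
    omega

/-- **The additive energy of the primes of `(M, 2 M]`.** -/
theorem exists_energy_le : ∃ C : ℝ, 0 ≤ C ∧ ∀ᶠ M : ℕ in atTop,
    ∑ s ∈ Icc 1 (4 * M), ((primeSumPairs M s).card : ℝ) ^ 2 ≤
      C * ((dyadicPrimes M).card : ℝ) ^ 4 / M := by
  obtain ⟨D, hD⟩ : ∃ D, D = GoldbachSchnirelmann.meanConst := ⟨_, rfl⟩
  have hD0 : 0 ≤ D := hD ▸ sq_nonneg _
  refine ⟨(5000 * 64) ^ 2 * D * 4 ^ 7, by positivity, ?_⟩
  filter_upwards [eventually_card_dyadicPrimes_ge, eventually_ge_atTop 2] with M hn hM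
  have hM0 : (0 : ℝ) < M := Nat.cast_pos.2 (by omega)
  have hl : 0 < Real.log M := Real.log_pos (by exact_mod_cast hM)
  obtain ⟨Z, hZ⟩ : ∃ Z : ℝ, Z = 5000 * 64 * (4 * M / Real.log M ^ 2) := ⟨_, rfl⟩
  have hpt : ∀ s ∈ Icc 1 (4 * M), ((primeSumPairs M s).card : ℝ) ^ 2 ≤
      Z ^ 2 * GoldbachSchnirelmann.divSum s ^ 2 := fun s hs => by
    rw [mem_Icc] at hs
    rw [← mul_pow]
    refine pow_le_pow_left₀ (Nat.cast_nonneg _) ?_ 2
    have hd := GoldbachSchnirelmann.one_le_divSum (show s ≠ 0 by omega)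
    rcases eq_or_ne (primeSumPairs M s) ∅ with e | e
    · rw [e, card_empty, Nat.cast_zero, hZ]
      positivity
    obtain ⟨z, hz⟩ := nonempty_iff_ne_empty.2 e
    simp only [primeSumPairs, mem_filter, mem_product, mem_dyadicPrimes] at hz
    have hs2 : 2 ≤ s := by have := hz.1.1.1.two_le; omega
    refine (Nat.cast_le.2 (card_primeSumPairs_le M s)).trans
      ((GoldbachSchnirelmann.card_goldbachReps_le hs2).trans ?_)
    have h1 := GoldbachSchnirelmann.div_log_sq_le hs2 hs.2
    push_cast at h1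
    have h2 : (4 * M : ℝ) / Real.log (4 * M) ^ 2 ≤ 4 * M / Real.log M ^ 2 :=
      div_le_div_of_nonneg_left (by positivity) (by positivity)
        (pow_le_pow_left₀ hl.le (Real.log_le_log hM0 (by linarith)) 2)
    calc _ = 5000 * GoldbachSchnirelmann.divSum s * ((s : ℝ) / Real.log s ^ 2) := by ring
      _ ≤ 5000 * GoldbachSchnirelmann.divSum s * (64 * (4 * M / Real.log M ^ 2)) :=
          mul_le_mul_of_nonneg_left (h1.trans (by linarith)) (by linarith)
      _ = _ := by rw [hZ]; ring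
  refine (sum_le_sum hpt).trans ?_
  rw [← mul_sum]
  refine (mul_le_mul_of_nonneg_left (GoldbachSchnirelmann.sum_divSum_sq_le (4 * M))
    (sq_nonneg Z)).trans ?_
  rw [← hD]
  push_cast
  have h4 := pow_le_pow_left₀ (by positivity) hn 4
  calc Z ^ 2 * (D * (4 * M))
      = (5000 * 64) ^ 2 * D * 4 ^ 7 / M * ((M : ℝ) / (4 * Real.log M)) ^ 4 := by
        rw [hZ]
        field_simp
    _ ≤ (5000 * 64) ^ 2 * D * 4 ^ 7 / M * ((dyadicPrimes M).card : ℝ) ^ 4 :=
        mul_le_mul_of_nonneg_left h4 (by positivity)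
    _ = _ := by ring

end FA.LogChowla

end
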