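import Fermat.Agent.LogChowla.Span
import Fermat.Agent.LogChowla.Primes
import Mathlib.Data.Nat.ChineseRemainder

/-!
# The entropy decrement

For a map `a` of `ℕ` to a finite alphabet, among finitely many scales `M` there is, for every span
`z` of large `∑ 1 / n` and uniformly in `a`, one at which the block `(a (n + j))` of length `4 h M`
and the residues of `n` modulo the primes of `(M, 2 M]` have mutual information `o (M / log M)`.
-/

set_option autoImplicit false

noncomputable section

namespace FA.LogChowla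

open Finset Filter
open scoped Topology

/-- The residues of `n` modulo the primes of `(M, 2 M]`. -/
abbrev Residues (M : ℕ) : Type := (p : ↥(dyadicPrimes M)) → ZMod p

variable {α : Type*} [Fintype α] [DecidableEq α]

/-- The values `a (n + j)`, `j < L`. -/
def blk {α : Type*} (a : ℕ → α) (L n : ℕ) (j : Fin L) : α := a (n + j)

/-- The residues of `n`. -/
def res (M n : ℕ) : Residues M := fun p => (n : ZMod p)

theorem res_add (M m n : ℕ) : res M (m + n) = res M m + res M n :=
  funext fun p => by simp [res]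

theorem res_surjective (M : ℕ) : Function.Surjective (res M) := fun y => by
  classical
  obtain ⟨k, hk⟩ := Nat.chineseRemainderOfFinset (fun p => (y p).val)
    (fun p : ↥(dyadicPrimes M) => (p : ℕ)) univ (fun p _ => (mem_dyadicPrimes.1 p.2).1.ne_zero)
    (fun p _ q _ hne => (Nat.coprime_primes (mem_dyadicPrimes.1 p.2).1
      (mem_dyadicPrimes.1 q.2).1).2 fun e => hne (Subtype.ext e))
  refine ⟨k, funext fun p => ?_⟩
  rw [res, (ZMod.natCast_eq_natCast_iff _ _ _).2 (hk p (mem_univ p)), ZMod.natCast_val,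
    ZMod.cast_id]

/-- `log #(Residues M)`. -/
def logResidues (M : ℕ) : ℝ := Real.log (Fintype.card (Residues M))

theorem logResidues_le {M : ℕ} (hM : 1 ≤ M) : logResidues M ≤ M * Real.log (2 * M) := by
  rw [logResidues, Fintype.card_pi]
  simp only [ZMod.card]
  push_cast
  rw [Real.log_prod (fun p _ => Nat.cast_ne_zero.2 (mem_dyadicPrimes.1 p.2).1.ne_zero)]
  refine (sum_le_card_nsmul _ _ (Real.log (2 * M)) fun p _ => ?_).trans ?_
  · obtain ⟨hp, -, hp2⟩ := mem_dyadicPrimes.1 p.2
    exact Real.log_le_log (Nat.cast_pos.2 hp.pos) (by exact_mod_cast hp2)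
  · rw [card_univ, Fintype.card_coe, nsmul_eq_mul]
    refine mul_le_mul_of_nonneg_right (Nat.cast_le.2 (card_dyadicPrimes_le M))
      (Real.log_nonneg ?_)
    have : (1 : ℝ) ≤ M := Nat.one_le_cast.2 hM
    linarith

/-- The residues are almost uniformly distributed. -/
theorem eventually_ent_res_ge (M : ℕ) {ε : ℝ} (hε : 0 < ε) :
    ∀ᶠ z in spanFilter, logResidues M - ε ≤ ent (Ioc z.1 z.2) (spanW z) (res M) := by
  obtain ⟨C, hC⟩ : ∃ C : ℝ, C = Fintype.card (Residues M) := ⟨_, rfl⟩
  have hC0 : 0 < C := hC ▸ Nat.cast_pos.2 Fintype.card_pos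
  have hdiff : ∀ y, Tendsto (fun z => law (Ioc z.1 z.2) (spanW z) (res M) 0 -
      law (Ioc z.1 z.2) (spanW z) (res M) y) spanFilter (𝓝 0) := fun y => by
    obtain ⟨c, rfl⟩ := res_surjective M y
    refine (tendsto_law_shift_sub (res M) c (res M c)).congr fun z => ?_
    congr 1
    rw [law, law]
    refine sum_congr (filter_congr fun n _ => ?_) fun _ _ => rfl
    rw [res_add, add_eq_right]
  have h0 : Tendsto (fun z => law (Ioc z.1 z.2) (spanW z) (res M) 0) spanFilter (𝓝 C⁻¹) := by
    have h := ((tendsto_finsetSum univ fun y _ => hdiff y).const_mul C⁻¹).add_const C⁻¹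
    simp only [sum_const_zero, mul_zero, zero_add] at h
    refine h.congr' ?_
    filter_upwards [eventually_spanHarm_pos] with z hN
    rw [sum_sub_distrib, sum_law (isWeights_spanW hN), sum_const, card_univ, nsmul_eq_mul, ← hC]
    field_simp
    ring
  have hy : ∀ y, Tendsto (fun z => law (Ioc z.1 z.2) (spanW z) (res M) y) spanFilter
      (𝓝 (C⁻¹ - 0)) := fun y => by
    simpa only [sub_sub_cancel] using h0.sub (hdiff y)
  have hlim : Tendsto (fun z => ent (Ioc z.1 z.2) (spanW z) (res M)) spanFilter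
      (𝓝 (logResidues M)) := by
    have h := tendsto_finsetSum (univ : Finset (Residues M)) fun y _ =>
      (Real.continuous_negMulLog.tendsto _).comp (hy y)
    have e : ∑ _y : Residues M, Real.negMulLog (C⁻¹ - 0) = logResidues M := by
      rw [sum_const, card_univ, nsmul_eq_mul, ← hC, sub_zero, Real.negMulLog, Real.log_inv,
        logResidues, ← hC]
      field_simp
    rw [e] at h
    exact h.congr fun z => (ent_eq_sum _).symm
  filter_upwards [hlim.eventually_const_lt (show logResidues M - ε < logResidues M by linarith)]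
    with z hN using hN.le

/-- Blocks after blocks. -/
theorem eventually_ent_blk_mul_le (M L : ℕ) : ∀ (m : ℕ) {ε : ℝ}, 0 < ε →
    ∀ᶠ z in spanFilter, ∀ a : ℕ → α,
      ent (Ioc z.1 z.2) (spanW z) (fun n => (blk a (m * L) n, res M n)) ≤
        ent (Ioc z.1 z.2) (spanW z) (res M) +
          m * (ent (Ioc z.1 z.2) (spanW z) (fun n => (blk a L n, res M n)) -
            ent (Ioc z.1 z.2) (spanW z) (res M)) + ε
  | 0, ε, hε => by
    filter_upwards [eventually_spanHarm_pos] with z hN a
    have hw := isWeights_spanW hN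
    obtain ⟨f, hf⟩ : ∃ f : Residues M → (Fin (0 * L) → α) × Residues M,
        f = fun y => (fun _ => a 0, y) := ⟨_, rfl⟩
    have e : (fun n => (blk a (0 * L) n, res M n)) = fun n => f (res M n) :=
      funext fun n => hf ▸ Prod.ext (funext fun j => absurd j.2 (by simp)) rfl
    have h2 := ent_comp_le hw (res M) f
    rw [← e] at h2
    simp only [Nat.cast_zero, zero_mul, add_zero]
    linarith
  | m + 1, ε, hε => by
    filter_upwards [eventually_ent_blk_mul_le M L m (half_pos hε),
      eventually_ent_shift (α := (Fin L → α) × Residues M) (m * L) (half_pos hε),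
      eventually_spanHarm_pos] with z ih hshift hN a
    replace ih := ih a
    replace hshift := hshift fun n => (blk a L n, res M n)
    have hw := isWeights_spanW hN
    obtain ⟨f, hf⟩ : ∃ f : (Fin (m * L) → α) × (Fin L → α) × Residues M →
        (Fin ((m + 1) * L) → α) × Residues M,
        f = fun (z : (Fin (m * L) → α) × (Fin L → α) × Residues M) =>
          (fun j : Fin ((m + 1) * L) => if hj : (j : ℕ) < m * L then z.1 ⟨j, hj⟩
          else z.2.1 ⟨(j : ℕ) - m * L, by
            have := j.2
            have := add_one_mul m L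
            omega⟩, z.2.2) :=
      ⟨_, rfl⟩
    have e : (fun n => (blk a ((m + 1) * L) n, res M n)) =
        fun n => f (blk a (m * L) n, blk a L (n + m * L), res M n) := by
      refine funext fun n => hf ▸ Prod.ext (funext fun j => ?_) rfl
      simp only [blk]
      split_ifs with hj
      · rfl
      · rw [show n + m * L + ((j : ℕ) - m * L) = n + j by omega]
    have hsub := ent_submodular hw (blk a (m * L)) (fun n => blk a L (n + m * L)) (res M)
    have hinj : ent (Ioc z.1 z.2) (spanW z) (fun n => (blk a L (n + m * L), res M n)) =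
        ent (Ioc z.1 z.2) (spanW z) (fun n => (blk a L (n + m * L), res M (n + m * L))) := by
      rw [← ent_comp_injective (fun n => (blk a L (n + m * L), res M n))
        (f := fun z => (z.1, z.2 + res M (m * L)))
        fun a b h => Prod.ext (Prod.mk.inj h).1 (add_right_cancel (Prod.mk.inj h).2)]
      simp only [← res_add]
    rw [hinj] at hsub
    rw [e]
    have := ent_comp_le hw (fun n => (blk a (m * L) n, blk a L (n + m * L), res M n)) f
    have := (abs_le.1 hshift).2
    push_cast
    linarith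

/-- The mutual information of the block and the residues, with the residues taken as uniform. -/
def defect {α : Type*} [DecidableEq α] (a : ℕ → α) (z : ℕ × ℕ) (M L : ℕ) : ℝ :=
  ent (Ioc z.1 z.2) (spanW z) (blk a L) + logResidues M -
    ent (Ioc z.1 z.2) (spanW z) (fun n => (blk a L n, res M n))

/-- **The step of the decrement.** -/
theorem eventually_ent_blk_le (M L : ℕ) {k : ℕ} (hk : 1 ≤ k) {ε : ℝ} (hε : 0 < ε) :
    ∀ᶠ z in spanFilter, ∀ a : ℕ → α, ent (Ioc z.1 z.2) (spanW z) (blk a (k * L)) ≤
      k * ent (Ioc z.1 z.2) (spanW z) (blk a L) + logResidues M - k * defect a z M L + ε := by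
  filter_upwards [eventually_ent_blk_mul_le (α := α) M L k (half_pos hε),
    eventually_ent_res_ge M (show 0 < ε / (2 * k) by positivity),
    eventually_spanHarm_pos] with z h1 h2 hN a
  replace h1 := h1 a
  have h3 := ent_comp_le (isWeights_spanW hN) (fun n => (blk a (k * L) n, res M n)) Prod.fst
  have hk1 : (1 : ℝ) ≤ k := Nat.one_le_cast.2 hk
  have h4 := mul_le_mul_of_nonneg_left h2 (show 0 ≤ (k : ℝ) - 1 by linarith)
  have h5 : ((k : ℝ) - 1) * (ε / (2 * k)) ≤ ε / 2 := by
    rw [← mul_div_assoc, div_le_iff₀ (by positivity), show ε / 2 * (2 * (k : ℝ)) = ε * k by ring]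
    linarith
  rw [defect]
  linarith

theorem ent_blk_le {z : ℕ × ℕ} (hN : 0 < spanHarm z) (a : ℕ → α) (L : ℕ) :
    ent (Ioc z.1 z.2) (spanW z) (blk a L) ≤ L * Real.log (Fintype.card α) := by
  refine (ent_le_log_card (isWeights_spanW hN) (blk a L)).trans (le_of_eq ?_)
  rw [Fintype.card_fun, Fintype.card_fin]
  push_cast
  rw [Real.log_pow]

theorem one_lt_log_of_five {u : ℝ} (hu : 3 ≤ u) : 1 < Real.log u := by
  rw [Real.lt_log_iff_exp_lt (by linarith)]
  linarith [Real.exp_one_lt_d9]

/-- **The entropy decrement.** -/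
theorem exists_scales (α : Type*) [Fintype α] [DecidableEq α] (h : ℕ) {η : ℝ} (hη : 0 < η)
    (M₀ : ℕ) : ∃ S : Finset ℕ, (∀ M ∈ S, M₀ ≤ M) ∧ ∀ᶠ z in spanFilter, ∀ a : ℕ → α,
      ∃ M ∈ S, defect a z M (4 * h * M) ≤ η * (dyadicPrimes M).card := by
  obtain ⟨A, hA⟩ : ∃ A : ℝ, A = Real.log (Fintype.card α) := ⟨_, rfl⟩
  have hA0 : 0 ≤ A := hA ▸ Real.log_natCast_nonneg _
  obtain ⟨M₁, hM₁⟩ := eventually_atTop.1
    (eventually_card_dyadicPrimes_ge.and (eventually_ge_atTop (2 ^ 5)))
  obtain ⟨k, hk⟩ : ∃ k : ℕ → ℕ,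
      k = fun M : ℕ => ⌈16 * Real.log (2 * M) * Real.log M / η⌉₊ + 2 := ⟨_, rfl⟩
  obtain ⟨seq, hs0, hs1⟩ : ∃ seq : ℕ → ℕ, seq 0 = M₀ + M₁ + 2 ^ 5 ∧
      ∀ i, seq (i + 1) = k (seq i) * seq i :=
    ⟨fun i => Nat.rec (M₀ + M₁ + 2 ^ 5) (fun _ M => k M * M) i, rfl, fun i => rfl⟩
  have hk2 : ∀ M, 2 ≤ k M := fun M => hk ▸ Nat.le_add_left 2 _
  have hge : ∀ i, M₀ + M₁ + 2 ^ 5 ≤ seq i := fun i => by
    induction i with
    | zero => rw [hs0]
    | succ i ih =>
      rw [hs1]
      exact ih.trans (Nat.le_mul_of_pos_left _ (by have := hk2 (seq i); omega))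
  obtain ⟨u, hu⟩ : ∃ u : ℕ → ℝ, u = fun i => Real.log (seq i) := ⟨_, rfl⟩
  have hsq : ∀ i, (0 : ℝ) < seq i := fun i => Nat.cast_pos.2 (by have := hge i; omega)
  have hu3 : ∀ i, 3 ≤ u i := fun i => by
    have h1 : ((2 : ℝ) ^ 5) ≤ seq i := by exact_mod_cast (Nat.le_add_left _ _).trans (hge i)
    have h2 := Real.log_le_log (by positivity) h1
    rw [Real.log_pow, Nat.cast_ofNat] at h2
    simp only [hu]
    linarith [Real.log_two_gt_d9]
  have hlk : ∀ i, 0 < Real.log (k (seq i) : ℝ) := fun i =>
    Real.log_pos (by exact_mod_cast hk2 (seq i))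
  have hus : ∀ i, u (i + 1) = Real.log (k (seq i) : ℝ) + u i := fun i => by
    simp only [hu, hs1, Nat.cast_mul]
    exact Real.log_mul (Nat.cast_ne_zero.2 (by have := hk2 (seq i); omega)) (hsq i).ne'
  have hgrow : ∀ i : ℕ, i * Real.log 2 ≤ u i := fun i => by
    induction i with
    | zero => simp only [Nat.cast_zero, zero_mul]; linarith [hu3 0]
    | succ i ih =>
      rw [hus, Nat.cast_succ, add_one_mul]
      have : Real.log 2 ≤ Real.log (k (seq i) : ℝ) :=
        Real.log_le_log two_pos (by exact_mod_cast hk2 (seq i))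
      linarith
  obtain ⟨D, hD⟩ : ∃ D : ℝ, D = |Real.log (32 / η + 3)| + 2 := ⟨_, rfl⟩
  have hD0 : 0 < D := hD ▸ by positivity
  have hkD : ∀ i, Real.log (k (seq i) : ℝ) ≤ D * Real.log (u i) := fun i => by
    have h1 : (k (seq i) : ℝ) ≤ (32 / η + 3) * u i ^ 2 := by
      have hl2 : Real.log (2 * (seq i : ℝ)) ≤ 2 * u i := by
        rw [Real.log_mul two_ne_zero (hsq i).ne']
        simp only [hu]
        linarith [hu ▸ hu3 i, Real.log_two_lt_d9]
      have hl0 : 0 ≤ Real.log (2 * (seq i : ℝ)) := Real.log_nonneg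
        (by linarith [(Nat.one_le_cast (α := ℝ)).2 (show 1 ≤ seq i by have := hge i; omega)])
      have h0 : 0 ≤ 16 * Real.log (2 * (seq i : ℝ)) * u i / η := by
        have := hu3 i
        positivity
      have hceil := (Nat.ceil_lt_add_one h0).le
      have h32 : 16 * Real.log (2 * (seq i : ℝ)) * u i / η ≤ 32 / η * u i ^ 2 := by
        rw [div_mul_eq_mul_div]
        exact div_le_div_of_nonneg_right (by nlinarith [hu3 i]) hη.le
      simp only [hk, hu] at hceil h32 ⊢
      push_cast
      nlinarith [hu ▸ hu3 i]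
    refine (Real.log_le_log (Nat.cast_pos.2 (by have := hk2 (seq i); omega)) h1).trans ?_
    rw [Real.log_mul (by positivity) (pow_ne_zero _ (by linarith [hu3 i])), Real.log_pow, hD,
      add_mul]
    refine add_le_add ((le_abs_self _).trans
      (le_mul_of_one_le_right (abs_nonneg _) (one_lt_log_of_five (hu3 i)).le)) (le_of_eq ?_)
    norm_num
  have hdiv : ∀ I, Real.log (Real.log (u I)) - Real.log (Real.log (u 0)) ≤
      D * ∑ i ∈ range I, (u i)⁻¹ := fun I => by
    induction I with
    | zero => simp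
    | succ I ih =>
      rw [sum_range_succ, mul_add]
      have hl := one_lt_log_of_five (hu3 I)
      have hu0 : 0 < u I := by linarith [hu3 I]
      have h1 : Real.log (u (I + 1)) - Real.log (u I) ≤ Real.log (k (seq I) : ℝ) / u I := by
        rw [← Real.log_div (by linarith [hu3 (I + 1)]) hu0.ne']
        refine (Real.log_le_sub_one_of_pos (div_pos (by linarith [hu3 (I + 1)]) hu0)).trans
          (le_of_eq ?_)
        rw [hus, add_div, div_self hu0.ne']
        ring
      have h2 : Real.log (Real.log (u (I + 1))) - Real.log (Real.log (u I)) ≤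
          (Real.log (u (I + 1)) - Real.log (u I)) / Real.log (u I) := by
        have hl' := one_lt_log_of_five (hu3 (I + 1))
        rw [← Real.log_div (by linarith) (by linarith), sub_div, div_self (by linarith)]
        exact Real.log_le_sub_one_of_pos (div_pos (by linarith) (by linarith))
      have h3 : (Real.log (u (I + 1)) - Real.log (u I)) / Real.log (u I) ≤ D * (u I)⁻¹ := by
        rw [div_le_iff₀ (by linarith)]
        refine h1.trans ?_
        rw [div_eq_mul_inv, mul_right_comm]
        exact mul_le_mul_of_nonneg_right (hkD I) (by positivity)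
      linarith
  obtain ⟨I, hI⟩ : ∃ I : ℕ, D * ((4 * h * A + 1) * 8 / η) + Real.log (Real.log (u 0)) <
      Real.log (Real.log (u I)) := by
    have ht := (Real.tendsto_log_atTop.comp Real.tendsto_log_atTop).comp
      ((tendsto_natCast_atTop_atTop (R := ℝ)).atTop_mul_const (Real.log_pos one_lt_two))
    obtain ⟨I, hI, h3⟩ := ((ht.eventually_gt_atTop
      (D * ((4 * h * A + 1) * 8 / η) + Real.log (Real.log (u 0)))).and
      (((tendsto_natCast_atTop_atTop (R := ℝ)).atTop_mul_const
        (Real.log_pos one_lt_two)).eventually_ge_atTop 3)).exists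
    refine ⟨I, hI.trans_le ?_⟩
    simp only [Function.comp_apply]
    exact Real.log_le_log (by linarith [one_lt_log_of_five h3])
      (Real.log_le_log (by linarith) (hgrow I))
  have hsum : (4 * h * A + 1) * 8 / η < ∑ i ∈ range I, (u i)⁻¹ :=
    lt_of_mul_lt_mul_left (by linarith [hdiv I]) hD0.le
  refine ⟨(range I).image seq, fun M hM => ?_, ?_⟩
  · obtain ⟨i, -, rfl⟩ := mem_image.1 hM
    have := hge i
    omega
  have hstep : ∀ᶠ z in spanFilter, ∀ i ∈ range I, ∀ b : ℕ → α,
      ent (Ioc z.1 z.2) (spanW z) (blk b (k (seq i) * (4 * h * seq i))) ≤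
        k (seq i) * ent (Ioc z.1 z.2) (spanW z) (blk b (4 * h * seq i)) + logResidues (seq i) -
          k (seq i) * defect b z (seq i) (4 * h * seq i) + 1 / (I + 1) :=
    (eventually_all_finset _).2 fun i _ => eventually_ent_blk_le _ _
      (by have := hk2 (seq i); omega) (by positivity)
  filter_upwards [hstep, eventually_spanHarm_pos] with z hN hN1 b
  by_contra hcon
  simp only [mem_image, exists_exists_and_eq_and, not_exists, not_and, not_le] at hcon
  obtain ⟨a, ha⟩ : ∃ a : ℕ → ℝ,
      a = fun i => ent (Ioc z.1 z.2) (spanW z) (blk b (4 * h * seq i)) / seq i := ⟨_, rfl⟩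
  have hdrop : ∀ i ∈ range I, a (i + 1) ≤ a i - η / 8 * (u i)⁻¹ + 1 / (I + 1) := fun i hi => by
    obtain ⟨hcard, -⟩ := hM₁ (seq i) (by have := hge i; omega)
    have hui : 0 < u i := by linarith [hu3 i]
    have hcard' : η * ((seq i : ℝ) / (4 * u i)) ≤ defect b z (seq i) (4 * h * seq i) :=
      (mul_le_mul_of_nonneg_left (by simpa [hu] using hcard) hη.le).trans (hcon i hi).le
    have hlr := logResidues_le (show 1 ≤ seq i by have := hge i; omega)
    have hkl : 16 * Real.log (2 * (seq i : ℝ)) * u i / η ≤ (k (seq i) : ℝ) := by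
      refine (Nat.le_ceil _).trans ?_
      simp only [hk, hu]
      push_cast
      linarith
    rw [div_le_iff₀ hη] at hkl
    have hk0 : (0 : ℝ) < k (seq i) := Nat.cast_pos.2 (by have := hk2 (seq i); omega)
    have hm : (0 : ℝ) < seq i := hsq i
    have hm1 : (1 : ℝ) ≤ seq i := Nat.one_le_cast.2 (by have := hge i; omega)
    have hkey := hN i hi b
    have he : ent (Ioc z.1 z.2) (spanW z) (blk b (4 * h * seq (i + 1))) =
        ent (Ioc z.1 z.2) (spanW z) (blk b (k (seq i) * (4 * h * seq i))) :=
      congrArg (fun L => ent (Ioc z.1 z.2) (spanW z) (blk b L)) (by rw [hs1]; ring)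
    simp only [ha]
    rw [he, hs1, Nat.cast_mul, div_le_iff₀ (mul_pos hk0 hm)]
    have h1 : logResidues (seq i) ≤ η * (seq i) * k (seq i) / (16 * u i) := by
      refine hlr.trans ((le_div_iff₀ (by positivity)).2 ?_)
      nlinarith [mul_le_mul_of_nonneg_left hkl hm.le]
    have h2 := mul_le_mul_of_nonneg_left hcard' hk0.le
    have h3 : (1 : ℝ) / (I + 1) ≤ 1 / (I + 1) * (k (seq i) * seq i) :=
      le_mul_of_one_le_right (by positivity)
        (one_le_mul_of_one_le_of_one_le (by exact_mod_cast (hk2 (seq i)).trans' one_le_two) hm1)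
    refine hkey.trans (le_trans (add_le_add (sub_le_sub (add_le_add le_rfl h1) h2) h3)
      (le_of_le_of_eq
      (show _ ≤ (k (seq i) : ℝ) * ent (Ioc z.1 z.2) (spanW z) (blk b (4 * h * seq i)) -
        η * seq i * k (seq i) / (8 * u i) + 1 / (I + 1) * (k (seq i) * seq i) from ?_) ?_))
    · have h4 : 0 ≤ η * seq i * k (seq i) / (16 * u i) := by positivity
      have e1 : (k (seq i) : ℝ) * (η * ((seq i : ℝ) / (4 * u i))) =
          4 * (η * seq i * k (seq i) / (16 * u i)) := by ring
      have e2 : η * (seq i : ℝ) * k (seq i) / (8 * u i) =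
          2 * (η * seq i * k (seq i) / (16 * u i)) := by ring
      linarith
    · field_simp
  have htel : ∀ J ≤ I, a J ≤ a 0 - η / 8 * ∑ i ∈ range J, (u i)⁻¹ + J * (1 / (I + 1)) := fun J => by
    induction J with
    | zero => simp
    | succ J ih =>
      intro hJ
      rw [sum_range_succ, Nat.cast_succ]
      linarith [hdrop J (mem_range.2 hJ), ih (by omega)]
  have h0 : a 0 ≤ 4 * h * A := by
    simp only [ha]
    rw [div_le_iff₀ (hsq 0)]
    exact (ent_blk_le hN1 b _).trans_eq (by rw [← hA]; push_cast; ring)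
  have hI0 : 0 ≤ a I := ha ▸ div_nonneg (ent_nonneg (isWeights_spanW hN1) _) (Nat.cast_nonneg _)
  have hI1 : (I : ℝ) * (1 / (I + 1)) ≤ 1 := by
    rw [mul_one_div, div_le_one (by positivity)]
    linarith
  rw [div_lt_iff₀ hη] at hsum
  linarith [htel I le_rfl]

end FA.LogChowla

end
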