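import Fermat.Agent.LogChowla.Correlation
import Fermat.Agent.LogChowla.Decrement
import Mathlib.Analysis.Complex.Exponential

/-!
# Tao's theorem

`∑_{U < n ≤ N} λ n λ (n + h) / n = o (∑_{U < n ≤ N} 1 / n)` for every `h ≥ 1`, as the sum on the
right grows, also with `n` confined to a progression; in particular
`∑_{n ≤ N} λ n λ (n + h) / n = o (log N)`. Take bounded real kernels `Φ p m m'`, one for each
prime `p`, with `Φ p (p m) (p m') = Ω m m'` and near functions of the letters of `m, m'` in a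
finite alphabet. The mean of `Ω` at distance `h` is an average over `p ∈ (M, 2 M]` of
`p 1_{p ∣ n + j} Φ p (n + j) (n + j + p h)`; at a scale of small mutual information the
divisibility may be replaced by its mean, so the mean is small when the averaged correlations of
the `Φ p` are. For the progression `Q ∣ m + s` take the kernel `[Q ∣ m + p s] λ m λ m'`.
-/

set_option autoImplicit false

noncomputable section

namespace FA.LogChowla

open Finset Filter
open FA.ShortExpSums (winSum)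
open FA.ShortLiouville (liou)
open scoped Topology

theorem lam_mul (m n : ℕ) : lam (m * n) = lam m * lam n := by
  simp only [lam]
  rw [ArithmeticFunction.liouville_apply_mul, Int.cast_mul]

theorem lam_prime {p : ℕ} (hp : p.Prime) : lam p = -1 := by
  have h := lam_cast p
  rw [ShortLiouville.liou_prime hp] at h
  exact Complex.ofReal_injective (by rw [h]; push_cast; rfl)

theorem abs_lam_mul_le (m n : ℕ) : |lam m * lam n| ≤ 1 := by
  rw [abs_mul]
  exact mul_le_one₀ (abs_lam_le m) (abs_nonneg _) (abs_lam_le n)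

/-- **Dilation.** -/
theorem abs_logMean_dilate_sub_le {Φ Ω : ℕ → ℕ → ℝ} (hΦ : ∀ m m', |Φ m m'| ≤ 1)
    (hΩ : ∀ m m', |Ω m m'| ≤ 1) (N h j : ℕ) {p : ℕ} (hp : p.Prime)
    (hdil : ∀ m m', Φ (p * m) (p * m') = Ω m m') :
    |logMean N (fun n => if p ∣ n + j then (p : ℝ) * Φ (n + j) (n + j + p * h) else 0) -
        logMean N (fun n => Ω n (n + h))| ≤ (1 + 3 * j) * p / harm N := by
  obtain ⟨φ, hφ⟩ : ∃ φ : ℕ → ℝ,
      φ = fun m => if p ∣ m then (p : ℝ) * Φ m (m + p * h) else 0 := ⟨_, rfl⟩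
  have hφb : ∀ m, |φ m| ≤ p := fun m => by
    simp only [hφ]
    split_ifs
    · rw [abs_mul, Nat.abs_cast]
      exact mul_le_of_le_one_right (Nat.cast_nonneg p) (hΦ _ _)
    · simp
  have h1 := abs_logMean_shift_sub_le N φ hφb j
  have hp0 : (0 : ℝ) < p := Nat.cast_pos.2 hp.pos
  have h2 : |logMean N φ - logMean N (fun n => Ω n (n + h))| ≤ p / harm N := by
    rw [logMean_eq, logMean_eq, ← sub_div, abs_div, abs_of_nonneg (harm_nonneg N)]
    refine div_le_div_of_nonneg_right ?_ (harm_nonneg N)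
    have e : ∑ n ∈ Icc 1 N, (n : ℝ)⁻¹ * φ n =
        ∑ m ∈ Icc 1 (N / p), (m : ℝ)⁻¹ * Ω m (m + h) := by
      simp only [hφ, mul_ite, mul_zero]
      rw [← sum_filter, Katai.sum_filter_dvd hp.pos]
      refine sum_congr rfl fun m _ => ?_
      rw [← mul_add, hdil, Nat.cast_mul, mul_inv]
      field_simp
    rw [e, abs_sub_comm, ← sum_sdiff (Icc_subset_Icc_right (Nat.div_le_self N p)),
      add_sub_cancel_right]
    rcases Nat.eq_zero_or_pos N with rfl | hN
    · rw [Nat.zero_div, Icc_eq_empty_of_lt zero_lt_one, sdiff_self, bot_eq_empty, sum_empty,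
        abs_zero]
      exact hp0.le
    have hN0 : (0 : ℝ) < N := Nat.cast_pos.2 hN
    refine (abs_sum_le_sum_abs _ _).trans
      ((sum_le_card_nsmul _ _ ((p : ℝ) / N) fun n hn => ?_).trans ?_)
    · simp only [Finset.mem_sdiff, Finset.mem_Icc, not_and, not_le] at hn
      have hlt := Nat.div_lt_iff_lt_mul hp.pos |>.1 (hn.2 hn.1.1)
      rw [abs_mul, abs_inv, Nat.abs_cast]
      refine (mul_le_of_le_one_right (by positivity) (hΩ _ _)).trans ?_
      rw [inv_le_iff_one_le_mul₀ (Nat.cast_pos.2 hn.1.1), div_mul_eq_mul_div,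
        le_div_iff₀ hN0, one_mul, mul_comm]
      exact_mod_cast hlt.le
    · rw [nsmul_eq_mul]
      refine (mul_le_mul_of_nonneg_right (Nat.cast_le.2 ((card_le_card (sdiff_subset)).trans
        (le_of_eq (by simp : (Icc 1 N).card = N)))) (by positivity)).trans (le_of_eq ?_)
      field_simp
  refine le_trans (abs_sub_le _ (logMean N φ) _) ((add_le_add (le_of_eq_of_le ?_ h1) h2).trans
    (le_of_eq (by ring)))
  rw [hφ]

/-- **Dilation**, over a span. -/
theorem abs_spanMean_dilate_sub_le {Φ Ω : ℕ → ℕ → ℝ} (hΦ : ∀ m m', |Φ m m'| ≤ 1)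
    (hΩ : ∀ m m', |Ω m m'| ≤ 1) {z : ℕ × ℕ} (hz : 0 < spanHarm z) (h j : ℕ) {p : ℕ}
    (hp : p.Prime) (hdil : ∀ m m', Φ (p * m) (p * m') = Ω m m') :
    |spanMean z (fun n => if p ∣ n + j then (p : ℝ) * Φ (n + j) (n + j + p * h) else 0) -
        spanMean z (fun n => Ω n (n + h))| ≤ 2 * ((1 + 3 * j) * p) / spanHarm z :=
  abs_spanMean_sub_le hz _ _ (by positivity) fun N =>
    abs_logMean_dilate_sub_le hΦ hΩ N h j hp hdil

/-- The kernel of two letters of a block. -/
def kerExt {α : Type*} (κ : α → α → ℝ) (L : ℕ) (x : Fin L → α) (i j : ℕ) : ℝ :=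
  if h : i < L ∧ j < L then κ (x ⟨i, h.1⟩) (x ⟨j, h.2⟩) else 0

variable {α : Type*} {κ : α → α → ℝ} {K : ℕ → α → α → ℝ}

theorem abs_kerExt_le (hκ : ∀ a b, |κ a b| ≤ 1) (L : ℕ) (x : Fin L → α) (i j : ℕ) :
    |kerExt κ L x i j| ≤ 1 := by
  unfold kerExt
  split_ifs
  exacts [hκ _ _, by simp]

/-- The part of one prime, for given values. -/
def primeTerm (M h : ℕ) (c : ℕ → ℝ) (p : ↥(dyadicPrimes M)) (r : ZMod p) : ℝ :=
  ∑ j ∈ range (2 * h * M), ((if r + (j : ZMod p) = 0 then ((p : ℕ) : ℝ) else 0) - 1) * c j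

/-- The part of one prime, from a block. -/
def primePart (K : ℕ → α → α → ℝ) (M h : ℕ) (x : Fin (4 * h * M) → α) (p : ↥(dyadicPrimes M))
    (r : ZMod p) : ℝ :=
  primeTerm M h (fun j => kerExt (K p) (4 * h * M) x j (j + p * h)) p r

theorem sum_primeTerm_eq_zero (M h : ℕ) (c : ℕ → ℝ) (p : ↥(dyadicPrimes M)) :
    ∑ r, primeTerm M h c p r = 0 := by
  simp only [primeTerm]
  rw [sum_comm]
  refine sum_eq_zero fun j _ => ?_
  rw [← sum_mul, sum_sub_distrib, sum_eq_single (-(j : ZMod p)) (fun r _ hr => if_neg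
    fun e => hr (eq_neg_of_add_eq_zero_left e)) fun h => absurd (mem_univ _) h]
  simp [ZMod.card]

theorem abs_primeTerm_le (M h : ℕ) {c : ℕ → ℝ} {B : ℝ} (hc : ∀ j < 2 * h * M, |c j| ≤ B)
    (hB : 0 ≤ B) (p : ↥(dyadicPrimes M)) (r : ZMod p) :
    |primeTerm M h c p r| ≤ B * ((8 * h + 4) * M) := by
  obtain ⟨hp, hMp, hp2⟩ := mem_dyadicPrimes.1 p.2
  refine (abs_sum_le_sum_abs _ _).trans ((sum_le_sum (g := fun j : ℕ =>
    B * ((if r + (j : ZMod p) = 0 then ((p : ℕ) : ℝ) else 0) + 1)) fun j hj => ?_).trans ?_)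
  · rw [abs_mul, mul_comm B]
    refine mul_le_mul ((abs_sub _ _).trans (le_of_eq ?_)) (hc j (mem_range.1 hj)) (abs_nonneg _)
      (add_nonneg (by split_ifs <;> positivity) zero_le_one)
    rw [abs_one, abs_of_nonneg]
    split_ifs <;> positivity
  · rw [← mul_sum]
    refine mul_le_mul_of_nonneg_left ?_ hB
    rw [sum_add_distrib, ← sum_filter, sum_const, sum_const, nsmul_eq_mul, nsmul_one, card_range]
    have hcard : ((range (2 * h * M)).filter fun j : ℕ => r + (j : ZMod p) = 0).card ≤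
        2 * h + 1 := by
      refine (card_le_card_of_injOn (fun j => j / (p : ℕ)) (t := range (2 * h + 1))
        (fun j hj => ?_) fun a ha b hb e => ?_).trans (card_range _).le
      · simp only [mem_coe, mem_filter, mem_range] at hj ⊢
        rw [Nat.div_lt_iff_lt_mul hp.pos]
        have : 2 * h * M ≤ 2 * h * (p : ℕ) := Nat.mul_le_mul_left _ hMp.le
        have := add_one_mul (2 * h) (p : ℕ)
        omega
      · simp only [mem_coe, mem_filter] at ha hb
        have h1 := (ZMod.natCast_eq_natCast_iff _ _ _).1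
          (add_left_cancel (ha.2.trans hb.2.symm))
        simp only at e
        rw [← Nat.div_add_mod a (p : ℕ), ← Nat.div_add_mod b (p : ℕ), e, h1]
    have h1 := mul_le_mul (Nat.cast_le (α := ℝ).2 hcard) (Nat.cast_le (α := ℝ).2 hp2)
      (by positivity) (by positivity)
    push_cast at h1 ⊢
    have : (0 : ℝ) ≤ (h : ℝ) * M := by positivity
    linarith

theorem exp_le_one_add_add_sq {y : ℝ} (hy : |y| ≤ 1) : Real.exp y ≤ 1 + y + y ^ 2 := by
  linarith [(abs_le.1 (Real.abs_exp_sub_one_sub_id_le hy)).2]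

/-- **Hoeffding**, over independent uniform residues. -/
theorem sum_exp_primePart_le (M h : ℕ) (hK : ∀ p a b, |K p a b| ≤ 1) (x : Fin (4 * h * M) → α)
    {t δ : ℝ} (hδ1 : δ ≤ 1)
    (ht : |t| * ((8 * h + 4) * M) ≤ δ) :
    ∑ y : Residues M, Real.exp (t * ∑ p, primePart K M h x p (y p)) ≤
      Fintype.card (Residues M) * Real.exp ((dyadicPrimes M).card * δ ^ 2) := by
  have h1 : ∀ p : ↥(dyadicPrimes M),
      ∑ r, Real.exp (t * primePart K M h x p r) ≤ ((p : ℕ) : ℝ) * Real.exp (δ ^ 2) := fun p => by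
    have hb : ∀ r, |t * primePart K M h x p r| ≤ δ := fun r => by
      rw [abs_mul]
      refine (mul_le_mul_of_nonneg_left (abs_primeTerm_le M h
        (fun j _ => abs_kerExt_le (hK p) _ _ _ _)
        zero_le_one p r) (abs_nonneg t)).trans ?_
      rwa [one_mul]
    refine (sum_le_sum (g := fun r => 1 + t * primePart K M h x p r + δ ^ 2) fun r _ => ?_).trans ?_
    · refine (exp_le_one_add_add_sq ((hb r).trans hδ1)).trans (add_le_add le_rfl ?_)
      rw [← sq_abs]
      exact pow_le_pow_left₀ (abs_nonneg _) (hb r) 2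
    · rw [sum_add_distrib, sum_add_distrib, ← mul_sum,
        show ∑ r, primePart K M h x p r = 0 from sum_primeTerm_eq_zero _ _ _ _, mul_zero, add_zero,
        sum_const, sum_const, card_univ, ZMod.card, nsmul_one, nsmul_eq_mul]
      nlinarith [Real.add_one_le_exp (δ ^ 2), Nat.cast_nonneg (α := ℝ) (p : ℕ)]
  simp only [mul_sum, Real.exp_sum]
  rw [← Fintype.prod_sum (fun p r => Real.exp (t * primePart K M h x p r))]
  refine (prod_le_prod (fun p _ => sum_nonneg fun r _ => (Real.exp_pos _).le)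
    fun p _ => h1 p).trans (le_of_eq ?_)
  rw [prod_mul_distrib, prod_const, card_univ, Fintype.card_coe, ← Real.exp_nat_mul,
    Fintype.card_pi]
  push_cast
  simp only [ZMod.card]

/-- The divisibility replaced by its mean, at a scale of small defect. -/
theorem abs_spanMean_primePart_le [Fintype α] [DecidableEq α] (hK : ∀ p a b, |K p a b| ≤ 1)
    (a : ℕ → α)
    {M h : ℕ} {z : ℕ × ℕ} (hN : 0 < spanHarm z) (hM : 1 ≤ M) {δ : ℝ} (hδ : 0 < δ)
    (hδ1 : δ ≤ 1)
    (hdef : defect a z M (4 * h * M) ≤ δ ^ 2 * (dyadicPrimes M).card) :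
    |spanMean z fun n => ∑ p, primePart K M h (blk a (4 * h * M) n) p (res M n p)| ≤
      2 * (8 * h + 4) * δ * ((dyadicPrimes M).card * M) := by
  obtain ⟨B, hB⟩ : ∃ B : ℝ, B = (8 * h + 4) * M := ⟨_, rfl⟩
  have hB0 : 0 < B := hB ▸ mul_pos (by positivity) (Nat.cast_pos.2 hM)
  have hdv : ∀ t : ℝ, |t| = δ / B →
      t * spanMean z (fun n => ∑ p, primePart K M h (blk a (4 * h * M) n) p (res M n p)) ≤
        2 * δ ^ 2 * (dyadicPrimes M).card := fun t ht => by
    have h1 := mul_sum_le_defect (isWeights_spanW hN) (blk a (4 * h * M)) (res M)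
      (fun x y => ∑ p, primePart K M h x p (y p)) t ((dyadicPrimes M).card * δ ^ 2)
      (fun x => sum_exp_primePart_le M h hK x hδ1 (by rw [ht, ← hB, div_mul_cancel₀ _ hB0.ne']))
    have h2 : ent (Ioc z.1 z.2) (spanW z) (blk a (4 * h * M)) +
        Real.log (Fintype.card (Residues M)) -
        ent (Ioc z.1 z.2) (spanW z) (fun n => (blk a (4 * h * M) n, res M n)) ≤
          δ ^ 2 * (dyadicPrimes M).card := hdef
    rw [spanMean]
    linarith
  have hp := hdv (δ / B) (abs_of_pos (by positivity))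
  have hn := hdv (-(δ / B)) (by rw [abs_neg, abs_of_pos (by positivity)])
  rw [neg_mul] at hn
  have h3 : δ / B * |spanMean z fun n => ∑ p, primePart K M h (blk a (4 * h * M) n) p (res M n p)| ≤
      2 * δ ^ 2 * (dyadicPrimes M).card := by
    rcases abs_choice (spanMean z fun n =>
      ∑ p, primePart K M h (blk a (4 * h * M) n) p (res M n p)) with e | e <;> rw [e]
    · exact hp
    · rw [mul_neg]
      exact hn
  rw [div_mul_eq_mul_div, div_le_iff₀ hB0] at h3
  refine le_of_mul_le_mul_left (h3.trans (le_of_eq ?_)) hδ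
  rw [hB]
  ring

/-- The two parts give the dilated mean. -/
theorem sum_primeTerm_add {M h n : ℕ} (Φ : ℕ → ℕ → ℕ → ℝ) :
    (∑ p : ↥(dyadicPrimes M), primeTerm M h (fun j => Φ p (n + j) (n + j + p * h)) p (res M n p)) +
        ∑ p ∈ dyadicPrimes M, ∑ j ∈ range (2 * h * M), Φ p (n + j) (n + j + p * h) =
      ∑ p ∈ dyadicPrimes M, ∑ j ∈ range (2 * h * M),
        if p ∣ n + j then (p : ℝ) * Φ p (n + j) (n + j + p * h) else 0 := by
  rw [← sum_coe_sort (dyadicPrimes M) (fun p =>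
      ∑ j ∈ range (2 * h * M), Φ p (n + j) (n + j + p * h)),
    ← sum_coe_sort (dyadicPrimes M) (fun p => ∑ j ∈ range (2 * h * M),
      if p ∣ n + j then (p : ℝ) * Φ p (n + j) (n + j + p * h) else 0),
    ← sum_add_distrib]
  refine sum_congr rfl fun p _ => ?_
  rw [primeTerm, ← sum_add_distrib]
  refine sum_congr rfl fun j hj => ?_
  have hiff : res M n p + (j : ZMod p) = 0 ↔ (p : ℕ) ∣ n + j := by
    rw [res, ← Nat.cast_add, ZMod.natCast_eq_zero_iff]
  by_cases hd : (p : ℕ) ∣ n + j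
  · rw [if_pos hd, if_pos (hiff.2 hd)]
    ring
  · rw [if_neg hd, if_neg fun e => hd (hiff.1 e)]
    ring

/-- Replacing the kernel of the letters by `Φ` costs the distance. -/
theorem abs_sum_primeTerm_sub_le {Φ : ℕ → ℕ → ℕ → ℝ} {a : ℕ → α} {σ : ℝ} (hσ : 0 ≤ σ)
    (hclose : ∀ p m m', 1 ≤ m → 1 ≤ m' → |Φ p m m' - K p (a m) (a m')| ≤ σ) {M h n : ℕ}
    (hn : 1 ≤ n) :
    |(∑ p : ↥(dyadicPrimes M), primeTerm M h (fun j => Φ p (n + j) (n + j + p * h)) p (res M n p)) -
        ∑ p, primePart K M h (blk a (4 * h * M) n) p (res M n p)| ≤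
      (dyadicPrimes M).card * (σ * ((8 * h + 4) * M)) := by
  rw [← sum_sub_distrib]
  refine (abs_sum_le_sum_abs _ _).trans ((sum_le_card_nsmul _ _ (σ * ((8 * h + 4) * M))
    fun p _ => ?_).trans_eq (by rw [card_univ, Fintype.card_coe, nsmul_eq_mul]))
  rw [primePart, primeTerm, primeTerm, ← sum_sub_distrib]
  simp only [← mul_sub]
  refine abs_primeTerm_le M h (c := fun j => Φ p (n + j) (n + j + p * h) -
    kerExt (K p) (4 * h * M) (blk a (4 * h * M) n) j (j + p * h)) (fun j hj => ?_) hσ p _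
  obtain ⟨-, -, hp2⟩ := mem_dyadicPrimes.1 p.2
  have hph : (p : ℕ) * h ≤ 2 * M * h := Nat.mul_le_mul_right h hp2
  rw [kerExt, dif_pos ⟨by nlinarith, by nlinarith⟩]
  simp only [blk, ← add_assoc]
  exact hclose _ _ _ (by omega) (by omega)

/-- **Tao's argument**: among finitely many scales, for every large span one turns a bound for the
averaged correlations of the `Φ p` into one for the mean of `Ω` at distance `h`, uniformly. -/
theorem exists_scales_family (α : Type*) [Fintype α] [DecidableEq α] {h : ℕ} (hh : 1 ≤ h) {ε : ℝ}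
    (hε : 0 < ε) (M₁ : ℕ) : ∃ S : Finset ℕ, (∀ M ∈ S, M₁ ≤ M) ∧ ∀ᶠ z in spanFilter,
      ∀ (Φ : ℕ → ℕ → ℕ → ℝ) (Ω : ℕ → ℕ → ℝ) (a : ℕ → α) (K : ℕ → α → α → ℝ) (σ : ℝ),
        (∀ p m m', |Φ p m m'| ≤ 1) → (∀ m m', |Ω m m'| ≤ 1) →
        (∀ p : ℕ, p.Prime → M₁ < p → ∀ m m', Φ p (p * m) (p * m') = Ω m m') →
        (∀ p x y, |K p x y| ≤ 1) → 0 ≤ σ → (8 * h + 4) * σ ≤ ε →
        (∀ p m m', 1 ≤ m → 1 ≤ m' → |Φ p m m' - K p (a m) (a m')| ≤ σ) →
        (∀ M ∈ S, |spanMean z fun n => ∑ p ∈ dyadicPrimes M, ∑ j ∈ range (2 * h * M),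
          Φ p (n + j) (n + j + p * h)| ≤ ε * (dyadicPrimes M).card * M) →
        |spanMean z fun n => Ω n (n + h)| ≤ 4 * ε := by
  obtain ⟨δ, hδ, hδ1, hδε⟩ : ∃ δ : ℝ, 0 < δ ∧ δ ≤ 1 ∧ 2 * (8 * h + 4) * δ ≤ ε := by
    refine ⟨min 1 (ε / (2 * (8 * h + 4))), by positivity, min_le_left _ _, ?_⟩
    have := mul_le_mul_of_nonneg_left (min_le_right 1 (ε / (2 * (8 * (h : ℝ) + 4))))
      (show (0 : ℝ) ≤ 2 * (8 * h + 4) by positivity)
    rwa [mul_div_cancel₀ _ (by positivity)] at this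
  obtain ⟨M₂, hM₂⟩ := eventually_atTop.1
    (eventually_card_dyadicPrimes_ge.and (eventually_ge_atTop 2))
  obtain ⟨S, hS, hscale⟩ := exists_scales α h (show 0 < δ ^ 2 by positivity) (M₁ + M₂)
  refine ⟨S, fun M hM => (Nat.le_add_right _ _).trans (hS M hM), ?_⟩
  filter_upwards [hscale,
    (eventually_all_finset S).2 fun (M : ℕ) (_ : M ∈ S) =>
      eventually_div_spanHarm_le (2 * h * (2 * ((1 + 6 * h * M) * (2 * M))) : ℝ) hε,
    eventually_spanHarm_pos] with z hsc herr hN Φ Ω a K σ hΦ hΩ hdil hK hσ hσε hclose hco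
  obtain ⟨M, hMS, hdef⟩ := hsc a
  obtain ⟨hcard, hM2⟩ := hM₂ M (by have := hS M hMS; omega)
  have hM0 : (0 : ℝ) < M := Nat.cast_pos.2 (by omega)
  have hM1 : (1 : ℝ) ≤ M := Nat.one_le_cast.2 (by omega)
  obtain ⟨n, hn⟩ : ∃ n : ℝ, n = ((dyadicPrimes M).card : ℝ) := ⟨_, rfl⟩
  have hn0 : 0 < n := by
    rw [hn]
    refine lt_of_lt_of_le (div_pos hM0 ?_) hcard
    have : 0 < Real.log (M : ℝ) := Real.log_pos (by exact_mod_cast hM2)
    linarith
  obtain ⟨E, hE⟩ : ∃ E, E = spanMean z fun m => Ω m (m + h) := ⟨_, rfl⟩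
  have hsum : |(spanMean z fun m => ∑ p ∈ dyadicPrimes M, ∑ j ∈ range (2 * h * M),
      if p ∣ m + j then (p : ℝ) * Φ p (m + j) (m + j + p * h) else 0) -
        n * (2 * h * M) * E| ≤
          n * (2 * h * M) * (2 * ((1 + 6 * h * M) * (2 * M))) / spanHarm z := by
    rw [spanMean_sum, show n * (2 * h * M) * E =
      ∑ p ∈ dyadicPrimes M, ∑ _j ∈ range (2 * h * M), E by
        simp only [sum_const, card_range, nsmul_eq_mul, hn]; push_cast; ring,
      ← sum_sub_distrib]
    refine (abs_sum_le_sum_abs _ _).trans ((sum_le_card_nsmul _ _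
      ((2 * h * M) * (2 * ((1 + 6 * h * M) * (2 * M)) / spanHarm z)) fun p hp => ?_).trans_eq ?_)
    · rw [spanMean_sum, ← sum_sub_distrib]
      refine (abs_sum_le_sum_abs _ _).trans ((sum_le_card_nsmul _ _
        (2 * ((1 + 6 * h * M) * (2 * M)) / spanHarm z) fun j hj => ?_).trans_eq ?_)
      · obtain ⟨hp', hp1, hp2⟩ := mem_dyadicPrimes.1 hp
        rw [hE]
        refine (abs_spanMean_dilate_sub_le (hΦ p) hΩ hN h j hp' (hdil p hp'
          (by have := hS M hMS; omega))).trans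
          (div_le_div_of_nonneg_right ?_ (spanHarm_nonneg z))
        have hj' : (j : ℝ) ≤ 2 * h * M := by exact_mod_cast (mem_range.1 hj).le
        exact mul_le_mul_of_nonneg_left
          (mul_le_mul (by linarith) (by exact_mod_cast hp2) (Nat.cast_nonneg p) (by positivity))
          two_pos.le
      · rw [card_range, nsmul_eq_mul]
        push_cast
        ring
    · rw [nsmul_eq_mul, ← hn]
      ring
  have hsplit : (spanMean z fun m => ∑ p ∈ dyadicPrimes M, ∑ j ∈ range (2 * h * M),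
      if p ∣ m + j then (p : ℝ) * Φ p (m + j) (m + j + p * h) else 0) =
        (spanMean z fun m => ∑ p : ↥(dyadicPrimes M),
          primeTerm M h (fun j => Φ p (m + j) (m + j + p * h)) p (res M m p)) +
          spanMean z fun m => ∑ p ∈ dyadicPrimes M, ∑ j ∈ range (2 * h * M),
            Φ p (m + j) (m + j + p * h) := by
    rw [spanMean, spanMean, spanMean, ← sum_add_distrib]
    exact sum_congr rfl fun m _ => by rw [← mul_add, sum_primeTerm_add]
  have hclose' : |(spanMean z fun m =>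
      ∑ p : ↥(dyadicPrimes M), primeTerm M h (fun j => Φ p (m + j) (m + j + p * h)) p (res M m p)) -
        spanMean z fun m => ∑ p, primePart K M h (blk a (4 * h * M) m) p (res M m p)| ≤
      n * (σ * ((8 * h + 4) * M)) := by
    rw [spanMean, spanMean, ← sum_sub_distrib]
    simp only [← mul_sub]
    exact (abs_spanMean_le z _).trans
      (spanMean_le_const hN fun m hm => hn ▸ abs_sum_primeTerm_sub_le hσ hclose hm)
  have h1 := abs_spanMean_primePart_le hK a hN (by omega) hδ hδ1 hdef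
  have h2 := hco M hMS
  have h3 : n * (2 * h * M) * (2 * ((1 + 6 * h * M) * (2 * M))) / spanHarm z ≤ ε * (n * M) := by
    refine le_of_eq_of_le ?_ (mul_le_mul_of_nonneg_right (herr M hMS)
      (mul_nonneg hn0.le hM0.le))
    ring
  have h4 := mul_le_mul_of_nonneg_right hδε (mul_nonneg hn0.le hM0.le)
  rw [← hn] at h1 h2
  rw [hsplit] at hsum
  have hσn := mul_le_mul_of_nonneg_right hσε (mul_nonneg hn0.le hM0.le)
  have h5 : |n * (2 * h * M) * E| ≤ 4 * ε * (n * M) := by
    have := abs_le.1 hclose'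
    have := abs_le.1 h1
    have := abs_le.1 h2
    have := abs_le.1 hsum
    exact abs_le.2 ⟨by linarith, by linarith⟩
  rw [abs_mul, abs_of_pos (show 0 < n * (2 * h * M) from
    mul_pos hn0 (mul_pos (by positivity) hM0))] at h5
  rw [← hE]
  have hh' : (1 : ℝ) ≤ h := Nat.one_le_cast.2 hh
  have h6 : n * M * |E| ≤ n * (2 * h * M) * |E| := by
    refine mul_le_mul_of_nonneg_right (mul_le_mul_of_nonneg_left ?_ hn0.le) (abs_nonneg E)
    exact le_mul_of_one_le_left hM0.le (by linarith)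
  exact le_of_mul_le_mul_left ((h6.trans h5).trans_eq (mul_comm _ _)) (mul_pos hn0 hM0)

/-- The same for one kernel, invariant under dilation by primes. -/
theorem exists_scales_pair_span (α : Type*) [Fintype α] [DecidableEq α] {h : ℕ} (hh : 1 ≤ h) {ε : ℝ}
    (hε : 0 < ε) (M₁ : ℕ) : ∃ S : Finset ℕ, (∀ M ∈ S, M₁ ≤ M) ∧ ∀ᶠ z in spanFilter,
      ∀ (Φ : ℕ → ℕ → ℝ) (a : ℕ → α) (κ : α → α → ℝ) (σ : ℝ), (∀ m m', |Φ m m'| ≤ 1) →
        (∀ p : ℕ, p.Prime → ∀ m m', Φ (p * m) (p * m') = Φ m m') → (∀ x y, |κ x y| ≤ 1) →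
        0 ≤ σ → (8 * h + 4) * σ ≤ ε →
        (∀ m m', 1 ≤ m → 1 ≤ m' → |Φ m m' - κ (a m) (a m')| ≤ σ) →
        (∀ M ∈ S, |spanMean z fun n => ∑ p ∈ dyadicPrimes M, ∑ j ∈ range (2 * h * M),
          Φ (n + j) (n + j + p * h)| ≤ ε * (dyadicPrimes M).card * M) →
        |spanMean z fun n => Φ n (n + h)| ≤ 4 * ε := by
  obtain ⟨S, hS, hz⟩ := exists_scales_family α hh hε M₁
  exact ⟨S, hS, hz.mono fun z hz Φ a κ σ hΦ hdil hκ hσ hσε hclose =>
    hz (fun _ => Φ) Φ a (fun _ => κ) σ (fun _ => hΦ) hΦ (fun p hp _ => hdil p hp) (fun _ => hκ)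
      hσ hσε fun _ => hclose⟩

/-- The sign of `λ n`. -/
def signBit (n : ℕ) : Bool := decide (ArithmeticFunction.liouville n = 1)

/-- The kernel of the letters `(signBit m, m % Q)` for the progression. -/
def congKer (Q s p : ℕ) (x y : Bool × Fin Q) : ℝ :=
  if Q ∣ (x.2 : ℕ) + p * s then (if x.1 then 1 else -1) * (if y.1 then 1 else -1) else 0

theorem lam_eq_signBit {m : ℕ} (hm : 1 ≤ m) : lam m = if signBit m then 1 else -1 := by
  rcases ShortLiouville.liouville_eq_one_or (show m ≠ 0 by omega) with e | e <;>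
    simp [lam, signBit, e]

/-- **Tao's theorem along a progression**, in the mean over spans. -/
theorem tendsto_spanMean_lam_mul_cong {h Q : ℕ} (hh : 1 ≤ h) (hQ : 0 < Q) (s : ℕ) :
    Tendsto (fun z => spanMean z fun n => if Q ∣ n + s then lam n * lam (n + h) else 0)
      spanFilter (𝓝 0) := by
  rw [Metric.tendsto_nhds]
  intro ε₀ hε₀
  obtain ⟨ε, hε, hεε⟩ : ∃ ε : ℝ, 0 < ε ∧ 4 * ε < ε₀ := ⟨ε₀ / 5, by positivity, by linarith⟩
  obtain ⟨M₁, hcorr⟩ := exists_spanMean_cong_corr_le hh hQ s hε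
  obtain ⟨S, hS, hscale⟩ := exists_scales_family (Bool × Fin Q) hh hε (M₁ + Q)
  filter_upwards [hscale, (eventually_all_finset S).2 fun M hM => hcorr M
    (le_of_add_le_left (hS M hM))] with z hN hco
  rw [Real.dist_eq, sub_zero]
  have hite : ∀ (c : Prop) [Decidable c] (m m' : ℕ),
      |(if c then lam m * lam m' else 0 : ℝ)| ≤ 1 := fun c _ m m' => by
    split_ifs
    exacts [abs_lam_mul_le _ _, by simp]
  refine (hN (fun p m m' => if Q ∣ m + p * s then lam m * lam m' else 0)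
    (fun m m' => if Q ∣ m + s then lam m * lam m' else 0)
    (fun m => (signBit m, ⟨m % Q, Nat.mod_lt m hQ⟩)) (congKer Q s) 0 (fun p m m' => hite _ m m')
    (fun m m' => hite _ m m') (fun p hp hp1 m m' => ?_) (fun p x y => ?_) le_rfl
    (by rw [mul_zero]; exact hε.le) (fun p m m' hm hm' => ?_) hco).trans_lt hεε
  · simp only [← mul_add, lam_mul, lam_prime hp]
    refine if_congr ⟨fun hd => ?_, fun hd => hd.mul_left p⟩ (by ring) rfl
    exact (Nat.Coprime.symm ((hp.coprime_iff_not_dvd).2 fun hd' =>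
      absurd (Nat.le_of_dvd hQ hd') (by omega))).dvd_of_dvd_mul_left hd
  · unfold congKer
    split_ifs <;> simp
  · have hmod : Q ∣ m % Q + p * s ↔ Q ∣ m + p * s := by
      conv_rhs => rw [← Nat.mod_add_div m Q, add_right_comm, Nat.dvd_add_left (dvd_mul_right Q _)]
    simp only [congKer, ← lam_eq_signBit hm, ← lam_eq_signBit hm', hmod, sub_self, abs_zero,
      le_refl]

/-- **Tao's theorem**, in the mean over spans. -/
theorem tendsto_spanMean_lam_mul {h : ℕ} (hh : 1 ≤ h) :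
    Tendsto (fun z => spanMean z fun n => lam n * lam (n + h)) spanFilter (𝓝 0) := by
  simpa using tendsto_spanMean_lam_mul_cong hh one_pos 0

/-- The mean of `λ` over spans vanishes. -/
theorem tendsto_spanMean_lam : Tendsto (fun z => spanMean z lam) spanFilter (𝓝 0) :=
  tendsto_spanMean_of_corr abs_lam_le fun _ hk => tendsto_spanMean_lam_mul hk

/-- Tao's argument in the logarithmic mean. -/
theorem exists_scales_pair (α : Type*) [Fintype α] [DecidableEq α] {h : ℕ} (hh : 1 ≤ h) {ε : ℝ}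
    (hε : 0 < ε) (M₁ : ℕ) : ∃ S : Finset ℕ, (∀ M ∈ S, M₁ ≤ M) ∧ ∀ᶠ N : ℕ in atTop,
      ∀ (Φ : ℕ → ℕ → ℝ) (a : ℕ → α) (κ : α → α → ℝ) (σ : ℝ), (∀ m m', |Φ m m'| ≤ 1) →
        (∀ p : ℕ, p.Prime → ∀ m m', Φ (p * m) (p * m') = Φ m m') → (∀ x y, |κ x y| ≤ 1) →
        0 ≤ σ → (8 * h + 4) * σ ≤ ε →
        (∀ m m', 1 ≤ m → 1 ≤ m' → |Φ m m' - κ (a m) (a m')| ≤ σ) →
        (∀ M ∈ S, |logMean N fun n => ∑ p ∈ dyadicPrimes M, ∑ j ∈ range (2 * h * M),
          Φ (n + j) (n + j + p * h)| ≤ ε * (dyadicPrimes M).card * M) →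
        |logMean N fun n => Φ n (n + h)| ≤ 4 * ε := by
  obtain ⟨S, hS, h⟩ := exists_scales_pair_span α hh hε M₁
  refine ⟨S, hS, ?_⟩
  filter_upwards [tendsto_span_zero.eventually h] with N hN
  simpa only [spanMean_zero] using hN

/-- Tao's theorem in the logarithmic mean up to `N`. -/
theorem tendsto_logMean_lam_mul {h : ℕ} (hh : 1 ≤ h) :
    Tendsto (fun N => logMean N fun n => lam n * lam (n + h)) atTop (𝓝 0) :=
  ((tendsto_spanMean_lam_mul hh).comp tendsto_span_zero).congr fun N => spanMean_zero N _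

/-- `∑_{n ≤ N} λ n / n = o (log N)`. -/
theorem tendsto_logMean_lam : Tendsto (fun N => logMean N lam) atTop (𝓝 0) :=
  (tendsto_spanMean_lam.comp tendsto_span_zero).congr fun N => spanMean_zero N _

/-- `∑_{n ≤ N} 1 / n ∼ log N`. -/
theorem tendsto_harm_div_log : Tendsto (fun N : ℕ => harm N / Real.log N) atTop (𝓝 1) := by
  have ht : Tendsto (fun N : ℕ => Real.log N) atTop atTop :=
    Real.tendsto_log_atTop.comp tendsto_natCast_atTop_atTop
  refine tendsto_of_tendsto_of_tendsto_of_le_of_le' tendsto_const_nhds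
    (show Tendsto (fun N : ℕ => 1 + (Real.log N)⁻¹) atTop (𝓝 1) by
      simpa using ht.inv_tendsto_atTop.const_add 1) ?_ ?_
  · filter_upwards [eventually_ge_atTop 2] with N hN
    rw [le_div_iff₀ (Real.log_pos (by exact_mod_cast hN)), one_mul]
    exact log_le_harm (by omega)
  · filter_upwards [eventually_ge_atTop 2] with N hN
    have hl : 0 < Real.log (N : ℝ) := Real.log_pos (by exact_mod_cast hN)
    rw [div_le_iff₀ hl, add_mul, one_mul, inv_mul_cancel₀ hl.ne']
    linarith [harm_le_one_add_log N]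

theorem tendsto_sum_div_log {f : ℕ → ℝ} {l : ℝ}
    (hf : Tendsto (fun N => logMean N f) atTop (𝓝 l)) :
    Tendsto (fun N : ℕ => (∑ n ∈ Icc 1 N, f n / n) / Real.log N) atTop (𝓝 l) := by
  have h := hf.mul tendsto_harm_div_log
  rw [mul_one] at h
  refine h.congr' ?_
  filter_upwards [eventually_ge_atTop 1] with N hN
  rw [logMean_eq, div_mul_div_comm, mul_comm (harm N) (Real.log N),
    mul_div_mul_right _ _ (harm_pos hN).ne']
  simp only [div_eq_inv_mul]

end FA.LogChowla

end
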