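import Fermat.Agent.LogChowla.Span
import Fermat.Agent.LogChowla.Primes

/-!
# The averaged correlations

`∑_{p ∈ (M, 2 M]} w p ∑_{j < 2 h M} x (n + j) conj (y (n + j + p h))` is `o (M ∑_p 1)` in the
logarithmic mean over spans when the short exponential sums of the bounded `x` and `y` are small
there: for bounded `w` the frequencies where the weighted exponential sum over the primes is large
are bounded in number by the energy. For `λ` twisted by `e (m k / Q)` the theorem of Matomäki,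
Radziwiłł and Tao applies, being uniform in the frequency; this gives the correlations of `λ`
along a progression.
-/

set_option autoImplicit false

noncomputable section

namespace FA.LogChowla

open Finset Filter FA.ThreePrimes
open FA.ShortExpSums (winSum)
open FA.ShortLiouville (liou)
open scoped ComplexConjugate

/-- The averaged correlation of a sequence. -/
def corr (M h : ℕ) (x : ℕ → ℂ) : ℂ :=
  ∑ p ∈ dyadicPrimes M, ∑ j ∈ range (2 * h * M), x j * conj (x (j + p * h))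

/-- The weighted averaged correlation of two sequences. -/
def wcorr (M h : ℕ) (w x y : ℕ → ℂ) : ℂ :=
  ∑ p ∈ dyadicPrimes M, w p * ∑ j ∈ range (2 * h * M), x j * conj (y (j + p * h))

theorem wcorr_one (M h : ℕ) (x : ℕ → ℂ) : wcorr M h (fun _ => 1) x x = corr M h x := by
  simp only [wcorr, corr, one_mul]

/-- An exponential sum on the grid. -/
def gridSum (R : ℕ) (s : Finset ℕ) (c : ℕ → ℂ) (k : ℕ) : ℂ :=
  ∑ i ∈ s, c i * eAdd ((i : ℝ) * (k / R))

theorem sum_grid_eq {R : ℕ} (hR : 0 < R) {a b : ℕ} (ha : a < R) (hb : b < R) :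
    ∑ k ∈ range R, eAdd ((a : ℝ) * (k / R)) * conj (eAdd ((b : ℝ) * (k / R))) =
      if a = b then (R : ℂ) else 0 := by
  have e : ∀ k : ℕ, eAdd ((a : ℝ) * (k / R)) * conj (eAdd ((b : ℝ) * (k / R))) =
      eAdd ((((a : ℤ) - b : ℤ) : ℝ) * k / R) := fun k => by
    rw [conj_eAdd, ← eAdd_add]
    congr 1
    push_cast
    ring
  rw [sum_congr rfl fun k _ => e k, sum_eAdd_grid hR]
  by_cases h : a = b
  · rw [if_pos h, h, sub_self, if_pos (dvd_zero _)]
  · rw [if_neg h, if_neg]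
    intro hd
    have h1 := Int.le_of_dvd (abs_pos.2 (show ((a : ℤ) - b) ≠ 0 by omega)) ((dvd_abs _ _).2 hd)
    have h2 : |((a : ℤ) - b)| < R := abs_lt.2 ⟨by omega, by omega⟩
    omega

theorem sum_gridSum_sq {R : ℕ} (hR : 0 < R) {s : Finset ℕ} (hs : ∀ i ∈ s, i < R) (c : ℕ → ℂ) :
    ∑ k ∈ range R, ‖gridSum R s c k‖ ^ 2 = R * ∑ i ∈ s, ‖c i‖ ^ 2 := by
  have e : ∀ k, ((‖gridSum R s c k‖ ^ 2 : ℝ) : ℂ) = ∑ i ∈ s, ∑ j ∈ s, c i * conj (c j) *
      (eAdd ((i : ℝ) * (k / R)) * conj (eAdd ((j : ℝ) * (k / R)))) := fun k => by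
    rw [Complex.ofReal_pow, ← Complex.mul_conj', gridSum, map_sum, sum_mul_sum]
    refine sum_congr rfl fun i _ => sum_congr rfl fun j _ => ?_
    rw [map_mul]
    ring
  refine Complex.ofReal_injective ?_
  rw [Complex.ofReal_sum, sum_congr rfl fun k _ => e k, Complex.ofReal_mul, Complex.ofReal_natCast,
    Complex.ofReal_sum, mul_sum, sum_comm]
  refine sum_congr rfl fun i hi => ?_
  rw [sum_comm, sum_eq_single_of_mem i hi fun j hj hne => ?_]
  · rw [← mul_sum, sum_grid_eq hR (hs i hi) (hs i hi), if_pos rfl, Complex.mul_conj',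
      Complex.ofReal_pow, mul_comm]
  · rw [← mul_sum, sum_grid_eq hR (hs i hi) (hs j hj), if_neg hne.symm, mul_zero]

/-- `∑_{M < p ≤ 2 M} w p e (p h k / R)`. -/
def primeWave (w : ℕ → ℂ) (M h R k : ℕ) : ℂ :=
  ∑ p ∈ dyadicPrimes M, w p * eAdd (((p * h : ℕ) : ℝ) * (k / R))

theorem wcorr_eq_grid {M h R : ℕ} (hR : 8 * h * M < R) (w x y : ℕ → ℂ) :
    (R : ℂ) * wcorr M h w x y = ∑ k ∈ range R,
      gridSum R (range (2 * h * M)) x k * primeWave w M h R k *
        conj (gridSum R (range (4 * h * M)) y k) := by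
  have e : ∀ k, gridSum R (range (2 * h * M)) x k * primeWave w M h R k *
      conj (gridSum R (range (4 * h * M)) y k) =
        ∑ p ∈ dyadicPrimes M, ∑ j ∈ range (2 * h * M), ∑ i ∈ range (4 * h * M),
          w p * x j * conj (y i) * (eAdd (((j + p * h : ℕ) : ℝ) * (k / R)) *
            conj (eAdd ((i : ℝ) * (k / R)))) := fun k => by
    simp only [gridSum, primeWave, map_sum, map_mul, mul_sum, sum_mul]
    rw [sum_comm]
    refine sum_congr rfl fun p _ => ?_
    rw [sum_comm]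
    refine sum_congr rfl fun j _ => sum_congr rfl fun i _ => ?_
    rw [Nat.cast_add, add_mul, eAdd_add]
    ring
  rw [sum_congr rfl fun k _ => e k, sum_comm, wcorr]
  rw [mul_sum]
  refine sum_congr rfl fun p hp => ?_
  rw [sum_comm, mul_sum, mul_sum]
  refine sum_congr rfl fun j hj => ?_
  obtain ⟨-, hp1, hp2⟩ := mem_dyadicPrimes.1 hp
  rw [mem_range] at hj
  have hph : p * h ≤ 2 * M * h := Nat.mul_le_mul_right h hp2
  have hjp : j + p * h < 4 * h * M := by nlinarith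
  have hR' : 4 * h * M ≤ 8 * h * M := Nat.mul_le_mul_right M (by omega)
  rw [sum_comm, sum_eq_single_of_mem (j + p * h) (mem_range.2 hjp) fun i hi hne => ?_]
  · rw [← mul_sum, sum_grid_eq (by omega) (by omega) (by omega), if_pos rfl]
    ring
  · rw [mem_range] at hi
    rw [← mul_sum, sum_grid_eq (by omega) (by omega) (by omega), if_neg hne.symm, mul_zero]

theorem primeWave_sq (w : ℕ → ℂ) (M R k : ℕ) {h : ℕ} (hh : 0 < h) : primeWave w M h R k ^ 2 =
    gridSum R ((Icc 1 (4 * M)).image (· * h))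
      (fun i => ∑ z ∈ primeSumPairs M (i / h), w z.1 * w z.2) k := by
  rw [gridSum, sum_image fun a _ b _ e => Nat.eq_of_mul_eq_mul_right hh e, sq, primeWave,
    sum_mul_sum, ← sum_product', ← sum_fiberwise_of_maps_to (t := Icc 1 (4 * M))
      (g := fun z : ℕ × ℕ => z.1 + z.2) fun z hz => ?_]
  · refine sum_congr rfl fun s _ => ?_
    rw [Nat.mul_div_cancel _ hh, sum_mul, primeSumPairs]
    refine sum_congr rfl fun z hz => ?_
    rw [mul_mul_mul_comm, ← eAdd_add, ← (mem_filter.1 hz).2]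
    congr 2
    push_cast
    ring
  · simp only [mem_product, mem_dyadicPrimes] at hz
    rw [mem_Icc]
    have := hz.1.1.pos
    omega

/-- **Few large frequencies.** -/
theorem card_large_primeWave_le {M h R : ℕ} (hh : 1 ≤ h) (hR : 4 * M * h < R) {δ : ℝ} (hδ : 0 ≤ δ)
    {w : ℕ → ℂ} (hw : ∀ p, ‖w p‖ ≤ 1) :
    (((range R).filter fun k => δ * (dyadicPrimes M).card < ‖primeWave w M h R k‖).card : ℝ) *
        (δ * (dyadicPrimes M).card) ^ 4 ≤
      R * ∑ s ∈ Icc 1 (4 * M), ((primeSumPairs M s).card : ℝ) ^ 2 := by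
  obtain ⟨v, hv⟩ : ∃ v : ℝ, v = δ * (dyadicPrimes M).card := ⟨_, rfl⟩
  have hv0 : 0 ≤ v := hv ▸ by positivity
  rw [← hv, ← nsmul_eq_mul, ← sum_const]
  refine (sum_le_sum (g := fun k => ‖primeWave w M h R k ^ 2‖ ^ 2) fun k hk => ?_).trans ?_
  · simp only [mem_filter] at hk
    rw [norm_pow, ← pow_mul]
    exact pow_le_pow_left₀ hv0 hk.2.le 4
  refine (sum_le_sum_of_subset_of_nonneg (filter_subset _ _) fun k _ _ => sq_nonneg _).trans ?_
  rw [sum_congr rfl fun k _ => by rw [primeWave_sq w M R k (show 0 < h by omega)],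
    sum_gridSum_sq (by omega) (fun i hi => ?_),
    sum_image fun a _ b _ e => Nat.eq_of_mul_eq_mul_right hh e]
  · refine mul_le_mul_of_nonneg_left (sum_le_sum fun s _ => ?_) (Nat.cast_nonneg R)
    rw [Nat.mul_div_cancel _ (show 0 < h by omega)]
    refine pow_le_pow_left₀ (norm_nonneg _) ((norm_sum_le _ _).trans
      ((sum_le_card_nsmul _ _ 1 fun z _ => ?_).trans (by simp))) 2
    rw [norm_mul]
    exact mul_le_one₀ (hw _) (norm_nonneg _) (hw _)
  · obtain ⟨s, hs, rfl⟩ := mem_image.1 hi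
    exact lt_of_le_of_lt (Nat.mul_le_mul_right h (mem_Icc.1 hs).2) hR

theorem logMean_sum {ι : Type*} (N : ℕ) (s : Finset ι) (f : ι → ℕ → ℝ) :
    logMean N (fun n => ∑ i ∈ s, f i n) = ∑ i ∈ s, logMean N (f i) := by
  simp only [logMean, mul_sum]
  exact sum_comm

theorem norm_gridSum_succ (x : ℕ → ℂ) (R K n k : ℕ) :
    ‖gridSum R (range K) (fun j => x (n + 1 + j)) k‖ = ‖winSum x ((k : ℝ) / R) K n‖ := by
  have e : winSum x ((k : ℝ) / R) K n =
      eAdd (((n + 1 : ℕ) : ℝ) * (k / R)) *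
        gridSum R (range K) (fun j => x (n + 1 + j)) k := by
    rw [winSum, gridSum, mul_sum, show Ioc n (n + K) = (range K).map (addLeftEmbedding (n + 1)) by
      ext i
      simp only [Finset.mem_map, mem_range, mem_Ioc, addLeftEmbedding_apply]
      exact ⟨fun hi => ⟨i - (n + 1), by omega, by omega⟩, by rintro ⟨j, hj, rfl⟩; omega⟩, sum_map]
    refine sum_congr rfl fun j _ => ?_
    rw [addLeftEmbedding_apply, Nat.cast_add, add_mul, eAdd_add]
    ring
  rw [e, norm_mul, norm_eAdd, one_mul]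

/-- Short exponential sums in the logarithmic mean, as sums on the grid. -/
theorem spanMean_gridSum_le {x : ℕ → ℂ} (hx : ∀ n, ‖x n‖ ≤ 1) {η : ℝ} {K : ℕ} {z : ℕ × ℕ}
    (hz : 0 < spanHarm z)
    (hwin : ∀ θ : ℝ, spanMean z (fun n => ‖winSum x θ K n‖ ^ 2) ≤ η / 2 * (K : ℝ) ^ 2)
    (hN : 6 * (K : ℝ) ^ 2 / spanHarm z ≤ η / 2 * (K : ℝ) ^ 2) (R k : ℕ) :
    spanMean z (fun n => ‖gridSum R (range K) (fun j => x (n + j)) k‖ ^ 2) ≤ η * (K : ℝ) ^ 2 := by
  have hbd : ∀ n, |‖gridSum R (range K) (fun j => x (n + j)) k‖ ^ 2| ≤ (K : ℝ) ^ 2 :=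
    fun n => by
    rw [abs_of_nonneg (sq_nonneg _)]
    refine pow_le_pow_left₀ (norm_nonneg _) ((norm_sum_le _ _).trans
      ((sum_le_card_nsmul _ _ 1 fun i _ => ?_).trans (by simp))) 2
    rw [norm_mul, norm_eAdd, mul_one]
    exact hx _
  have h1 := abs_le.1 (abs_spanMean_shift_sub_le hz _ hbd 1)
  have h2 : spanMean z (fun n => ‖gridSum R (range K) (fun j => x (n + 1 + j)) k‖ ^ 2) ≤
      η / 2 * (K : ℝ) ^ 2 := by
    refine le_of_eq_of_le (spanMean_congr fun n _ => ?_) (hwin ((k : ℝ) / R))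
    rw [norm_gridSum_succ]
  push_cast at h1
  linarith [h1.1]

/-- The Liouville function, in `ℝ`. -/
def lam (n : ℕ) : ℝ := ArithmeticFunction.liouville n

theorem lam_cast (n : ℕ) : ((lam n : ℝ) : ℂ) = liou n := by
  rw [lam, liou]
  norm_cast

theorem abs_lam_le (n : ℕ) : |lam n| ≤ 1 := by
  rw [← Real.norm_eq_abs, ← Complex.norm_real, lam_cast]
  exact ShortLiouville.norm_liou_le n

/-- **The averaged correlation is small** when the short exponential sums are. -/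
theorem exists_spanMean_norm_wcorr_le {h : ℕ} (hh : 1 ≤ h) {ε : ℝ} (hε : 0 < ε) :
    ∃ η : ℝ, 0 < η ∧ ∃ M₀ : ℕ, ∀ M, M₀ ≤ M → ∀ᶠ z in spanFilter,
      ∀ w x y : ℕ → ℂ, (∀ p, ‖w p‖ ≤ 1) → (∀ n, ‖x n‖ ≤ 1) → (∀ n, ‖y n‖ ≤ 1) →
      (∀ K, K = 2 * h * M ∨ K = 4 * h * M → ∀ θ : ℝ,
        spanMean z (fun n => ‖winSum x θ K n‖ ^ 2) ≤ η * (K : ℝ) ^ 2 ∧
        spanMean z (fun n => ‖winSum y θ K n‖ ^ 2) ≤ η * (K : ℝ) ^ 2) →
        (spanMean z fun n => ‖wcorr M h w (fun j => x (n + j)) fun j => y (n + j)‖) ≤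
          ε * (dyadicPrimes M).card * M := by
  obtain ⟨C, hC, hE⟩ := exists_energy_le
  obtain ⟨δ, hδ, hδε⟩ : ∃ δ : ℝ, 0 < δ ∧ 8 * h * δ ≤ ε :=
    ⟨ε / (8 * h), by positivity, le_of_eq (by field_simp)⟩
  obtain ⟨η, hη, hηε⟩ : ∃ η : ℝ, 0 < η ∧ η * (16 * (h : ℝ) ^ 2 * C / δ ^ 4) ≤ ε / 2 := by
    refine ⟨ε / (2 * (16 * (h : ℝ) ^ 2 * C / δ ^ 4 + 1)), by positivity, ?_⟩
    rw [div_mul_eq_mul_div, div_le_iff₀ (by positivity)]
    linarith
  obtain ⟨M₁, hM₁⟩ := eventually_atTop.1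
    (hE.and (eventually_card_dyadicPrimes_ge.and (eventually_ge_atTop 2)))
  refine ⟨η / 2, half_pos hη, M₁, fun M hM => ?_⟩
  obtain ⟨hEM, hnM, hM2⟩ := hM₁ M (by omega)
  have hhM : M ≤ h * M := Nat.le_mul_of_pos_left M hh
  obtain ⟨n, hn⟩ : ∃ n : ℝ, n = ((dyadicPrimes M).card : ℝ) := ⟨_, rfl⟩
  rw [← hn] at hEM hnM ⊢
  have hn0 : 0 < n := lt_of_lt_of_le
    (div_pos (Nat.cast_pos.2 (by omega)) (by
      have : 0 < Real.log (M : ℝ) := Real.log_pos (by exact_mod_cast hM2)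
      linarith)) hnM
  filter_upwards [eventually_spanHarm_pos, eventually_div_spanHarm_le 6 (half_pos hη)]
    with z hN hN3 w x y hw hx hy hwin
  have herr : ∀ K : ℕ, 6 * (K : ℝ) ^ 2 / spanHarm z ≤ η / 2 * (K : ℝ) ^ 2 := fun K =>
    le_of_eq_of_le (mul_div_right_comm _ _ _) (mul_le_mul_of_nonneg_right hN3 (sq_nonneg _))
  obtain ⟨R, hR⟩ : ∃ R, R = 8 * h * M + 1 := ⟨_, rfl⟩
  have hR0 : (0 : ℝ) < R := Nat.cast_pos.2 (by omega)
  obtain ⟨A, hAdef⟩ : ∃ A : ℕ → ℕ → ℝ,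
      A = fun k m => ‖gridSum R (range (2 * h * M)) (fun j => x (m + j)) k‖ ^ 2 := ⟨_, rfl⟩
  obtain ⟨B, hBdef⟩ : ∃ B : ℕ → ℕ → ℝ,
      B = fun k m => ‖gridSum R (range (4 * h * M)) (fun j => y (m + j)) k‖ ^ 2 := ⟨_, rfl⟩
  obtain ⟨Ξ, hΞ⟩ : ∃ Ξ,
      Ξ = (range R).filter fun k => δ * n < ‖primeWave w M h R k‖ := ⟨_, rfl⟩
  have hPn : ∀ k, ‖primeWave w M h R k‖ ≤ n := fun k => by
    refine (norm_sum_le _ _).trans ((sum_le_card_nsmul _ _ 1 fun p _ => ?_).trans
      (by simp [hn]))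
    rw [norm_mul, norm_eAdd, mul_one]
    exact hw p
  have hpt : ∀ m, ‖wcorr M h w (fun j => x (m + j)) fun j => y (m + j)‖ * R ≤
      δ * n * ∑ k ∈ range R, (A k m + B k m) / 2 + n * ∑ k ∈ Ξ, (A k m + B k m) / 2 := fun m => by
    have e := congrArg norm (wcorr_eq_grid (show 8 * h * M < R by omega) w
      (fun j => x (m + j)) fun j => y (m + j))
    rw [norm_mul, Complex.norm_natCast, mul_comm] at e
    rw [e, mul_sum, mul_sum, hΞ, sum_filter, ← sum_add_distrib]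
    refine (norm_sum_le _ _).trans (sum_le_sum fun k _ => ?_)
    rw [norm_mul, norm_mul, Complex.norm_conj, mul_comm (‖gridSum R _ _ k‖) (‖primeWave w M h R k‖),
      mul_assoc]
    have hAB : ‖gridSum R (range (2 * h * M)) (fun j => x (m + j)) k‖ *
        ‖gridSum R (range (4 * h * M)) (fun j => y (m + j)) k‖ ≤ (A k m + B k m) / 2 := by
      simp only [hAdef, hBdef]
      linarith [two_mul_le_add_sq ‖gridSum R (range (2 * h * M)) (fun j => x (m + j)) k‖
        ‖gridSum R (range (4 * h * M)) (fun j => y (m + j)) k‖]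
    have hAB0 : 0 ≤ (A k m + B k m) / 2 := by simp only [hAdef, hBdef]; positivity
    split_ifs with hk
    · exact (mul_le_mul (hPn k) hAB (by positivity) hn0.le).trans
        (le_add_of_nonneg_left (by positivity))
    · rw [add_zero]
      exact mul_le_mul (not_lt.1 hk) hAB (by positivity) (by positivity)
  have hpar : ∀ m, ∑ k ∈ range R, (A k m + B k m) / 2 ≤ R * (3 * h * M) := fun m => by
    rw [← sum_div, sum_add_distrib]
    simp only [hAdef, hBdef]
    rw [sum_gridSum_sq (by omega) fun i hi => by rw [mem_range] at hi; nlinarith,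
      sum_gridSum_sq (by omega) fun i hi => by rw [mem_range] at hi; nlinarith,
      div_le_iff₀ two_pos]
    have h1 : ∀ (u : ℕ → ℂ), (∀ j, ‖u j‖ ≤ 1) → ∀ K : ℕ,
        ∑ i ∈ range K, ‖u (m + i)‖ ^ 2 ≤ K := fun u hu K =>
      (sum_le_card_nsmul _ _ 1 fun i _ => pow_le_one₀ (norm_nonneg _) (hu _)).trans (by simp)
    have h2 := h1 x hx (2 * h * M)
    have h3 := h1 y hy (4 * h * M)
    push_cast at h2 h3
    nlinarith
  have hlarge : spanMean z (fun m => ∑ k ∈ Ξ, (A k m + B k m) / 2) ≤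
      (Ξ.card : ℝ) * (η * (4 * h * M) ^ 2) := by
    rw [spanMean_sum]
    refine (sum_le_card_nsmul _ _ _ fun k _ => ?_).trans_eq (nsmul_eq_mul _ _)
    have h1 : spanMean z (fun m => (A k m + B k m) / 2) =
        (spanMean z (A k) + spanMean z (B k)) / 2 := by
      simp only [spanMean, ← sum_add_distrib, sum_div]
      exact sum_congr rfl fun i _ => by ring
    have hAk := spanMean_gridSum_le hx hN (fun θ => (hwin _ (Or.inl rfl) θ).1) (herr _) R k
    have hBk := spanMean_gridSum_le hy hN (fun θ => (hwin _ (Or.inr rfl) θ).2) (herr _) R k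
    push_cast at hAk hBk
    have hA2 : spanMean z (A k) ≤ η * (2 * h * M) ^ 2 := by simpa only [hAdef] using hAk
    have hB2 : spanMean z (B k) ≤ η * (4 * h * M) ^ 2 := by simpa only [hBdef] using hBk
    rw [h1]
    have : 0 ≤ η * ((h : ℝ) * M) ^ 2 := by positivity
    linarith
  have hcard : (Ξ.card : ℝ) ≤ R * C / (δ ^ 4 * M) := by
    have h1 := card_large_primeWave_le (M := M) (h := h) (R := R) hh (by nlinarith) hδ.le hw
    rw [← hn, ← hΞ] at h1
    have h2 := h1.trans (mul_le_mul_of_nonneg_left hEM hR0.le)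
    rw [le_div_iff₀ (mul_pos (by positivity) (Nat.cast_pos.2 (by omega)))]
    refine le_of_mul_le_mul_right ?_ (pow_pos hn0 4)
    rw [mul_pow, ← mul_div_assoc, le_div_iff₀ (Nat.cast_pos.2 (by omega))] at h2
    linarith
  have hmain : (spanMean z fun m => ‖wcorr M h w (fun j => x (m + j)) fun j => y (m + j)‖) * R ≤
      δ * n * (R * (3 * h * M)) + n * ((Ξ.card : ℝ) * (η * (4 * h * M) ^ 2)) := by
    rw [mul_comm _ (R : ℝ), ← spanMean_const_mul]
    refine (spanMean_mono fun m _ => (mul_comm (R : ℝ) _).trans_le ((hpt m).trans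
      (add_le_add (mul_le_mul_of_nonneg_left (hpar m) (by positivity)) le_rfl))).trans ?_
    have e : spanMean z (fun m => δ * n * (R * (3 * h * M)) + n * ∑ k ∈ Ξ, (A k m + B k m) / 2) =
        δ * n * (R * (3 * h * M)) + n * spanMean z (fun m => ∑ k ∈ Ξ, (A k m + B k m) / 2) := by
      simp only [spanMean, mul_add, sum_add_distrib, ← sum_mul, (isWeights_spanW hN).sum_eq,
        one_mul]
      rw [Finset.mul_sum (a := n)]
      exact congrArg _ (sum_congr rfl fun i _ => by ring)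
    rw [e]
    exact add_le_add le_rfl (mul_le_mul_of_nonneg_left hlarge hn0.le)
  refine le_of_mul_le_mul_right (hmain.trans ?_) hR0
  have hM0 : (0 : ℝ) < M := Nat.cast_pos.2 (by omega)
  have h3 : (Ξ.card : ℝ) * (η * (4 * h * M) ^ 2) ≤ R * M * (ε / 2) := by
    refine (mul_le_mul_of_nonneg_right hcard (by positivity)).trans (le_of_eq_of_le ?_
      (mul_le_mul_of_nonneg_left hηε (show (0 : ℝ) ≤ R * M by positivity)))
    field_simp
    ring
  have := mul_le_mul_of_nonneg_left h3 hn0.le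
  have := mul_le_mul_of_nonneg_left hδε (show (0 : ℝ) ≤ n * R * M by positivity)
  have : 0 ≤ δ * h * (n * R * M) := by positivity
  linarith

/-- The same for one sequence. -/
theorem exists_spanMean_norm_corr_le {h : ℕ} (hh : 1 ≤ h) {ε : ℝ} (hε : 0 < ε) :
    ∃ η : ℝ, 0 < η ∧ ∃ M₀ : ℕ, ∀ M, M₀ ≤ M → ∀ᶠ z in spanFilter, ∀ x : ℕ → ℂ, (∀ n, ‖x n‖ ≤ 1) →
      (∀ K, K = 2 * h * M ∨ K = 4 * h * M → ∀ θ : ℝ,
        spanMean z (fun n => ‖winSum x θ K n‖ ^ 2) ≤ η * (K : ℝ) ^ 2) →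
        (spanMean z fun n => ‖corr M h fun j => x (n + j)‖) ≤
          ε * (dyadicPrimes M).card * M := by
  obtain ⟨η, hη, M₀, hb⟩ := exists_spanMean_norm_wcorr_le hh hε
  refine ⟨η, hη, M₀, fun M hM => ?_⟩
  filter_upwards [hb M hM] with z hz x hx hwin
  simpa only [wcorr_one] using hz (fun _ => 1) x x (fun _ => norm_one.le) hx hx
    fun K hK θ => ⟨hwin K hK θ, hwin K hK θ⟩

/-- The same in the logarithmic mean. -/
theorem exists_logMean_norm_corr_le {h : ℕ} (hh : 1 ≤ h) {ε : ℝ} (hε : 0 < ε) :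
    ∃ η : ℝ, 0 < η ∧ ∃ M₀ : ℕ, ∀ M, M₀ ≤ M → ∀ᶠ N : ℕ in atTop, ∀ x : ℕ → ℂ, (∀ n, ‖x n‖ ≤ 1) →
      (∀ K, K = 2 * h * M ∨ K = 4 * h * M → ∀ θ : ℝ,
        logMean N (fun n => ‖winSum x θ K n‖ ^ 2) ≤ η * (K : ℝ) ^ 2) →
        (logMean N fun n => ‖corr M h fun j => x (n + j)‖) ≤
          ε * (dyadicPrimes M).card * M := by
  obtain ⟨η, hη, M₀, hb⟩ := exists_spanMean_norm_corr_le hh hε
  refine ⟨η, hη, M₀, fun M hM => ?_⟩
  filter_upwards [tendsto_span_zero.eventually (hb M hM)] with N hN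
  simpa only [spanMean_zero] using hN

/-- `∑_p ∑_j [Q ∣ m + p s] λ m λ (m + p h)` at `m = n + j`, as weighted correlations. -/
theorem natCast_mul_sum_cong {M h Q : ℕ} (hQ : 0 < Q) (s n : ℕ) :
    (Q : ℂ) * ((∑ p ∈ dyadicPrimes M, ∑ j ∈ range (2 * h * M),
        if Q ∣ n + j + p * s then lam (n + j) * lam (n + j + p * h) else 0 : ℝ) : ℂ) =
      ∑ k ∈ range Q, wcorr M h (fun p => eAdd (((p * s : ℕ) : ℝ) * (k / Q)))
        (fun j => eAdd (((n + j : ℕ) : ℝ) * (k / Q)) * liou (n + j)) fun j => liou (n + j) := by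
  simp only [wcorr, mul_sum]
  rw [sum_comm (s := range Q), Complex.ofReal_sum, mul_sum]
  refine sum_congr rfl fun p _ => ?_
  rw [sum_comm (s := range Q), Complex.ofReal_sum, mul_sum]
  refine sum_congr rfl fun j _ => ?_
  have e : ∀ k : ℕ, eAdd (((p * s : ℕ) : ℝ) * (k / Q)) *
      (eAdd (((n + j : ℕ) : ℝ) * (k / Q)) * liou (n + j) * conj (liou (n + (j + p * h)))) =
        eAdd ((((n + j + p * s : ℕ) : ℤ) : ℝ) * k / Q) *
          ((lam (n + j) * lam (n + j + p * h) : ℝ) : ℂ) := fun k => by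
    rw [← lam_cast, ← lam_cast, Complex.conj_ofReal, ← add_assoc, Complex.ofReal_mul,
      show (((n + j + p * s : ℕ) : ℤ) : ℝ) * k / Q =
        ((p * s : ℕ) : ℝ) * (k / Q) + ((n + j : ℕ) : ℝ) * (k / Q) by push_cast; ring, eAdd_add]
    ring
  rw [sum_congr rfl fun k _ => e k, ← sum_mul, sum_eAdd_grid hQ]
  simp only [Int.natCast_dvd_natCast]
  split_ifs <;> simp

/-- **The averaged correlation of `λ` along a progression is small.** -/
theorem exists_spanMean_cong_corr_le {h Q : ℕ} (hh : 1 ≤ h) (hQ : 0 < Q) (s : ℕ) {ε : ℝ}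
    (hε : 0 < ε) : ∃ M₀ : ℕ, ∀ M, M₀ ≤ M → ∀ᶠ z in spanFilter,
      |spanMean z fun n => ∑ p ∈ dyadicPrimes M, ∑ j ∈ range (2 * h * M),
          if Q ∣ n + j + p * s then lam (n + j) * lam (n + j + p * h) else 0| ≤
        ε * (dyadicPrimes M).card * M := by
  obtain ⟨η, hη, M₀, hcorr⟩ := exists_spanMean_norm_wcorr_le hh hε
  obtain ⟨H₀, hb⟩ := exists_spanMean_winSum_le hη
  refine ⟨max M₀ H₀, fun M hM => ?_⟩
  have hhM : M ≤ h * M := Nat.le_mul_of_pos_left M hh
  filter_upwards [hcorr M (le_of_max_le_left hM),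
    hb (2 * h * M) (by nlinarith [le_of_max_le_right hM]),
    hb (4 * h * M) (by nlinarith [le_of_max_le_right hM])] with z hN h2 h4
  have hQ0 : (0 : ℝ) < Q := Nat.cast_pos.2 hQ
  have hk : ∀ k : ℕ, (spanMean z fun n =>
      ‖wcorr M h (fun p => eAdd (((p * s : ℕ) : ℝ) * (k / Q)))
        (fun j => eAdd (((n + j : ℕ) : ℝ) * (k / Q)) * liou (n + j)) fun j => liou (n + j)‖) ≤
          ε * (dyadicPrimes M).card * M := fun k => by
    refine hN (fun p => eAdd (((p * s : ℕ) : ℝ) * (k / Q)))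
      (fun m => eAdd ((m : ℝ) * (k / Q)) * liou m) liou (fun p => (norm_eAdd _).le) (fun m => ?_)
      ShortLiouville.norm_liou_le fun K hK θ => ?_
    · rw [norm_mul, norm_eAdd, one_mul]
      exact ShortLiouville.norm_liou_le m
    · have e : ∀ n, winSum (fun m => eAdd ((m : ℝ) * (k / Q)) * liou m) θ K n =
          winSum liou ((k : ℝ) / Q + θ) K n := fun n => by
        simp only [winSum]
        refine sum_congr rfl fun i _ => ?_
        rw [mul_add, eAdd_add]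
        ring
      simp only [e]
      rcases hK with rfl | rfl
      exacts [⟨h2 _, h2 _⟩, ⟨h4 _, h4 _⟩]
  refine le_of_mul_le_mul_left ?_ hQ0
  rw [← abs_of_pos hQ0, ← abs_mul, abs_of_pos hQ0, ← spanMean_const_mul]
  refine (abs_spanMean_le _ _).trans ((spanMean_mono (g := fun n => ∑ k ∈ range Q,
    ‖wcorr M h (fun p => eAdd (((p * s : ℕ) : ℝ) * (k / Q)))
      (fun j => eAdd (((n + j : ℕ) : ℝ) * (k / Q)) * liou (n + j)) fun j => liou (n + j)‖)
      fun n _ => ?_).trans ?_)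
  · rw [← Real.norm_eq_abs, ← Complex.norm_real, Complex.ofReal_mul, Complex.ofReal_natCast,
      natCast_mul_sum_cong hQ]
    exact norm_sum_le _ _
  · rw [spanMean_sum]
    exact (sum_le_card_nsmul _ _ _ fun k _ => hk k).trans_eq
      (by rw [card_range, nsmul_eq_mul])

end FA.LogChowla

end
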