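import Mathlib.Analysis.SpecialFunctions.Log.NegMulLog
import Mathlib.Data.Fintype.Pi
import Mathlib.Algebra.BigOperators.Field

/-!
# Entropy on a finite weighted set

The entropy of a map on a finite set with weights, Gibbs's inequality, submodularity, and the
variational bound of Donsker and Varadhan.
-/

set_option autoImplicit false

noncomputable section

namespace FA.LogChowla

open Finset Real

variable {ι α β γ : Type*} {s : Finset ι} {w : ι → ℝ}

/-- Positive weights of sum `1`. -/
structure IsWeights (s : Finset ι) (w : ι → ℝ) : Prop where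
  pos : ∀ i ∈ s, 0 < w i
  sum_eq : ∑ i ∈ s, w i = 1

/-- The law of a map. -/
def law [DecidableEq α] (s : Finset ι) (w : ι → ℝ) (X : ι → α) (a : α) : ℝ :=
  ∑ i ∈ s with X i = a, w i

/-- The entropy of a map. -/
def ent [DecidableEq α] (s : Finset ι) (w : ι → ℝ) (X : ι → α) : ℝ :=
  -∑ i ∈ s, w i * log (law s w X (X i))

variable [DecidableEq α] [DecidableEq β] [DecidableEq γ]

theorem law_nonneg (hw : IsWeights s w) (X : ι → α) (a : α) : 0 ≤ law s w X a :=
  sum_nonneg fun i hi => (hw.pos i (mem_filter.1 hi).1).le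

theorem law_pos (hw : IsWeights s w) (X : ι → α) {i : ι} (hi : i ∈ s) : 0 < law s w X (X i) :=
  sum_pos (fun k hk => hw.pos k (mem_filter.1 hk).1) ⟨i, mem_filter.2 ⟨hi, rfl⟩⟩

theorem law_le_one (hw : IsWeights s w) (X : ι → α) (a : α) : law s w X a ≤ 1 :=
  le_of_le_of_eq (sum_le_sum_of_subset_of_nonneg (filter_subset _ _)
    fun i hi _ => (hw.pos i hi).le) hw.sum_eq

theorem sum_law [Fintype α] (hw : IsWeights s w) (X : ι → α) : ∑ a, law s w X a = 1 :=
  (sum_fiberwise s X w).trans hw.sum_eq

theorem sum_law_pair_fst [Fintype α] (A : ι → α) (C : ι → γ) (c : γ) :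
    ∑ a, law s w (fun i => (A i, C i)) (a, c) = law s w C c := by
  rw [law, ← sum_fiberwise (s.filter fun i => C i = c) A w]
  refine sum_congr rfl fun a _ => ?_
  rw [law, filter_filter]
  refine sum_congr (filter_congr fun i _ => ?_) fun _ _ => rfl
  simp only [Prod.mk.injEq]
  exact And.comm

/-- The expectation of a function of a map. -/
theorem sum_law_mul [Fintype α] (X : ι → α) (f : α → ℝ) :
    ∑ i ∈ s, w i * f (X i) = ∑ a, law s w X a * f a := by
  rw [← sum_fiberwise s X]
  refine sum_congr rfl fun a _ => ?_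
  rw [law, sum_mul]
  exact sum_congr rfl fun i hi => by rw [(mem_filter.1 hi).2]

theorem ent_eq_sum [Fintype α] (X : ι → α) :
    ent s w X = ∑ a, negMulLog (law s w X a) := by
  rw [ent, sum_law_mul (s := s) (w := w) X fun a => log (law s w X a), ← sum_neg_distrib]
  exact sum_congr rfl fun a _ => by rw [negMulLog, neg_mul]

theorem ent_nonneg (hw : IsWeights s w) (X : ι → α) : 0 ≤ ent s w X :=
  neg_nonneg.2 (sum_nonpos fun i hi => mul_nonpos_of_nonneg_of_nonpos (hw.pos i hi).le
    (log_nonpos (law_nonneg hw X _) (law_le_one hw X _)))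

/-- **Gibbs's inequality.** -/
theorem ent_le_of_gibbs [Fintype α] (hw : IsWeights s w) (X : ι → α) (Q : α → ℝ)
    (hQ0 : ∀ a, 0 ≤ Q a) (hQ : ∀ i ∈ s, 0 < Q (X i)) (hsum : ∑ a, Q a ≤ 1) :
    ent s w X ≤ -∑ i ∈ s, w i * log (Q (X i)) := by
  have h : ∑ i ∈ s, w i * (Q (X i) / law s w X (X i)) ≤ 1 := by
    rw [sum_law_mul X fun a => Q a / law s w X a]
    refine (sum_le_sum fun a _ => ?_).trans hsum
    rcases (law_nonneg hw X a).eq_or_lt with e | e
    · rw [← e, zero_mul]
      exact hQ0 a
    · rw [mul_div_cancel₀ _ e.ne']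
  have h2 : ∑ i ∈ s, w i * (log (Q (X i)) - log (law s w X (X i))) ≤
      ∑ i ∈ s, (w i * (Q (X i) / law s w X (X i)) - w i) := sum_le_sum fun i hi => by
    have hl := law_pos hw X hi
    rw [← log_div (hQ i hi).ne' hl.ne']
    exact le_of_le_of_eq (mul_le_mul_of_nonneg_left (log_le_sub_one_of_pos
      (div_pos (hQ i hi) hl)) (hw.pos i hi).le) (mul_sub_one _ _)
  simp only [mul_sub, sum_sub_distrib, hw.sum_eq] at h2
  rw [ent]
  linarith

theorem ent_le_log_card [Fintype α] (hw : IsWeights s w) (X : ι → α) :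
    ent s w X ≤ log (Fintype.card α) := by
  rcases isEmpty_or_nonempty α with hα | hα
  · have : s = ∅ := eq_empty_of_forall_notMem fun i _ => isEmptyElim (X i)
    simpa [this] using hw.sum_eq
  refine (ent_le_of_gibbs hw X (fun _ => ((Fintype.card α : ℝ))⁻¹) (fun _ => by positivity)
    (fun i _ => by positivity) (by simp)).trans (le_of_eq ?_)
  rw [← sum_mul, hw.sum_eq, one_mul, log_inv, neg_neg]

/-- A function of a map has at most its entropy. -/
theorem ent_comp_le (hw : IsWeights s w) (X : ι → α) (f : α → β) :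
    ent s w (fun i => f (X i)) ≤ ent s w X := by
  refine neg_le_neg (sum_le_sum fun i hi => mul_le_mul_of_nonneg_left
    (log_le_log (law_pos hw X hi) ?_) (hw.pos i hi).le)
  refine sum_le_sum_of_subset_of_nonneg (fun k hk => ?_) fun k hk _ =>
    (hw.pos k (mem_filter.1 hk).1).le
  rw [mem_filter] at hk ⊢
  exact ⟨hk.1, congrArg f hk.2⟩

theorem ent_comp_injective (X : ι → α) {f : α → β} (hf : Function.Injective f) :
    ent s w (fun i => f (X i)) = ent s w X := by
  refine congrArg Neg.neg (sum_congr rfl fun i _ => ?_)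
  rw [law, law]
  simp only [hf.eq_iff]

/-- **Submodularity.** -/
theorem ent_submodular [Fintype α] [Fintype β] [Fintype γ] (hw : IsWeights s w) (A : ι → α)
    (B : ι → β) (C : ι → γ) :
    ent s w (fun i => (A i, B i, C i)) + ent s w C ≤
      ent s w (fun i => (A i, C i)) + ent s w (fun i => (B i, C i)) := by
  obtain ⟨Q, hQ⟩ : ∃ Q : α × β × γ → ℝ, Q = fun z =>
      law s w (fun i => (A i, C i)) (z.1, z.2.2) * law s w (fun i => (B i, C i)) (z.2.1, z.2.2) /
        law s w C z.2.2 := ⟨_, rfl⟩
  have h := ent_le_of_gibbs hw (fun i => (A i, B i, C i)) Q (fun z => hQ ▸ div_nonneg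
    (mul_nonneg (law_nonneg hw _ _) (law_nonneg hw _ _)) (law_nonneg hw _ _))
    (fun i hi => hQ ▸ div_pos (mul_pos (law_pos hw (fun i => (A i, C i)) hi)
      (law_pos hw (fun i => (B i, C i)) hi)) (law_pos hw C hi)) ?_
  · have e : ∀ i ∈ s, w i * log (Q (A i, B i, C i)) =
        w i * log (law s w (fun i => (A i, C i)) (A i, C i)) +
          w i * log (law s w (fun i => (B i, C i)) (B i, C i)) -
            w i * log (law s w C (C i)) := fun i hi => by
      have h1 := law_pos hw (fun i => (A i, C i)) hi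
      have h2 := law_pos hw (fun i => (B i, C i)) hi
      rw [hQ, log_div (mul_pos h1 h2).ne' (law_pos hw C hi).ne', log_mul h1.ne' h2.ne']
      ring
    rw [sum_congr rfl e, sum_sub_distrib, sum_add_distrib] at h
    simp only [ent] at h ⊢
    linarith
  · simp only [Fintype.sum_prod_type, hQ]
    calc _ = ∑ c, law s w C c * law s w C c / law s w C c := by
          rw [sum_congr rfl fun a _ => sum_comm, sum_comm]
          refine sum_congr rfl fun c _ => ?_
          simp only [← sum_div, ← mul_sum, ← sum_mul, sum_law_pair_fst]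
      _ ≤ ∑ c, law s w C c := sum_le_sum fun c _ => by
          rcases eq_or_ne (law s w C c) 0 with e | e
          · simp [e]
          · rw [mul_div_cancel_right₀ _ e]
      _ = 1 := sum_law hw C

/-- **The bound of Donsker and Varadhan** against an independent uniform second variable. -/
theorem mul_sum_le_defect [Fintype α] [Fintype β] [Nonempty β] (hw : IsWeights s w) (X : ι → α)
    (Y : ι → β) (F : α → β → ℝ) (t c : ℝ)
    (hF : ∀ a, ∑ y, exp (t * F a y) ≤ Fintype.card β * exp c) :
    t * ∑ i ∈ s, w i * F (X i) (Y i) ≤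
      ent s w X + log (Fintype.card β) - ent s w (fun i => (X i, Y i)) + c := by
  obtain ⟨Q, hQ⟩ : ∃ Q : α × β → ℝ, Q = fun z =>
      law s w X z.1 * exp (t * F z.1 z.2 - log (Fintype.card β) - c) := ⟨_, rfl⟩
  have h := ent_le_of_gibbs hw (fun i => (X i, Y i)) Q
    (fun z => hQ ▸ mul_nonneg (law_nonneg hw _ _) (exp_pos _).le)
    (fun i hi => hQ ▸ mul_pos (law_pos hw X hi) (exp_pos _)) ?_
  · have e : ∀ i ∈ s, w i * log (Q (X i, Y i)) = w i * log (law s w X (X i)) +
        t * (w i * F (X i) (Y i)) - w i * (log (Fintype.card β) + c) := fun i hi => by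
      rw [hQ, log_mul (law_pos hw X hi).ne' (exp_pos _).ne', log_exp]
      ring
    rw [sum_congr rfl e, sum_sub_distrib, sum_add_distrib, ← mul_sum, ← sum_mul, hw.sum_eq,
      one_mul] at h
    simp only [ent] at h ⊢
    linarith
  · rw [Fintype.sum_prod_type, hQ]
    calc _ ≤ ∑ a, law s w X a * 1 := sum_le_sum fun a _ => by
          simp only [← mul_sum]
          refine mul_le_mul_of_nonneg_left ?_ (law_nonneg hw X a)
          simp only [exp_sub, exp_log (show (0 : ℝ) < Fintype.card β by positivity), ← sum_div]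
          rw [div_div, div_le_one (by positivity)]
          exact hF a
      _ = 1 := by simp only [mul_one, sum_law hw X]

end FA.LogChowla

end
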