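import Fermat.Agent.LogChowla.Main

/-!
# Two linear forms

`λ (a n + b) λ (c n + d)` is `λ a λ c` times `λ (Q n + b c) λ (Q n + a d)`, `Q = a c`, so its mean
over spans, also along a progression, is that of `λ m λ (m + h)` along a progression, over the
dilated span. By van der Corput the mean of `λ (a n + b)` along a progression vanishes too.
-/

set_option autoImplicit false

noncomputable section

namespace FA.LogChowla

open Finset Filter
open scoped Topology

theorem sum_span_mul (F : ℕ → ℝ) {Q : ℕ} (hQ : 0 < Q) (U N : ℕ) :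
    ∑ m ∈ Ioc (Q * U) (Q * N), (if Q ∣ m then F m else 0) = ∑ n ∈ Ioc U N, F (Q * n) := by
  rw [← sum_filter]
  refine (sum_nbij' (fun n => Q * n) (fun m => m / Q) ?_ ?_ ?_ ?_ fun _ _ => rfl).symm
  · intro n hn
    simp only [mem_Ioc] at hn
    simp only [mem_filter, mem_Ioc]
    exact ⟨⟨Nat.mul_lt_mul_of_pos_left hn.1 hQ, Nat.mul_le_mul_left Q hn.2⟩, dvd_mul_right Q n⟩
  · intro m hm
    simp only [mem_filter, mem_Ioc] at hm
    simp only [mem_Ioc]
    obtain ⟨⟨h1, h2⟩, c, rfl⟩ := hm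
    rw [Nat.mul_div_cancel_left _ hQ]
    exact ⟨lt_of_mul_lt_mul_left' h1, Nat.le_of_mul_le_mul_left h2 hQ⟩
  · intro n _
    exact Nat.mul_div_cancel_left _ hQ
  · intro m hm
    exact Nat.mul_div_cancel' (mem_filter.1 hm).2

/-- The dilated span has as much mass, up to the factor `Q`. -/
theorem spanHarm_mul_bounds {Q : ℕ} (hQ : 1 ≤ Q) {U N : ℕ} (h : U ≤ N) :
    spanHarm (U, N) ≤ spanHarm (Q * U, Q * N) ∧
      spanHarm (Q * U, Q * N) ≤ Q * spanHarm (U, N) := by
  induction N, h using Nat.le_induction with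
  | base => simp [spanHarm]
  | succ N hUN ih =>
    have hN : (0 : ℝ) < ((N + 1 : ℕ) : ℝ) := Nat.cast_pos.2 N.succ_pos
    have hcard : (Ioc (Q * N) (Q * (N + 1))).card = Q := by
      rw [Nat.card_Ioc, ← Nat.mul_sub, Nat.add_sub_cancel_left, mul_one]
    have hlo : ((N + 1 : ℕ) : ℝ)⁻¹ ≤ ∑ m ∈ Ioc (Q * N) (Q * (N + 1)), (m : ℝ)⁻¹ := by
      refine le_trans (le_of_eq ?_) (card_nsmul_le_sum _ _ (((Q * (N + 1) : ℕ) : ℝ))⁻¹
        fun m hm => ?_)
      · rw [hcard, nsmul_eq_mul, Nat.cast_mul, mul_inv, ← mul_assoc,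
          mul_inv_cancel₀ (Nat.cast_ne_zero.2 (by omega)), one_mul]
      · exact inv_anti₀ (Nat.cast_pos.2 (by have := (mem_Ioc.1 hm).1; omega))
          (Nat.cast_le.2 (mem_Ioc.1 hm).2)
    have hhi : ∑ m ∈ Ioc (Q * N) (Q * (N + 1)), (m : ℝ)⁻¹ ≤ Q * ((N + 1 : ℕ) : ℝ)⁻¹ := by
      refine (sum_le_card_nsmul _ _ _ fun m hm => inv_anti₀ hN (Nat.cast_le.2 ?_)).trans_eq
        (by rw [hcard, nsmul_eq_mul])
      have := (mem_Ioc.1 hm).1
      have := Nat.le_mul_of_pos_left N (show 0 < Q by omega)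
      omega
    simp only [spanHarm] at ih ⊢
    rw [sum_Ioc_succ_top hUN, ← sum_Ioc_consecutive _ (Nat.mul_le_mul_left Q hUN)
      (Nat.mul_le_mul_left Q N.le_succ), mul_add]
    exact ⟨add_le_add ih.1 hlo, add_le_add ih.2 hhi⟩

theorem tendsto_span_mul {Q : ℕ} (hQ : 1 ≤ Q) :
    Tendsto (fun z : ℕ × ℕ => (Q * z.1, Q * z.2)) spanFilter spanFilter :=
  tendsto_comap_iff.2 (tendsto_atTop_mono' _ (eventually_spanHarm_pos.mono fun _ hz =>
    (spanHarm_mul_bounds hQ (lt_of_spanHarm_pos hz).le).1) tendsto_spanHarm)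

/-- The mean of a function at the multiples of `Q` gives that of its dilate. -/
theorem tendsto_spanMean_dilate {Q : ℕ} (hQ : 1 ≤ Q) {f : ℕ → ℝ}
    (h : Tendsto (fun z => spanMean z fun m => if Q ∣ m then f m else 0) spanFilter (𝓝 0)) :
    Tendsto (fun z => spanMean z fun n => f (Q * n)) spanFilter (𝓝 0) := by
  have h1 := ((h.comp (tendsto_span_mul hQ)).abs.const_mul ((Q : ℝ) * Q))
  rw [abs_zero, mul_zero] at h1
  refine squeeze_zero_norm' (eventually_spanHarm_pos.mono fun z hz => ?_) h1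
  obtain ⟨U, N⟩ := z
  obtain ⟨hlo, hhi⟩ := spanHarm_mul_bounds hQ (lt_of_spanHarm_pos hz).le
  have hW := hz.trans_le hlo
  have hQ0 : (0 : ℝ) < Q := Nat.cast_pos.2 hQ
  have e : ∑ n ∈ Ioc U N, (n : ℝ)⁻¹ * f (Q * n) =
      Q * ∑ m ∈ Ioc (Q * U) (Q * N), (m : ℝ)⁻¹ * (if Q ∣ m then f m else 0) := by
    simp only [mul_ite, mul_zero]
    rw [sum_span_mul (fun m => (m : ℝ)⁻¹ * f m) hQ, mul_sum]
    refine sum_congr rfl fun n _ => ?_
    rw [Nat.cast_mul, mul_inv, ← mul_assoc, ← mul_assoc, mul_inv_cancel₀ hQ0.ne', one_mul]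
  have e' : ∀ g : ℕ → ℝ, ∑ m ∈ Ioc (Q * U) (Q * N), (m : ℝ)⁻¹ * g m =
      spanMean (Q * U, Q * N) g * spanHarm (Q * U, Q * N) := fun g => by
    rw [spanMean_eq, div_mul_cancel₀ _ hW.ne']
  simp only [Function.comp_apply]
  rw [Real.norm_eq_abs, spanMean_eq, e, e', abs_div, abs_mul, abs_mul, abs_of_pos hQ0,
    abs_of_pos hW, abs_of_pos hz, div_le_iff₀ hz]
  refine (mul_le_mul_of_nonneg_left (mul_le_mul_of_nonneg_left hhi (abs_nonneg _))
    hQ0.le).trans_eq ?_
  ring

theorem abs_ite_le_one (p : Prop) [Decidable p] {x : ℝ} (hx : |x| ≤ 1) :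
    |if p then x else 0| ≤ 1 := by
  split_ifs
  exacts [hx, by simp]

theorem tendsto_spanMean_lam_progression {h Q W : ℕ} (hh : 1 ≤ h) (hQ : 1 ≤ Q) (hW : 1 ≤ W)
    (c t : ℕ) : Tendsto (fun z => spanMean z fun n =>
      if W ∣ n + t then lam (Q * n + c) * lam (Q * n + c + h) else 0) spanFilter (𝓝 0) := by
  have hd := tendsto_spanMean_dilate hQ
    (f := fun m => if Q * W ∣ m + Q * t then lam (m + c) * lam (m + c + h) else 0) ?_
  · refine hd.congr fun z => spanMean_congr fun n _ => ?_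
    simp only [← mul_add, Nat.mul_dvd_mul_iff_left hQ]
  have hQW : 1 ≤ Q * W := Nat.mul_pos hQ hW
  refine (tendsto_spanMean_shift (fun m => abs_ite_le_one _ (abs_lam_mul_le _ _))
    (tendsto_spanMean_lam_mul_cong hh hQW (Q * t + (Q * W - 1) * c)) c).congr fun z =>
      spanMean_congr fun m _ => ?_
  have e : m + c + (Q * t + (Q * W - 1) * c) = m + Q * t + Q * W * c := by
    have : (Q * W - 1) * c + c = Q * W * c := by rw [← add_one_mul, Nat.sub_add_cancel hQW]
    omega
  rw [e]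
  simp only [Nat.dvd_add_left (dvd_mul_right (Q * W) c)]
  by_cases hm : Q ∣ m
  · simp only [hm, if_true]
  · rw [if_neg hm, if_neg fun hd' =>
      hm ((Nat.dvd_add_left (dvd_mul_right Q t)).1 ((dvd_mul_right Q W).trans hd'))]

/-- **Tao's theorem for two linear forms along a progression**, in the mean over spans. -/
theorem tendsto_spanMean_lam_forms_cong {a b c d W : ℕ} (ha : 1 ≤ a) (hc : 1 ≤ c)
    (hne : a * d ≠ c * b) (hW : 1 ≤ W) (t : ℕ) :
    Tendsto (fun z => spanMean z fun n =>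
      if W ∣ n + t then lam (a * n + b) * lam (c * n + d) else 0) spanFilter (𝓝 0) := by
  wlog hlt : c * b < a * d generalizing a b c d
  · exact (this hc ha hne.symm (lt_of_le_of_ne (not_lt.1 hlt) hne)).congr fun z =>
      spanMean_congr fun n _ => if_congr Iff.rfl (mul_comm _ _) rfl
  have hQ : 1 ≤ a * c := Nat.mul_pos ha hc
  have h1 := (tendsto_spanMean_lam_progression (h := a * d - c * b) (by omega) hQ hW
    (c * b) t).const_mul (lam a * lam c)
  rw [mul_zero] at h1
  refine h1.congr fun z => ?_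
  rw [← spanMean_const_mul]
  refine spanMean_congr fun n _ => ?_
  rw [mul_ite, mul_zero]
  refine if_congr Iff.rfl ?_ rfl
  have hsq : ∀ {k : ℕ}, 1 ≤ k → lam k * lam k = 1 := fun {k} hk => by
    rw [lam_eq_signBit hk]
    split_ifs <;> norm_num
  rw [show a * c * n + c * b + (a * d - c * b) = a * (c * n + d) by
      rw [mul_add, ← mul_assoc]; omega,
    show a * c * n + c * b = c * (a * n + b) by ring, lam_mul a, lam_mul c]
  linear_combination (lam c * lam c * (lam (a * n + b) * lam (c * n + d))) * hsq ha +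
    (lam (a * n + b) * lam (c * n + d)) * hsq hc

/-- **Tao's theorem for two linear forms**, in the mean over spans. -/
theorem tendsto_spanMean_lam_forms {a b c d : ℕ} (ha : 1 ≤ a) (hc : 1 ≤ c)
    (hne : a * d ≠ c * b) :
    Tendsto (fun z => spanMean z fun n => lam (a * n + b) * lam (c * n + d)) spanFilter
      (𝓝 0) := by
  simpa using tendsto_spanMean_lam_forms_cong ha hc hne le_rfl 0

/-- The mean of `λ` at a linear form along a progression vanishes. -/
theorem tendsto_spanMean_lam_form_cong {a W : ℕ} (ha : 1 ≤ a) (hW : 1 ≤ W) (b t : ℕ) :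
    Tendsto (fun z => spanMean z fun n => if W ∣ n + t then lam (a * n + b) else 0) spanFilter
      (𝓝 0) := by
  refine tendsto_spanMean_of_corr (fun n => abs_ite_le_one _ (abs_lam_le _)) fun k hk => ?_
  by_cases hWk : W ∣ k
  · refine (tendsto_spanMean_lam_forms_cong (b := b) (d := a * k + b) ha ha
      (fun e => ?_) hW t).congr fun z => spanMean_congr fun n _ => ?_
    · have := Nat.eq_of_mul_eq_mul_left ha e
      have := Nat.mul_pos ha hk
      omega
    · simp only [add_right_comm n k t, Nat.dvd_add_left hWk, mul_add, ← add_assoc, ite_mul,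
        mul_ite, mul_zero, zero_mul]
      split_ifs <;> rfl
  · refine tendsto_const_nhds.congr fun z => ?_
    rw [spanMean]
    refine (sum_eq_zero fun n _ => ?_).symm
    by_cases hd : W ∣ n + t
    · rw [add_right_comm n k t, if_neg fun hd' => hWk ((Nat.dvd_add_right hd).1 hd'), mul_zero,
        mul_zero]
    · rw [if_neg hd, zero_mul, mul_zero]

/-- A periodic factor costs nothing. -/
theorem tendsto_spanMean_periodic_mul {W : ℕ} (hW : 1 ≤ W) {g f : ℕ → ℝ}
    (hg : ∀ n, g n = g (n % W))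
    (h : ∀ t, Tendsto (fun z => spanMean z fun n => if W ∣ n + t then f n else 0) spanFilter
      (𝓝 0)) : Tendsto (fun z => spanMean z fun n => g n * f n) spanFilter (𝓝 0) := by
  have hs := tendsto_finsetSum (range W) fun r _ => (h (W - r)).const_mul (g r)
  simp only [mul_zero, sum_const_zero] at hs
  refine hs.congr fun z => ?_
  simp only [← spanMean_const_mul, ← spanMean_sum]
  refine spanMean_congr fun n _ => ?_
  rw [sum_eq_single_of_mem (n % W) (mem_range.2 (Nat.mod_lt n hW))]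
  · rw [if_pos, ← hg]
    refine ⟨n / W + 1, ?_⟩
    have := Nat.div_add_mod n W
    have := Nat.mod_lt n hW
    rw [mul_add, mul_one]
    omega
  · intro r hr hne
    rw [if_neg, mul_zero]
    rintro hd
    apply hne
    have hr' := mem_range.1 hr
    have h1 : (n + (W - r)) % W = 0 := Nat.mod_eq_zero_of_dvd hd
    have h2 : (n % W + (W - r)) % W = 0 := by rw [Nat.mod_add_mod]; exact h1
    have := Nat.mod_lt n hW
    rcases lt_or_ge (n % W + (W - r)) W with hlt | hge
    · rw [Nat.mod_eq_of_lt hlt] at h2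
      omega
    · rw [Nat.mod_eq_sub_mod hge, Nat.mod_eq_of_lt (by omega)] at h2
      omega

end FA.LogChowla

end
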