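import Fermat.Agent.LogChowla.Entropy
import Fermat.Agent.ShortExpSums.Main

/-!
# The logarithmic mean

`∑_{n ≤ N} f n / n`, divided by `∑_{n ≤ N} 1 / n`: its near invariance under shifts and mean
squares from dyadic blocks.
-/

set_option autoImplicit false

noncomputable section

namespace FA.LogChowla

open Finset Filter
open scoped Topology

/-- `∑_{n ≤ N} 1 / n`. -/
def harm (N : ℕ) : ℝ := ∑ n ∈ Icc 1 N, (n : ℝ)⁻¹

/-- The weight of `n`. -/
def logW (N n : ℕ) : ℝ := (n : ℝ)⁻¹ / harm N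

/-- The logarithmic mean. -/
def logMean (N : ℕ) (f : ℕ → ℝ) : ℝ := ∑ n ∈ Icc 1 N, logW N n * f n

theorem harm_eq_harmonic (N : ℕ) : harm N = (harmonic N : ℝ) := by
  rw [harm, harmonic]
  push_cast
  refine sum_nbij' (fun n => n - 1) (fun i => i + 1) ?_ ?_ ?_ ?_ ?_
  · intro n hn
    simp only [mem_Icc] at hn
    simp only [mem_range]
    omega
  · intro i hi
    simp only [mem_range] at hi
    simp only [mem_Icc]
    omega
  · intro n hn
    simp only [mem_Icc] at hn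
    omega
  · intro i _
    omega
  · intro n hn
    simp only [mem_Icc] at hn
    obtain ⟨k, rfl⟩ : ∃ k, n = k + 1 := ⟨n - 1, by omega⟩
    simp

theorem log_le_harm {N : ℕ} (hN : 1 ≤ N) : Real.log N ≤ harm N :=
  (Real.log_le_log (Nat.cast_pos.2 hN) (by push_cast; linarith)).trans
    ((log_add_one_le_harmonic N).trans_eq (harm_eq_harmonic N).symm)

theorem harm_le_one_add_log (N : ℕ) : harm N ≤ 1 + Real.log N :=
  (harm_eq_harmonic N).trans_le (harmonic_le_one_add_log N)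

theorem harm_pos {N : ℕ} (hN : 1 ≤ N) : 0 < harm N :=
  sum_pos (fun n hn => by have := (mem_Icc.1 hn).1; positivity) ⟨1, mem_Icc.2 ⟨le_rfl, hN⟩⟩

theorem harm_nonneg (N : ℕ) : 0 ≤ harm N := sum_nonneg fun n _ => by positivity

theorem tendsto_harm : Tendsto harm atTop atTop :=
  tendsto_atTop_mono' atTop ((eventually_ge_atTop 1).mono fun _ hN => log_le_harm hN)
    (Real.tendsto_log_atTop.comp tendsto_natCast_atTop_atTop)

theorem logMean_eq (N : ℕ) (f : ℕ → ℝ) :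
    logMean N f = (∑ n ∈ Icc 1 N, (n : ℝ)⁻¹ * f n) / harm N := by
  rw [logMean, sum_div]
  exact sum_congr rfl fun n _ => div_mul_eq_mul_div _ _ _

theorem isWeights_logW {N : ℕ} (hN : 1 ≤ N) : IsWeights (Icc 1 N) (logW N) where
  pos n hn := div_pos (by have := (mem_Icc.1 hn).1; positivity) (harm_pos hN)
  sum_eq := by
    simp only [logW]
    rw [← sum_div]
    exact div_self (harm_pos hN).ne'

theorem logW_nonneg (N n : ℕ) : 0 ≤ logW N n := div_nonneg (by positivity) (harm_nonneg N)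

theorem logMean_mono {N : ℕ} {f g : ℕ → ℝ} (h : ∀ n, 1 ≤ n → f n ≤ g n) :
    logMean N f ≤ logMean N g :=
  sum_le_sum fun n hn => mul_le_mul_of_nonneg_left (h n (mem_Icc.1 hn).1) (logW_nonneg N n)

theorem logMean_congr {N : ℕ} {f g : ℕ → ℝ} (h : ∀ n, 1 ≤ n → f n = g n) :
    logMean N f = logMean N g :=
  sum_congr rfl fun n hn => by rw [h n (mem_Icc.1 hn).1]

theorem abs_logMean_le (N : ℕ) (f : ℕ → ℝ) : |logMean N f| ≤ logMean N fun n => |f n| :=
  (abs_sum_le_sum_abs _ _).trans (le_of_eq (sum_congr rfl fun n _ => by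
    rw [abs_mul, abs_of_nonneg (logW_nonneg N n)]))

theorem logMean_le_const {N : ℕ} (hN : 1 ≤ N) {f : ℕ → ℝ} {B : ℝ} (h : ∀ n, 1 ≤ n → f n ≤ B) :
    logMean N f ≤ B := by
  refine (logMean_mono h).trans (le_of_eq ?_)
  rw [logMean, ← sum_mul, (isWeights_logW hN).sum_eq, one_mul]

theorem sum_shift_one (f : ℕ → ℝ) {B : ℝ} (hf : ∀ n, |f n| ≤ B) : ∀ N : ℕ,
    |∑ n ∈ Icc 1 N, (n : ℝ)⁻¹ * (f (n + 1) - f n) - ((N : ℝ) + 1)⁻¹ * f (N + 1) + f 1| ≤
      B * (1 - ((N : ℝ) + 1)⁻¹)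
  | 0 => by simp
  | N + 1 => by
    have ih := sum_shift_one f hf N
    rw [sum_Icc_succ_top (by omega : 1 ≤ N + 1)]
    push_cast
    have hc : (0 : ℝ) ≤ ((N : ℝ) + 1)⁻¹ - ((N : ℝ) + 1 + 1)⁻¹ :=
      sub_nonneg.2 (inv_anti₀ (by positivity) (by linarith))
    have h2 : |(((N : ℝ) + 1)⁻¹ - ((N : ℝ) + 1 + 1)⁻¹) * f (N + 1 + 1)| ≤
        (((N : ℝ) + 1)⁻¹ - ((N : ℝ) + 1 + 1)⁻¹) * B := by
      rw [abs_mul, abs_of_nonneg hc]
      exact mul_le_mul_of_nonneg_left (hf _) hc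
    refine le_trans (le_of_eq (congrArg abs ?_)) ((abs_add_le _ _).trans
      ((add_le_add ih h2).trans (le_of_eq (by ring))))
    ring

/-- **The mean is almost invariant under shifts.** -/
theorem abs_logMean_shift_sub_le (N : ℕ) (f : ℕ → ℝ) {B : ℝ} (hf : ∀ n, |f n| ≤ B) :
    ∀ j : ℕ, |logMean N (fun n => f (n + j)) - logMean N f| ≤ 3 * j * B / harm N
  | 0 => by simp
  | j + 1 => by
    have ih := abs_logMean_shift_sub_le N f hf j
    have hB : 0 ≤ B := (abs_nonneg _).trans (hf 0)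
    have h1 : |logMean N (fun n => f (n + (j + 1))) - logMean N (fun n => f (n + j))| ≤
        3 * B / harm N := by
      rw [logMean_eq, logMean_eq, ← sub_div, abs_div, abs_of_nonneg (harm_nonneg N)]
      refine div_le_div_of_nonneg_right ?_ (harm_nonneg N)
      rw [← sum_sub_distrib]
      have h2 := abs_le.1 (sum_shift_one (fun n => f (n + j)) (fun n => hf _) N)
      have h3 : 0 ≤ ((N : ℝ) + 1)⁻¹ ∧ ((N : ℝ) + 1)⁻¹ ≤ 1 :=
        ⟨by positivity, inv_le_one_of_one_le₀ (by linarith [Nat.cast_nonneg (α := ℝ) N])⟩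
      have h4 : |((N : ℝ) + 1)⁻¹ * f (N + 1 + j)| ≤ B := by
        rw [abs_mul, abs_of_nonneg h3.1]
        exact (mul_le_of_le_one_left (abs_nonneg _) h3.2).trans (hf _)
      have h5 : B * (1 - ((N : ℝ) + 1)⁻¹) ≤ B := mul_le_of_le_one_right hB (by linarith [h3.1])
      have e : ∑ n ∈ Icc 1 N, ((n : ℝ)⁻¹ * f (n + (j + 1)) - (n : ℝ)⁻¹ * f (n + j)) =
          ∑ n ∈ Icc 1 N, (n : ℝ)⁻¹ * (f (n + 1 + j) - f (n + j)) :=
        sum_congr rfl fun n _ => by rw [show n + 1 + j = n + (j + 1) by ring]; ring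
      rw [e, abs_le]
      have := abs_le.1 (hf (1 + j))
      have := abs_le.1 h4
      constructor <;> linarith
    refine (abs_sub_le _ (logMean N fun n => f (n + j)) _).trans ((add_le_add h1 ih).trans
      (le_of_eq ?_))
    push_cast
    ring

theorem eventually_div_harm_le (C : ℝ) {ε : ℝ} (hε : 0 < ε) :
    ∀ᶠ N : ℕ in atTop, C / harm N ≤ ε :=
  (tendsto_harm.const_div_atTop C).eventually_le_const hε

theorem tendsto_logMean_shift_sub (f : ℕ → ℝ) {B : ℝ} (hf : ∀ n, |f n| ≤ B) (j : ℕ) :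
    Tendsto (fun N => logMean N (fun n => f (n + j)) - logMean N f) atTop (𝓝 0) :=
  squeeze_zero_norm (fun N => by rw [Real.norm_eq_abs]; exact abs_logMean_shift_sub_le N f hf j)
    (tendsto_harm.const_div_atTop _)

/-- A dyadic decomposition of `∑_{n ≤ 2 ^ i} G n / n`. -/
theorem sum_inv_mul_dyadic_le {G : ℕ → ℝ} (hG : ∀ n, 0 ≤ G n) {A B : ℝ} {T₀ : ℕ} (hT : 1 ≤ T₀)
    (hB : ∀ n, G n ≤ B) : ∀ i : ℕ,
      (∀ l < i, ∑ n ∈ Ioc (T₀ * 2 ^ l) (2 * (T₀ * 2 ^ l)), G n ≤ A * (T₀ * 2 ^ l : ℕ)) →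
        ∑ n ∈ Icc 1 (T₀ * 2 ^ i), (n : ℝ)⁻¹ * G n ≤ B * harm T₀ + A * i
  | 0, _ => by
    rw [pow_zero, mul_one, Nat.cast_zero, mul_zero, add_zero, harm, mul_sum]
    exact sum_le_sum fun n _ => (mul_comm _ _).trans_le
      (mul_le_mul_of_nonneg_right (hB n) (by positivity))
  | i + 1, hA => by
    have ih := sum_inv_mul_dyadic_le hG hT hB i fun l hl => hA l (by omega)
    obtain ⟨X, hX⟩ : ∃ X, X = T₀ * 2 ^ i := ⟨_, rfl⟩
    have hX1 : T₀ ≤ X := hX ▸ Nat.le_mul_of_pos_right _ (by positivity)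
    have hAX := hA i (Nat.lt_succ_self i)
    rw [← hX] at hAX ih
    have e : T₀ * 2 ^ (i + 1) = 2 * X := by rw [hX]; ring
    have hsplit : Icc 1 (2 * X) = Icc 1 X ∪ Ioc X (2 * X) := by
      ext n
      simp only [mem_union, mem_Icc, mem_Ioc]
      omega
    rw [e, hsplit, sum_union (disjoint_left.2 fun n h1 h2 => by
      simp only [mem_Icc, mem_Ioc] at h1 h2; omega)]
    have hX0 : (0 : ℝ) < X := Nat.cast_pos.2 (by omega)
    have h : ∑ n ∈ Ioc X (2 * X), (n : ℝ)⁻¹ * G n ≤ A := by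
      calc ∑ n ∈ Ioc X (2 * X), (n : ℝ)⁻¹ * G n ≤ ∑ n ∈ Ioc X (2 * X), (X : ℝ)⁻¹ * G n :=
            sum_le_sum fun n hn => mul_le_mul_of_nonneg_right
              (inv_anti₀ hX0 (Nat.cast_le.2 (mem_Ioc.1 hn).1.le)) (hG n)
        _ ≤ (X : ℝ)⁻¹ * (A * X) := by
            rw [← mul_sum]
            exact mul_le_mul_of_nonneg_left hAX (by positivity)
        _ = A := by field_simp
    push_cast
    linarith

/-- A logarithmic mean from the sums over the dyadic blocks above `T₀`. -/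
theorem logMean_le_dyadic {G : ℕ → ℝ} (hG : ∀ n, 0 ≤ G n) {A B : ℝ} (hA0 : 0 ≤ A) {T₀ N : ℕ}
    (hT : 1 ≤ T₀) (hN : 1 ≤ N) (hB : ∀ n, G n ≤ B)
    (hA : ∀ X, T₀ ≤ X → X < N → ∑ n ∈ Ioc X (2 * X), G n ≤ A * X) :
    logMean N G ≤ (B * harm T₀ + A) / harm N + 2 * A := by
  have hlog2 : N ≤ T₀ * 2 ^ (Nat.log 2 N + 1) :=
    (Nat.lt_pow_succ_log_self one_lt_two N).le.trans (Nat.le_mul_of_pos_left _ hT)
  have hex : ∃ i, N ≤ T₀ * 2 ^ i := ⟨_, hlog2⟩
  obtain ⟨i, hi⟩ : ∃ i, i = Nat.find hex := ⟨_, rfl⟩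
  have hNi : N ≤ T₀ * 2 ^ i := hi ▸ Nat.find_spec hex
  have hil : i ≤ Nat.log 2 N + 1 := hi ▸ Nat.find_le hlog2
  have hdy := sum_inv_mul_dyadic_le hG hT hB i fun l hl =>
    hA _ (Nat.le_mul_of_pos_right _ (by positivity)) (not_le.1 (Nat.find_min hex (hi ▸ hl)))
  have hlog : (i : ℝ) ≤ 2 * harm N + 1 := by
    refine (Nat.cast_le.2 hil).trans ?_
    push_cast
    have h1 : ((Nat.log 2 N : ℕ) : ℝ) * Real.log 2 ≤ Real.log N := by
      rw [← Real.log_pow]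
      exact Real.log_le_log (by positivity) (by exact_mod_cast Nat.pow_log_le_self 2 (by omega))
    have h3 := mul_le_mul_of_nonneg_left Real.log_two_gt_d9.le
      (Nat.cast_nonneg (α := ℝ) (Nat.log 2 N))
    linarith [log_le_harm hN, Nat.cast_nonneg (α := ℝ) (Nat.log 2 N)]
  rw [logMean_eq, div_add' _ _ _ (harm_pos hN).ne']
  refine div_le_div_of_nonneg_right ((sum_le_sum_of_subset_of_nonneg (Icc_subset_Icc_right hNi)
    fun n _ _ => mul_nonneg (by positivity) (hG n)).trans (hdy.trans ?_)) (harm_nonneg N)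
  linarith [mul_le_mul_of_nonneg_left hlog hA0]

end FA.LogChowla

end
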