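import Fermat.Agent.LogChowla.Forms
import Fermat.Agent.ShortMoebius.Squares
import Fermat.Agent.SquarefreeValues.Local

/-!
# The Möbius function

`μ = λ μ²`, and `μ²` differs from the periodic indicator of having no square divisor `p ^ 2`,
`p ≤ D`, by something of small mean at every linear form. So the two point theorem passes from `λ`
to `μ`, and the mean of a product of `μ²` at two linear forms is a limit of means of periodic
functions.
-/

set_option autoImplicit false

noncomputable section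

namespace FA.LogChowla

open Finset Filter
open FA.ShortMoebius (sqfree)
open FA.SquarefreeValues (smallPrimes)
open scoped Topology ArithmeticFunction.Moebius

/-- The Möbius function, in `ℝ`. -/
def mobR (n : ℕ) : ℝ := μ n

theorem mobR_eq (n : ℕ) : mobR n = lam n * sqfree n := ShortMoebius.moebius_eq_liouville_mul n

/-- No `p ^ 2`, `p ≤ D`, divides `m`, as an indicator. -/
def lowInd (D m : ℕ) : ℝ := if ∀ p ∈ smallPrimes (D + 1), ¬p ^ 2 ∣ m then 1 else 0

/-- The period of `lowInd D`. -/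
def lowPer (D : ℕ) : ℕ := ∏ p ∈ smallPrimes (D + 1), p ^ 2

open scoped Classical in
/-- Some `p ^ 2`, `D < p`, divides `m`, as an indicator. -/
def bigSq (D m : ℕ) : ℝ := if ∃ p : ℕ, p.Prime ∧ D < p ∧ p ^ 2 ∣ m then 1 else 0

theorem mem_smallPrimes {z p : ℕ} : p ∈ smallPrimes z ↔ p < z ∧ p.Prime := by
  rw [smallPrimes, mem_filter, mem_range]

theorem lowPer_pos (D : ℕ) : 1 ≤ lowPer D :=
  Finset.prod_pos fun _ hp => pow_pos (mem_smallPrimes.1 hp).2.pos 2

theorem lowInd_form_mod (D a b n : ℕ) :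
    lowInd D (a * n + b) = lowInd D (a * (n % lowPer D) + b) := by
  refine if_congr (forall₂_congr fun p hp => not_congr ?_) rfl rfl
  have hd : p ^ 2 ∣ a * (lowPer D * (n / lowPer D)) :=
    Dvd.dvd.mul_left ((Finset.dvd_prod_of_mem (fun p => p ^ 2) hp).mul_right _) a
  conv_lhs => rw [← Nat.mod_add_div n (lowPer D), mul_add, add_right_comm, Nat.dvd_add_left hd]

theorem abs_lowInd_le (D m : ℕ) : |lowInd D m| ≤ 1 := by
  rw [lowInd]
  split_ifs <;> norm_num

theorem abs_sqfree_sub_lowInd_le (D m : ℕ) : |sqfree m - lowInd D m| ≤ bigSq D m := by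
  classical
  by_cases hm : ∀ p ∈ smallPrimes (D + 1), ¬p ^ 2 ∣ m
  · by_cases hs : Squarefree m
    · simp only [sqfree, lowInd, bigSq, if_pos hm, if_pos hs, sub_self, abs_zero]
      split_ifs <;> norm_num
    · simp only [sqfree, lowInd, bigSq, if_pos hm, if_neg hs, zero_sub, abs_neg, abs_one]
      rw [Nat.squarefree_iff_prime_squarefree] at hs
      push Not at hs
      obtain ⟨p, hp, hd⟩ := hs
      have hDp : D < p := by
        by_contra! hle
        exact hm p (mem_smallPrimes.2 ⟨by omega, hp⟩) (by rwa [sq])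
      rw [if_pos ⟨p, hp, hDp, by rwa [sq]⟩]
  · have hs : ¬Squarefree m := fun hs => hm fun p hp hd =>
      Nat.squarefree_iff_prime_squarefree.1 hs p (mem_smallPrimes.1 hp).2 (by rwa [← sq])
    simp only [sqfree, lowInd, bigSq, if_neg hm, if_neg hs, sub_self, abs_zero]
    split_ifs <;> norm_num

theorem card_Ioc_dvd_form_le {a q : ℕ} (hq : 0 < q) (hco : q.Coprime a) (b X : ℕ) :
    ((Ioc X (2 * X)).filter fun n => q ∣ a * n + b).card ≤ X / q + 2 := by
  refine (card_le_card_of_injOn (fun n => n / q) (t := Icc (X / q) (2 * X / q))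
    (fun n hn => ?_) fun n hn n' hn' e => ?_).trans ?_
  · simp only [mem_coe, mem_filter, mem_Ioc] at hn
    rw [mem_coe, mem_Icc]
    exact ⟨Nat.div_le_div_right hn.1.1.le, Nat.div_le_div_right hn.1.2⟩
  · simp only [mem_coe, mem_filter] at hn hn'
    have h1 : a * n + b ≡ a * n' + b [MOD q] :=
      (Nat.modEq_zero_iff_dvd.2 hn.2).trans (Nat.modEq_zero_iff_dvd.2 hn'.2).symm
    have h2 : n % q = n' % q := (Nat.ModEq.add_right_cancel' b h1).cancel_left_of_coprime hco
    simp only at e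
    rw [← Nat.div_add_mod n q, ← Nat.div_add_mod n' q, e, h2]
  · rw [Nat.card_Icc]
    have : 2 * X / q ≤ 2 * (X / q) + 1 := by
      rw [Nat.div_le_iff_le_mul_add_pred hq, mul_add, mul_one, mul_left_comm]
      have := Nat.div_add_mod X q
      have := Nat.mod_lt X hq
      omega
    omega

theorem sum_inv_sq_tail_le (s : Finset ℕ) {D : ℕ} (hD : 1 ≤ D) (hs : ∀ p ∈ s, D < p) :
    ∑ p ∈ s, ((p : ℝ) ^ 2)⁻¹ ≤ (D : ℝ)⁻¹ := by
  have key : ∀ N, D ≤ N → ∑ i ∈ Ioc D N, ((i : ℝ) ^ 2)⁻¹ ≤ (D : ℝ)⁻¹ - (N : ℝ)⁻¹ := by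
    intro N hN
    induction N, hN using Nat.le_induction with
    | base => simp
    | succ N hDN ih =>
      have hN0 : (0 : ℝ) < N := Nat.cast_pos.2 (hD.trans hDN)
      rw [sum_Ioc_succ_top hDN]
      have : ((((N + 1 : ℕ) : ℝ)) ^ 2)⁻¹ ≤ (N : ℝ)⁻¹ - ((N + 1 : ℕ) : ℝ)⁻¹ := by
        push_cast
        rw [inv_sub_inv hN0.ne' (by positivity), inv_eq_one_div, div_le_div_iff₀ (by positivity)
          (by positivity)]
        nlinarith
      linarith
  refine (sum_le_sum_of_subset_of_nonneg (t := Ioc D (max D (s.sup id))) (fun p hp => ?_)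
    fun i _ _ => by positivity).trans ((key _ (le_max_left _ _)).trans
      (sub_le_self _ (by positivity)))
  exact mem_Ioc.2 ⟨hs p hp, (le_sup (f := id) hp).trans (le_max_right _ _)⟩

/-- A linear form rarely has a large square factor. -/
theorem exists_spanMean_bigSq_le {a : ℕ} (ha : 1 ≤ a) (b : ℕ) {ε : ℝ} (hε : 0 < ε) :
    ∃ D₀ : ℕ, ∀ D, D₀ ≤ D → ∀ᶠ z in spanFilter, spanMean z (fun n => bigSq D (a * n + b)) ≤ ε := by
  classical
  obtain ⟨D₁, hD₁⟩ := exists_nat_gt (8 / ε)
  refine ⟨max (max a D₁) 1, fun D hD => ?_⟩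
  simp only [max_le_iff] at hD
  obtain ⟨X₀, hX₀⟩ := exists_nat_gt ((16 / ε) ^ 2 * (4 * (a + b) : ℝ) + 1)
  have hbnd : ∀ X, X₀ ≤ X → ∑ n ∈ Ioc X (2 * X), bigSq D (a * n + b) ≤ ε / 4 * X := fun X hX => by
    obtain ⟨T, hT⟩ : ∃ T, T = Nat.sqrt (4 * (a + b) * X) := ⟨_, rfl⟩
    have hcard : ((Ioc X (2 * X)).filter fun n =>
        ∃ p : ℕ, p.Prime ∧ D < p ∧ p ^ 2 ∣ a * n + b).card ≤
          ∑ p ∈ (Ioc D T).filter Nat.Prime, (X / p ^ 2 + 2) := by
      refine (card_le_card (t := ((Ioc D T).filter Nat.Prime).biUnion fun p =>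
        (Ioc X (2 * X)).filter fun n => p ^ 2 ∣ a * n + b) fun n hn => ?_).trans
          (card_biUnion_le.trans (sum_le_sum fun p hp => ?_))
      · obtain ⟨hn, p, hp, hDp, hd⟩ := mem_filter.1 hn
        refine mem_biUnion.2 ⟨p, mem_filter.2 ⟨mem_Ioc.2 ⟨hDp, ?_⟩, hp⟩, mem_filter.2 ⟨hn, hd⟩⟩
        rw [mem_Ioc] at hn
        rw [hT, Nat.le_sqrt, ← sq]
        refine (Nat.le_of_dvd (by nlinarith) hd).trans ?_
        nlinarith [Nat.mul_le_mul_left a hn.2, Nat.le_mul_of_pos_right b (show 0 < X by omega)]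
      · obtain ⟨hp', hpp⟩ := mem_filter.1 hp
        exact card_Ioc_dvd_form_le (pow_pos hpp.pos 2) (Nat.Coprime.pow_left 2
          (hpp.coprime_iff_not_dvd.2 fun hd => by
            have := Nat.le_of_dvd ha hd
            have := (mem_Ioc.1 hp').1
            omega)) b X
    have hsum : ∑ p ∈ (Ioc D T).filter Nat.Prime, ((X / p ^ 2 + 2 : ℕ) : ℝ) ≤
        X * (D : ℝ)⁻¹ + 2 * T := by
      push_cast
      rw [sum_add_distrib, sum_const, nsmul_eq_mul]
      refine add_le_add ((sum_le_sum (g := fun p : ℕ => (X : ℝ) * ((p : ℝ) ^ 2)⁻¹) fun p _ =>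
        ?_).trans ?_) ?_
      · refine Nat.cast_div_le.trans ?_
        rw [Nat.cast_pow, div_eq_mul_inv]
      · rw [← mul_sum]
        exact mul_le_mul_of_nonneg_left (sum_inv_sq_tail_le _ hD.2 fun p hp =>
          (mem_Ioc.1 (mem_filter.1 hp).1).1) (Nat.cast_nonneg X)
      · rw [mul_comm]
        refine mul_le_mul_of_nonneg_left (Nat.cast_le.2 ?_) two_pos.le
        exact (card_filter_le _ _).trans (by simp)
    simp only [bigSq, sum_boole]
    refine (Nat.cast_le.2 hcard).trans ((Nat.cast_sum _ _).trans_le (hsum.trans ?_))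
    have hD0 : (0 : ℝ) < D := Nat.cast_pos.2 hD.2
    have h8 : (D : ℝ)⁻¹ ≤ ε / 8 := by
      rw [inv_le_iff_one_le_mul₀ hD0]
      rw [div_lt_iff₀ hε] at hD₁
      nlinarith [(Nat.cast_le (α := ℝ)).2 hD.1.2]
    have hT2 : (T : ℝ) ^ 2 ≤ 4 * (a + b) * X := by
      exact_mod_cast hT ▸ Nat.sqrt_le' (4 * (a + b) * X)
    have hX' : (16 / ε) ^ 2 * (4 * (a + b) : ℝ) ≤ X := by
      linarith [(Nat.cast_le (α := ℝ)).2 hX]
    have h16 : 16 * (T : ℝ) ≤ ε * X := by
      refine le_of_pow_le_pow_left₀ two_ne_zero (by positivity) ?_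
      rw [div_pow, div_mul_eq_mul_div, div_le_iff₀ (pow_pos hε 2)] at hX'
      nlinarith [mul_le_mul_of_nonneg_right hX' (Nat.cast_nonneg (α := ℝ) X)]
    nlinarith [mul_le_mul_of_nonneg_left h8 (Nat.cast_nonneg (α := ℝ) X)]
  filter_upwards [eventually_div_spanHarm_le (1 * harm (X₀ + 1) + 3 * (ε / 4))
      (show 0 < ε / 2 by positivity), eventually_spanHarm_pos] with z hz hz1
  refine (spanMean_le_dyadic (A := ε / 4) (B := 1) (fun n => ?_) (by positivity) hz1
    (show 1 ≤ X₀ + 1 by omega) (fun n => ?_) fun X hX => hbnd X (by omega)).trans (by linarith)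
  all_goals
    unfold bigSq
    split_ifs <;> norm_num

theorem tendsto_spanMean_of_approx {f : ℕ → ℝ} {l : ℝ}
    (h : ∀ ε : ℝ, 0 < ε → ∃ (g : ℕ → ℝ) (l' : ℝ),
      Tendsto (fun z => spanMean z g) spanFilter (𝓝 l') ∧ |l' - l| ≤ ε ∧ ∀ᶠ z in spanFilter, spanMean z (fun n => |f n - g n|) ≤ ε) :
    Tendsto (fun z => spanMean z f) spanFilter (𝓝 l) := by
  rw [Metric.tendsto_nhds]
  intro ε hε
  obtain ⟨g, l', hg, hl, hclose⟩ := h (ε / 4) (by positivity)
  filter_upwards [Metric.tendsto_nhds.1 hg (ε / 4) (by positivity), hclose] with z h1 h2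
  rw [Real.dist_eq] at h1 ⊢
  have h3 : |spanMean z f - spanMean z g| ≤ spanMean z (fun n => |f n - g n|) := by
    refine le_trans (le_of_eq (congrArg abs ?_)) (abs_spanMean_le z _)
    simp only [spanMean, mul_sub, sum_sub_distrib]
  have := abs_le.1 (h3.trans h2)
  have := abs_le.1 hl
  have := abs_lt.1 h1
  exact abs_lt.2 ⟨by linarith, by linarith⟩

/-- **Two values of `μ²` against anything bounded.** -/
theorem eventually_spanMean_sqfree_approx {a b c d : ℕ} (ha : 1 ≤ a) (hc : 1 ≤ c) {F : ℕ → ℝ}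
    (hF : ∀ n, |F n| ≤ 1) {ε : ℝ} (hε : 0 < ε) : ∃ D₀ : ℕ, ∀ D, D₀ ≤ D → ∀ᶠ z in spanFilter,
      spanMean z (fun n => |F n * (sqfree (a * n + b) * sqfree (c * n + d)) -
        lowInd D (a * n + b) * lowInd D (c * n + d) * F n|) ≤ ε := by
  obtain ⟨D₁, h₁⟩ := exists_spanMean_bigSq_le ha b (half_pos hε)
  obtain ⟨D₂, h₂⟩ := exists_spanMean_bigSq_le hc d (half_pos hε)
  refine ⟨max D₁ D₂, fun D hD => ?_⟩
  filter_upwards [h₁ D (le_of_max_le_left hD), h₂ D (le_of_max_le_right hD)] with z hz₁ hz₂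
  refine (spanMean_mono (g := fun n => bigSq D (a * n + b) + bigSq D (c * n + d))
    fun n _ => ?_).trans (by rw [spanMean_add]; linarith)
  rw [show F n * (sqfree (a * n + b) * sqfree (c * n + d)) -
      lowInd D (a * n + b) * lowInd D (c * n + d) * F n =
        F n * ((sqfree (a * n + b) - lowInd D (a * n + b)) * sqfree (c * n + d) +
          lowInd D (a * n + b) * (sqfree (c * n + d) - lowInd D (c * n + d))) by ring, abs_mul]
  refine (mul_le_of_le_one_left (abs_nonneg _) (hF n)).trans ((abs_add_le _ _).trans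
    (add_le_add ?_ ?_)) <;> rw [abs_mul]
  · exact (mul_le_of_le_one_right (abs_nonneg _) (ShortMoebius.abs_sqfree_le _)).trans
      (abs_sqfree_sub_lowInd_le _ _)
  · exact (mul_le_of_le_one_left (abs_nonneg _) (abs_lowInd_le _ _)).trans
      (abs_sqfree_sub_lowInd_le _ _)

/-- A vanishing mean along all progressions stays vanishing against two values of `μ²`. -/
theorem tendsto_spanMean_mul_sqfree {a b c d : ℕ} (ha : 1 ≤ a) (hc : 1 ≤ c) {F : ℕ → ℝ}
    (hF : ∀ n, |F n| ≤ 1) (h : ∀ W t, 1 ≤ W →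
      Tendsto (fun z => spanMean z fun n => if W ∣ n + t then F n else 0) spanFilter (𝓝 0)) :
    Tendsto (fun z => spanMean z fun n => F n * (sqfree (a * n + b) * sqfree (c * n + d)))
      spanFilter (𝓝 0) := tendsto_spanMean_of_approx fun ε hε => by
  obtain ⟨D, hD⟩ := eventually_spanMean_sqfree_approx (b := b) (d := d) ha hc hF hε
  exact ⟨fun n => lowInd D (a * n + b) * lowInd D (c * n + d) * F n, 0,
    tendsto_spanMean_periodic_mul (lowPer_pos D)
      (fun n => by rw [← lowInd_form_mod D a b n, ← lowInd_form_mod D c d n])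
      (fun t => h _ t (lowPer_pos D)), by simpa using hε.le, hD D le_rfl⟩

/-- **Tao's theorem for `μ`**, in the mean over spans. -/
theorem tendsto_spanMean_mobR_forms {a b c d : ℕ} (ha : 1 ≤ a) (hc : 1 ≤ c)
    (hne : a * d ≠ c * b) :
    Tendsto (fun z => spanMean z fun n => mobR (a * n + b) * mobR (c * n + d)) spanFilter
      (𝓝 0) := by
  refine (tendsto_spanMean_mul_sqfree (b := b) (d := d) ha hc
    (F := fun n => lam (a * n + b) * lam (c * n + d)) (fun n => abs_lam_mul_le _ _)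
    fun W t hW => tendsto_spanMean_lam_forms_cong ha hc hne hW t).congr fun z =>
      spanMean_congr fun n _ => ?_
  rw [mobR_eq, mobR_eq]
  ring

/-- `μ` at one linear form against `μ²` at another. -/
theorem tendsto_spanMean_mobR_sqfree {a c : ℕ} (ha : 1 ≤ a) (hc : 1 ≤ c) (b d : ℕ) :
    Tendsto (fun z => spanMean z fun n => mobR (a * n + b) * sqfree (c * n + d)) spanFilter
      (𝓝 0) := by
  refine (tendsto_spanMean_mul_sqfree (b := b) (d := d) ha hc (F := fun n => lam (a * n + b))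
    (fun n => abs_lam_le _) fun W t hW => tendsto_spanMean_lam_form_cong ha hW b t).congr fun z =>
      spanMean_congr fun n _ => ?_
  rw [mobR_eq]
  ring

/-- The mean of `μ` at a linear form vanishes. -/
theorem tendsto_spanMean_mobR {a : ℕ} (ha : 1 ≤ a) (b : ℕ) :
    Tendsto (fun z => spanMean z fun n => mobR (a * n + b)) spanFilter (𝓝 0) := by
  refine (tendsto_spanMean_mobR_sqfree ha ha b b).congr fun z => spanMean_congr fun n _ => ?_
  rw [mobR_eq, mul_assoc, sqfree]
  split_ifs <;> ring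

end FA.LogChowla

end
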