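import Fermat.Agent.LogChowla.LogMean

/-!
# Logarithmic means over spans

The means with the weights `1 / n` over `U < n ≤ N`, as `∑_{U < n ≤ N} 1 / n` grows. `U = 0`
gives the logarithmic mean; `U = N / ω`, `ω` large and fixed, gives lower densities.
-/

set_option autoImplicit false

noncomputable section

namespace FA.LogChowla

open Finset Filter
open FA.ShortExpSums (winSum norm_winSum_le exists_winSum_liou_le)
open FA.ShortLiouville (liou norm_liou_le)
open scoped Topology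

/-- `∑_{U < n ≤ N} 1 / n`, at `z = (U, N)`. -/
def spanHarm (z : ℕ × ℕ) : ℝ := ∑ n ∈ Ioc z.1 z.2, (n : ℝ)⁻¹

/-- The weight of `n`. -/
def spanW (z : ℕ × ℕ) (n : ℕ) : ℝ := (n : ℝ)⁻¹ / spanHarm z

/-- The mean over the span `z`. -/
def spanMean (z : ℕ × ℕ) (f : ℕ → ℝ) : ℝ := ∑ n ∈ Ioc z.1 z.2, spanW z n * f n

/-- The spans grow in the logarithmic sense. -/
def spanFilter : Filter (ℕ × ℕ) := comap spanHarm atTop

theorem spanHarm_nonneg (z : ℕ × ℕ) : 0 ≤ spanHarm z := sum_nonneg fun n _ => by positivity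

theorem spanW_nonneg (z : ℕ × ℕ) (n : ℕ) : 0 ≤ spanW z n :=
  div_nonneg (by positivity) (spanHarm_nonneg z)

theorem tendsto_spanHarm : Tendsto spanHarm spanFilter atTop := tendsto_comap

theorem eventually_spanHarm_pos : ∀ᶠ z in spanFilter, 0 < spanHarm z :=
  tendsto_spanHarm.eventually_gt_atTop 0

theorem eventually_div_spanHarm_le (C : ℝ) {ε : ℝ} (hε : 0 < ε) :
    ∀ᶠ z in spanFilter, C / spanHarm z ≤ ε :=
  (tendsto_spanHarm.const_div_atTop C).eventually_le_const hε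

theorem spanHarm_zero (N : ℕ) : spanHarm (0, N) = harm N := by
  rw [spanHarm, harm, ← zero_add 1, Finset.Icc_add_one_left_eq_Ioc]

theorem spanMean_zero (N : ℕ) (f : ℕ → ℝ) : spanMean (0, N) f = logMean N f := by
  rw [spanMean, logMean, ← zero_add 1, Finset.Icc_add_one_left_eq_Ioc]
  simp only [spanW, logW, spanHarm_zero]

theorem tendsto_span_zero : Tendsto (fun N : ℕ => (0, N)) atTop spanFilter :=
  tendsto_comap_iff.2 (tendsto_harm.congr fun N => (spanHarm_zero N).symm)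

theorem lt_of_spanHarm_pos {z : ℕ × ℕ} (hz : 0 < spanHarm z) : z.1 < z.2 := by
  by_contra! h
  rw [spanHarm, Ioc_eq_empty_of_le h, sum_empty] at hz
  exact lt_irrefl _ hz

theorem sum_span {U N : ℕ} (h : U ≤ N) (g : ℕ → ℝ) :
    ∑ n ∈ Ioc U N, g n = (∑ n ∈ Icc 1 N, g n) - ∑ n ∈ Icc 1 U, g n := by
  rw [← zero_add 1, Finset.Icc_add_one_left_eq_Ioc, Finset.Icc_add_one_left_eq_Ioc,
    ← sum_Ioc_consecutive g (Nat.zero_le U) h]
  ring

theorem spanMean_eq (z : ℕ × ℕ) (f : ℕ → ℝ) :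
    spanMean z f = (∑ n ∈ Ioc z.1 z.2, (n : ℝ)⁻¹ * f n) / spanHarm z := by
  rw [spanMean, sum_div]
  exact sum_congr rfl fun n _ => div_mul_eq_mul_div _ _ _

/-- The sums behind `logMean`. -/
theorem harm_mul_logMean (N : ℕ) (f : ℕ → ℝ) :
    harm N * logMean N f = ∑ n ∈ Icc 1 N, (n : ℝ)⁻¹ * f n := by
  rcases Nat.eq_zero_or_pos N with rfl | hN
  · simp [harm, logMean]
  · rw [logMean_eq, mul_div_cancel₀ _ (harm_pos hN).ne']

/-- A difference of two means over a span, from those up to its ends. -/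
theorem abs_spanMean_sub_le {z : ℕ × ℕ} (hz : 0 < spanHarm z) (f g : ℕ → ℝ) {c : ℝ} (hc : 0 ≤ c)
    (h : ∀ N : ℕ, |logMean N f - logMean N g| ≤ c / harm N) :
    |spanMean z f - spanMean z g| ≤ 2 * c / spanHarm z := by
  have h' : ∀ N : ℕ, |harm N * logMean N f - harm N * logMean N g| ≤ c := fun N => by
    rcases Nat.eq_zero_or_pos N with rfl | hN
    · simpa [harm] using hc
    rw [← mul_sub, abs_mul, abs_of_pos (harm_pos hN), ← le_div_iff₀' (harm_pos hN)]
    exact h N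
  simp only [harm_mul_logMean] at h'
  rw [spanMean_eq, spanMean_eq, ← sub_div, abs_div, abs_of_pos hz,
    sum_span (lt_of_spanHarm_pos hz).le, sum_span (lt_of_spanHarm_pos hz).le]
  refine div_le_div_of_nonneg_right ?_ hz.le
  have := abs_le.1 (h' z.1)
  have := abs_le.1 (h' z.2)
  exact abs_le.2 ⟨by linarith, by linarith⟩

theorem isWeights_spanW {z : ℕ × ℕ} (hz : 0 < spanHarm z) :
    IsWeights (Ioc z.1 z.2) (spanW z) where
  pos n hn := div_pos (inv_pos.2 (Nat.cast_pos.2 (by have := (mem_Ioc.1 hn).1; omega))) hz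
  sum_eq := by
    simp only [spanW]
    rw [← sum_div]
    exact div_self hz.ne'

theorem spanMean_mono {z : ℕ × ℕ} {f g : ℕ → ℝ} (h : ∀ n, 1 ≤ n → f n ≤ g n) :
    spanMean z f ≤ spanMean z g :=
  sum_le_sum fun n hn => mul_le_mul_of_nonneg_left
    (h n (by have := (mem_Ioc.1 hn).1; omega)) (spanW_nonneg z n)

theorem spanMean_congr {z : ℕ × ℕ} {f g : ℕ → ℝ} (h : ∀ n, 1 ≤ n → f n = g n) :
    spanMean z f = spanMean z g :=
  sum_congr rfl fun n hn => by rw [h n (by have := (mem_Ioc.1 hn).1; omega)]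

theorem abs_spanMean_le (z : ℕ × ℕ) (f : ℕ → ℝ) : |spanMean z f| ≤ spanMean z fun n => |f n| :=
  (abs_sum_le_sum_abs _ _).trans (le_of_eq (sum_congr rfl fun n _ => by
    rw [abs_mul, abs_of_nonneg (spanW_nonneg z n)]))

theorem spanMean_le_const {z : ℕ × ℕ} (hz : 0 < spanHarm z) {f : ℕ → ℝ} {B : ℝ}
    (h : ∀ n, 1 ≤ n → f n ≤ B) : spanMean z f ≤ B := by
  refine (spanMean_mono h).trans (le_of_eq ?_)
  rw [spanMean, ← sum_mul, (isWeights_spanW hz).sum_eq, one_mul]

theorem spanMean_sum {ι : Type*} (z : ℕ × ℕ) (s : Finset ι) (f : ι → ℕ → ℝ) :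
    spanMean z (fun n => ∑ i ∈ s, f i n) = ∑ i ∈ s, spanMean z (f i) := by
  simp only [spanMean, mul_sum]
  exact sum_comm

theorem spanMean_const_mul (z : ℕ × ℕ) (c : ℝ) (f : ℕ → ℝ) :
    spanMean z (fun n => c * f n) = c * spanMean z f := by
  simp only [spanMean, mul_sum]
  exact sum_congr rfl fun n _ => by ring

theorem spanMean_add (z : ℕ × ℕ) (f g : ℕ → ℝ) :
    spanMean z (fun n => f n + g n) = spanMean z f + spanMean z g := by
  simp only [spanMean, mul_add, sum_add_distrib]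

theorem spanMean_const {z : ℕ × ℕ} (hz : 0 < spanHarm z) (c : ℝ) :
    spanMean z (fun _ => c) = c := by
  rw [spanMean, ← sum_mul, (isWeights_spanW hz).sum_eq, one_mul]

/-- **The mean over a span is almost invariant under shifts.** -/
theorem abs_spanMean_shift_sub_le {z : ℕ × ℕ} (hz : 0 < spanHarm z) (f : ℕ → ℝ) {B : ℝ}
    (hf : ∀ n, |f n| ≤ B) (j : ℕ) :
    |spanMean z (fun n => f (n + j)) - spanMean z f| ≤ 6 * j * B / spanHarm z :=
  (abs_spanMean_sub_le hz _ f (mul_nonneg (by positivity) ((abs_nonneg _).trans (hf 0)))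
    fun N => abs_logMean_shift_sub_le N f hf j).trans_eq (by ring)

theorem tendsto_spanMean_shift_sub (f : ℕ → ℝ) {B : ℝ} (hf : ∀ n, |f n| ≤ B) (j : ℕ) :
    Tendsto (fun z => spanMean z (fun n => f (n + j)) - spanMean z f) spanFilter (𝓝 0) :=
  squeeze_zero_norm' (eventually_spanHarm_pos.mono fun z hz => by
    rw [Real.norm_eq_abs]
    exact abs_spanMean_shift_sub_le hz f hf j) (tendsto_spanHarm.const_div_atTop _)

theorem tendsto_spanMean_shift {f : ℕ → ℝ} {B : ℝ} (hf : ∀ n, |f n| ≤ B)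
    (h : Tendsto (fun z => spanMean z f) spanFilter (𝓝 0)) (j : ℕ) :
    Tendsto (fun z => spanMean z fun n => f (n + j)) spanFilter (𝓝 0) := by
  simpa using (tendsto_spanMean_shift_sub f hf j).add h

/-- **Van der Corput**: a bounded function with vanishing correlations has mean zero. -/
theorem tendsto_spanMean_of_corr {f : ℕ → ℝ} (hf : ∀ n, |f n| ≤ 1)
    (h : ∀ k, 1 ≤ k → Tendsto (fun z => spanMean z fun n => f n * f (n + k)) spanFilter (𝓝 0)) :
    Tendsto (fun z => spanMean z f) spanFilter (𝓝 0) := by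
  rw [Metric.tendsto_nhds]
  intro ε hε
  obtain ⟨K, hK⟩ := exists_nat_gt (4 / ε ^ 2)
  have hK0 : (0 : ℝ) < K := lt_of_le_of_lt (by positivity) hK
  have hfm : ∀ m n, |f m * f n| ≤ 1 := fun m n => by
    rw [abs_mul]
    exact mul_le_one₀ (hf m) (abs_nonneg _) (hf n)
  have hd : ∀ i j : ℕ, i < j →
      Tendsto (fun z => spanMean z fun n => f (n + i) * f (n + j)) spanFilter (𝓝 0) :=
    fun i j hij => (tendsto_spanMean_shift (fun n => hfm n _) (h (j - i) (by omega)) i).congr fun z =>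
      spanMean_congr fun n _ => by rw [show n + i + (j - i) = n + j by omega]
  have hp : ∀ i j, i ≠ j →
      Tendsto (fun z => spanMean z fun n => f (n + i) * f (n + j)) spanFilter (𝓝 0) :=
    fun i j hij => (lt_or_gt_of_ne hij).elim (hd i j) fun hlt =>
      (hd j i hlt).congr fun z => spanMean_congr fun n _ => mul_comm _ _
  filter_upwards [(eventually_all_finset (range K)).2 fun i (_ : i ∈ range K) =>
      (eventually_all_finset ((range K).erase i)).2 fun j hj =>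
        (hp i j (ne_of_mem_erase hj).symm).eventually
          (ge_mem_nhds (show 0 < ε ^ 2 / 8 by positivity)),
    eventually_div_spanHarm_le (6 * K * 1 : ℝ) (show 0 < ε / 8 by positivity),
    eventually_spanHarm_pos] with z hoff herr hz
  obtain ⟨F, hF⟩ : ∃ F : ℕ → ℝ, F = fun n => ∑ i ∈ range K, f (n + i) := ⟨_, rfl⟩
  have hsq : spanMean z (fun n => F n * F n) ≤ K * (1 + K * (ε ^ 2 / 8)) := by
    simp only [hF, sum_mul_sum, spanMean_sum]
    refine (sum_le_card_nsmul _ _ _ fun i hi => ?_).trans_eq (by rw [card_range, nsmul_eq_mul])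
    rw [← add_sum_erase _ _ hi]
    refine add_le_add (spanMean_le_const hz fun n _ => (le_abs_self _).trans (hfm _ _))
      ((sum_le_card_nsmul _ _ _ fun j hj => hoff i hi j hj).trans ?_)
    rw [nsmul_eq_mul]
    exact mul_le_mul_of_nonneg_right
      (Nat.cast_le.2 ((card_le_card (erase_subset _ _)).trans (card_range K).le)) (by positivity)
  have hlin : |spanMean z F - K * spanMean z f| ≤ K * (ε / 8) := by
    rw [hF, spanMean_sum, show (K : ℝ) * spanMean z f = ∑ _i ∈ range K, spanMean z f by simp,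
      ← sum_sub_distrib]
    refine (abs_sum_le_sum_abs _ _).trans ((sum_le_card_nsmul _ _ (ε / 8) fun i hi => ?_).trans_eq
      (by simp))
    refine (abs_spanMean_shift_sub_le hz f hf i).trans (le_trans ?_ herr)
    gcongr
    exact (mem_range.1 hi).le
  have habs : |spanMean z F| ≤
      (ε * K)⁻¹ * spanMean z (fun n => F n * F n) + ε * K / 4 := by
    rw [← spanMean_const_mul, ← spanMean_const hz (ε * K / 4), ← spanMean_add]
    refine (abs_spanMean_le z F).trans (spanMean_mono fun n _ => ?_)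
    rw [inv_mul_eq_div, div_add_div _ _ (by positivity) four_ne_zero,
      le_div_iff₀ (by positivity)]
    nlinarith [two_mul_le_add_sq (2 * |F n|) (ε * K), abs_mul_abs_self (F n)]
  have hone : (1 : ℝ) ≤ K * (ε ^ 2 / 4) := by
    rw [div_lt_iff₀ (by positivity)] at hK
    linarith
  have hFF : (ε * K)⁻¹ * spanMean z (fun n => F n * F n) ≤ 3 / 8 * ε * K := by
    refine (mul_le_mul_of_nonneg_left (hsq.trans (mul_le_mul_of_nonneg_left
      (show 1 + (K : ℝ) * (ε ^ 2 / 8) ≤ 3 / 8 * K * ε ^ 2 by linarith) hK0.le))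
        (by positivity)).trans_eq ?_
    field_simp
  rw [Real.dist_eq, sub_zero]
  refine lt_of_mul_lt_mul_left ?_ hK0.le
  rw [← abs_of_pos hK0, ← abs_mul, abs_of_pos hK0]
  have hεK : 0 < ε * K := mul_pos hε hK0
  have := abs_le.1 hlin
  have := abs_le.1 (habs.trans (add_le_add hFF le_rfl))
  exact abs_lt.2 ⟨by linarith, by linarith⟩

variable {α : Type*} [DecidableEq α]

theorem law_spanW (z : ℕ × ℕ) (X : ℕ → α) (a : α) :
    law (Ioc z.1 z.2) (spanW z) X a = spanMean z fun n => if X n = a then 1 else 0 := by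
  rw [law, spanMean, sum_filter]
  simp only [mul_ite, mul_one, mul_zero]

theorem tendsto_law_shift_sub (X : ℕ → α) (j : ℕ) (a : α) :
    Tendsto (fun z => law (Ioc z.1 z.2) (spanW z) (fun n => X (n + j)) a -
      law (Ioc z.1 z.2) (spanW z) X a) spanFilter (𝓝 0) := by
  simp only [law_spanW]
  exact tendsto_spanMean_shift_sub (fun n => if X n = a then 1 else 0) (B := 1)
    (fun n => by split_ifs <;> simp) j

/-- **Entropy is almost invariant under shifts**, uniformly in the map. -/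
theorem eventually_ent_shift [Fintype α] (j : ℕ) {ε : ℝ} (hε : 0 < ε) :
    ∀ᶠ z in spanFilter, ∀ X : ℕ → α,
      |ent (Ioc z.1 z.2) (spanW z) (fun n => X (n + j)) - ent (Ioc z.1 z.2) (spanW z) X| ≤ ε := by
  obtain ⟨k, hk⟩ : ∃ k : ℝ, k = Fintype.card α + 1 := ⟨_, rfl⟩
  have hk0 : 0 < k := hk ▸ by positivity
  obtain ⟨δ, hδ, huc⟩ := Metric.uniformContinuousOn_iff.1
    (isCompact_Icc.uniformContinuousOn_of_continuous (f := Real.negMulLog) (s := Set.Icc 0 1)
      Real.continuous_negMulLog.continuousOn) (ε / k) (div_pos hε hk0)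
  filter_upwards [eventually_div_spanHarm_le (6 * j * 1 : ℝ) (half_pos hδ),
    eventually_spanHarm_pos] with z hz hz1 X
  have hw := isWeights_spanW hz1
  rw [ent_eq_sum, ent_eq_sum, ← sum_sub_distrib]
  refine (abs_sum_le_sum_abs _ _).trans
    ((sum_le_card_nsmul _ _ (ε / k) fun a _ => ?_).trans ?_)
  · rw [← Real.dist_eq]
    refine (huc _ ⟨law_nonneg hw _ _, law_le_one hw _ _⟩ _ ⟨law_nonneg hw _ _, law_le_one hw _ _⟩
      ?_).le
    rw [Real.dist_eq, law_spanW, law_spanW]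
    refine lt_of_le_of_lt ((abs_spanMean_shift_sub_le hz1 (fun n => if X n = a then 1 else 0)
      (fun n => by split_ifs <;> simp) j).trans hz) (half_lt_self hδ)
  · rw [card_univ, nsmul_eq_mul, ← mul_div_assoc, div_le_iff₀ hk0, hk]
    linarith

theorem log_sub_log_le {V : ℕ} (hV : 1 ≤ V) : ∀ N : ℕ, V ≤ N →
    Real.log N - Real.log V ≤ (V : ℝ)⁻¹ - (N : ℝ)⁻¹ + spanHarm (V, N) := by
  intro N hN
  induction N, hN using Nat.le_induction with
  | base => simp [spanHarm]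
  | succ N hVN ih =>
    have hN0 : (0 : ℝ) < N := Nat.cast_pos.2 (hV.trans hVN)
    have e : spanHarm (V, N + 1) = spanHarm (V, N) + ((N + 1 : ℕ) : ℝ)⁻¹ := by
      rw [spanHarm, spanHarm, sum_Ioc_succ_top hVN]
    have h1 : Real.log ((N : ℝ) + 1) - Real.log N ≤ (N : ℝ)⁻¹ := by
      rw [← Real.log_div (by positivity) hN0.ne']
      refine (Real.log_le_sub_one_of_pos (by positivity)).trans (le_of_eq ?_)
      field_simp
      ring
    rw [e]
    push_cast
    linarith

theorem sum_inv_mul_blocks_le {G : ℕ → ℝ} (hG : ∀ n, 0 ≤ G n) {A : ℝ} {V : ℕ} (hV : 1 ≤ V) :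
    ∀ i : ℕ, (∀ l < i, ∑ n ∈ Ioc (V * 2 ^ l) (2 * (V * 2 ^ l)), G n ≤ A * (V * 2 ^ l : ℕ)) →
      ∑ n ∈ Ioc V (V * 2 ^ i), (n : ℝ)⁻¹ * G n ≤ A * i
  | 0, _ => by simp
  | i + 1, hA => by
    have ih := sum_inv_mul_blocks_le hG hV i fun l hl => hA l (by omega)
    obtain ⟨X, hX⟩ : ∃ X, X = V * 2 ^ i := ⟨_, rfl⟩
    have hX1 : V ≤ X := hX ▸ Nat.le_mul_of_pos_right _ (by positivity)
    have hAX := hA i (Nat.lt_succ_self i)
    rw [← hX] at hAX ih
    rw [show V * 2 ^ (i + 1) = 2 * X by rw [hX]; ring,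
      ← sum_Ioc_consecutive _ hX1 (show X ≤ 2 * X by omega)]
    have hX0 : (0 : ℝ) < X := Nat.cast_pos.2 (by omega)
    have h : ∑ n ∈ Ioc X (2 * X), (n : ℝ)⁻¹ * G n ≤ A := by
      calc ∑ n ∈ Ioc X (2 * X), (n : ℝ)⁻¹ * G n ≤ ∑ n ∈ Ioc X (2 * X), (X : ℝ)⁻¹ * G n :=
            sum_le_sum fun n hn => mul_le_mul_of_nonneg_right
              (inv_anti₀ hX0 (Nat.cast_le.2 (mem_Ioc.1 hn).1.le)) (hG n)
        _ ≤ (X : ℝ)⁻¹ * (A * X) := by
            rw [← mul_sum]
            exact mul_le_mul_of_nonneg_left hAX (by positivity)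
        _ = A := by field_simp
    push_cast
    linarith

/-- A mean over a span from the sums over the dyadic blocks above `T₀`. -/
theorem spanMean_le_dyadic {G : ℕ → ℝ} (hG : ∀ n, 0 ≤ G n) {A B : ℝ} (hA0 : 0 ≤ A) {T₀ : ℕ}
    {z : ℕ × ℕ} (hz : 0 < spanHarm z) (hT : 1 ≤ T₀) (hB : ∀ n, G n ≤ B)
    (hA : ∀ X, T₀ ≤ X → ∑ n ∈ Ioc X (2 * X), G n ≤ A * X) :
    spanMean z G ≤ (B * harm T₀ + 3 * A) / spanHarm z + 2 * A := by
  obtain ⟨U, N⟩ := z
  have hUN : U < N := lt_of_spanHarm_pos hz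
  have hB0 : 0 ≤ B := (hG 0).trans (hB 0)
  obtain ⟨V, hV⟩ : ∃ V, V = max U T₀ := ⟨_, rfl⟩
  obtain ⟨hUV, hTV⟩ : U ≤ V ∧ T₀ ≤ V := hV ▸ ⟨le_max_left _ _, le_max_right _ _⟩
  have hhead : ∑ n ∈ (Ioc U N).filter (fun n => n ≤ V), (n : ℝ)⁻¹ * G n ≤ B * harm T₀ := by
    rw [harm, mul_sum]
    refine (sum_le_sum_of_subset_of_nonneg (t := Icc 1 T₀) (fun n hn => ?_)
      fun n _ _ => mul_nonneg (by positivity) (hG n)).trans
        (sum_le_sum fun n _ => (mul_comm _ _).trans_le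
          (mul_le_mul_of_nonneg_right (hB n) (by positivity)))
    simp only [mem_filter, mem_Ioc] at hn
    simp only [mem_Icc]
    omega
  have htail : ∑ n ∈ Ioc V N, (n : ℝ)⁻¹ * G n ≤ A * (2 * spanHarm (U, N) + 3) := by
    rcases le_or_gt N V with hNV | hNV
    · rw [Ioc_eq_empty_of_le hNV, sum_empty]
      exact mul_nonneg hA0 (by linarith [spanHarm_nonneg (U, N)])
    have hV0 : 1 ≤ V := hT.trans hTV
    have hex : ∃ i, N ≤ V * 2 ^ i :=
      ⟨N, (Nat.lt_two_pow_self).le.trans (Nat.le_mul_of_pos_left _ hV0)⟩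
    obtain ⟨i, hi⟩ : ∃ i, i = Nat.find hex := ⟨_, rfl⟩
    have hNi : N ≤ V * 2 ^ i := hi ▸ Nat.find_spec hex
    refine (sum_le_sum_of_subset_of_nonneg (Ioc_subset_Ioc_right hNi)
      fun n _ _ => mul_nonneg (by positivity) (hG n)).trans ((sum_inv_mul_blocks_le hG hV0 i
        fun l _ => hA _ (hTV.trans (Nat.le_mul_of_pos_right _ (by positivity)))).trans
          (mul_le_mul_of_nonneg_left ?_ hA0))
    rcases Nat.eq_zero_or_pos i with h0 | hipos
    · rw [h0, Nat.cast_zero]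
      linarith [spanHarm_nonneg (U, N)]
    obtain ⟨k, hk⟩ : ∃ k, i = k + 1 := ⟨i - 1, by omega⟩
    have hkN : V * 2 ^ k < N := not_le.1 (Nat.find_min hex (hi ▸ hk ▸ Nat.lt_succ_self k))
    have h1 : (k : ℝ) * Real.log 2 ≤ Real.log N - Real.log V := by
      rw [le_sub_iff_add_le, ← Real.log_pow, ← Real.log_mul (by positivity)
        (Nat.cast_ne_zero.2 (by omega))]
      refine Real.log_le_log (mul_pos (by positivity) (Nat.cast_pos.2 hV0)) ?_
      have : ((V * 2 ^ k : ℕ) : ℝ) ≤ (N : ℝ) := Nat.cast_le.2 hkN.le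
      push_cast at this
      linarith
    have h2 := log_sub_log_le hV0 N hNV.le
    have h3 : spanHarm (V, N) ≤ spanHarm (U, N) :=
      sum_le_sum_of_subset_of_nonneg (Ioc_subset_Ioc_left hUV) fun n _ _ => by positivity
    have h4 : (V : ℝ)⁻¹ ≤ 1 := inv_le_one_of_one_le₀ (Nat.one_le_cast.2 hV0)
    have h5 : (0 : ℝ) ≤ (N : ℝ)⁻¹ := by positivity
    have h6 := mul_le_mul_of_nonneg_left Real.log_two_gt_d9.le (Nat.cast_nonneg (α := ℝ) k)
    rw [hk]
    push_cast
    linarith [(Nat.cast_nonneg k : (0 : ℝ) ≤ k), spanHarm_nonneg (U, N)]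
  have hsub : (Ioc U N).filter (fun n => ¬n ≤ V) ⊆ Ioc V N := fun n hn => by
    simp only [mem_filter, mem_Ioc] at hn ⊢
    omega
  rw [spanMean_eq, div_add' _ _ _ hz.ne']
  refine div_le_div_of_nonneg_right ?_ hz.le
  rw [← sum_filter_add_sum_filter_not (Ioc U N) (fun n => n ≤ V)]
  linarith [(sum_le_sum_of_subset_of_nonneg hsub fun n _ _ =>
    mul_nonneg (show (0 : ℝ) ≤ (n : ℝ)⁻¹ by positivity) (hG n)).trans htail]

/-- **Short exponential sums in the logarithmic mean.** -/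
theorem exists_spanMean_winSum_le {η : ℝ} (hη : 0 < η) : ∃ H₀ : ℕ, ∀ K : ℕ, H₀ ≤ K →
    ∀ᶠ z in spanFilter, ∀ θ : ℝ,
      spanMean z (fun n => ‖winSum liou θ K n‖ ^ 2) ≤ η * (K : ℝ) ^ 2 := by
  obtain ⟨H₀, X₀, hb⟩ := exists_winSum_liou_le (show 0 < η / 4 by positivity)
  refine ⟨H₀, fun K hK => ?_⟩
  rcases Nat.eq_zero_or_pos K with rfl | hK0
  · exact Eventually.of_forall fun z θ => by simp [spanMean, winSum]
  filter_upwards [eventually_div_spanHarm_le
      ((K : ℝ) ^ 2 * harm (X₀ + K + 1) + 3 * (η / 4 * (K : ℝ) ^ 2))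
      (show 0 < η * (K : ℝ) ^ 2 / 2 by positivity),
    eventually_spanHarm_pos] with z hz hz1 θ
  refine (spanMean_le_dyadic (A := η / 4 * (K : ℝ) ^ 2) (fun n => sq_nonneg _) (by positivity)
    hz1 (show 1 ≤ X₀ + K + 1 by omega)
    (fun n => pow_le_pow_left₀ (norm_nonneg _) (norm_winSum_le norm_liou_le θ K n) 2)
    fun X hX => le_of_le_of_eq (hb X K θ (by omega) hK (by omega)) (by ring)).trans ?_
  linarith

end FA.LogChowla

end
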