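import Fermat.Agent.LogChowla.Moebius
import Mathlib.NumberTheory.EulerProduct.DirichletLSeries
import Mathlib.NumberTheory.LSeries.HurwitzZetaValues

/-!
# The patterns of two values of `μ`

The mean of `μ² n μ² (n + h)` over spans is `∏ (1 - ν p / p²)`, `ν p` being `1` if `p² ∣ h` and
`2` otherwise. With the vanishing of the means involving `μ` this gives the density of each of the
nine patterns of `(μ n, μ (n + h))`, and each is positive.
-/

set_option autoImplicit false

noncomputable section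

namespace FA.LogChowla

open Finset Filter
open FA.ShortMoebius (sqfree)
open FA.SquarefreeValues (smallPrimes card_range_filter_mod)
open scoped Topology ArithmeticFunction.Moebius

/-- `1 - ν p / p²` at a prime `p`, and `1` elsewhere. -/
def pairLocal (h p : ℕ) : ℝ :=
  if p.Prime then 1 - (if p ^ 2 ∣ h then 1 else 2) / (p : ℝ) ^ 2 else 1

/-- The product of the local factors below `z`. -/
def pairPartial (h z : ℕ) : ℝ := ∏ p ∈ range z, pairLocal h p

/-- The density of the `n` with `n` and `n + h` squarefree. -/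
def pairDensity (h : ℕ) : ℝ := ⨅ z, pairPartial h z

theorem pairLocal_bounds (h p : ℕ) : 1 - 2 / (p : ℝ) ^ 2 ≤ pairLocal h p ∧
    0 ≤ pairLocal h p ∧ pairLocal h p ≤ pairLocal 0 p ∧ pairLocal h p ≤ 1 := by
  unfold pairLocal
  by_cases hp : p.Prime
  · have h4 : (4 : ℝ) ≤ (p : ℝ) ^ 2 := by
      have := Nat.pow_le_pow_left hp.two_le 2
      exact_mod_cast this
    have h1 : 2 / (p : ℝ) ^ 2 ≤ 1 / 2 := by
      rw [div_le_iff₀ (by linarith)]
      linarith
    have h2 : 1 / (p : ℝ) ^ 2 ≤ 2 / (p : ℝ) ^ 2 :=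
      div_le_div_of_nonneg_right one_le_two (by positivity)
    have h3 : 0 ≤ 1 / (p : ℝ) ^ 2 := by positivity
    simp only [if_pos hp, dvd_zero, if_true]
    split_ifs <;> refine ⟨?_, ?_, ?_, ?_⟩ <;> linarith
  · simp only [if_neg hp]
    exact ⟨sub_le_self _ (by positivity), zero_le_one, le_rfl, le_rfl⟩

theorem pairPartial_nonneg (h z : ℕ) : 0 ≤ pairPartial h z :=
  prod_nonneg fun p _ => (pairLocal_bounds h p).2.1

theorem tendsto_pairPartial (h : ℕ) :
    Tendsto (pairPartial h) atTop (𝓝 (pairDensity h)) :=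
  tendsto_atTop_ciInf (antitone_nat_of_succ_le fun z => by
    rw [pairPartial, prod_range_succ]
    exact mul_le_of_le_one_right (pairPartial_nonneg h z) (pairLocal_bounds h z).2.2.2)
    ⟨0, by rintro x ⟨z, rfl⟩; exact pairPartial_nonneg h z⟩

theorem card_pair_local {h p : ℕ} (hp : p.Prime) :
    (((range (p ^ 2)).filter fun r => ¬p ^ 2 ∣ r ∧ ¬p ^ 2 ∣ r + h).card : ℝ) =
      (p : ℝ) ^ 2 * pairLocal h p := by
  have hp0 : (p : ℝ) ≠ 0 := Nat.cast_ne_zero.2 hp.ne_zero
  obtain ⟨q, hq⟩ : ∃ q, q = p ^ 2 := ⟨_, rfl⟩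
  have hq1 : 2 ≤ q := hq ▸ hp.two_le.trans (Nat.le_self_pow two_ne_zero p)
  have hbad : (range q).filter (fun r => ¬(¬q ∣ r ∧ ¬q ∣ r + h)) =
      {0, (q - h % q) % q} := by
    ext r
    simp only [mem_filter, mem_range, mem_insert, mem_singleton, not_and, not_not]
    have hmod := Nat.mod_lt h (show 0 < q by omega)
    have key : ∀ r < q, (q ∣ r + h ↔ r = (q - h % q) % q) := fun r hr => by
      rw [Nat.dvd_iff_mod_eq_zero, Nat.add_mod, Nat.mod_eq_of_lt hr]
      rcases Nat.eq_zero_or_pos (h % q) with e | e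
      · rw [e, add_zero, Nat.sub_zero, Nat.mod_self, Nat.mod_eq_of_lt hr]
      · rw [Nat.mod_eq_of_lt (show q - h % q < q by omega)]
        rcases lt_or_ge (r + h % q) q with hlt | hge
        · rw [Nat.mod_eq_of_lt hlt]
          omega
        · rw [Nat.mod_eq_sub_mod hge, Nat.mod_eq_of_lt (show r + h % q - q < q by omega)]
          omega
    constructor
    · rintro ⟨hr, himp⟩
      by_cases h0 : q ∣ r
      · exact Or.inl (Nat.eq_zero_of_dvd_of_lt h0 hr)
      · exact Or.inr ((key r hr).1 (himp h0))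
    · rintro (rfl | rfl)
      · exact ⟨by omega, fun hn => absurd (dvd_zero q) hn⟩
      · exact ⟨Nat.mod_lt _ (by omega), fun _ => (key _ (Nat.mod_lt _ (by omega))).2 rfl⟩
  have hsplit := card_filter_add_card_filter_not (s := range q) fun r => ¬q ∣ r ∧ ¬q ∣ r + h
  rw [hbad, card_range] at hsplit
  have hq' : (p : ℝ) ^ 2 = q := by rw [hq, Nat.cast_pow]
  rw [← hq, pairLocal, if_pos hp, ← hq, hq', mul_sub, mul_one,
    mul_div_cancel₀ _ (Nat.cast_ne_zero.2 (show q ≠ 0 by omega))]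
  by_cases hd : q ∣ h
  · rw [Nat.mod_eq_zero_of_dvd hd, Nat.sub_zero, Nat.mod_self,
      insert_eq_of_mem (mem_singleton_self _),
      card_singleton] at hsplit
    rw [if_pos hd, ← Nat.cast_one, eq_sub_iff_add_eq, ← Nat.cast_add, hsplit]
  · have hpos : 0 < h % q := Nat.pos_of_ne_zero fun e => hd (Nat.dvd_of_mod_eq_zero e)
    rw [Nat.mod_eq_of_lt (show q - h % q < q by omega), card_pair (by
      have := Nat.mod_lt h (show 0 < q by omega)
      omega)] at hsplit
    rw [if_neg hd, ← Nat.cast_ofNat (R := ℝ) (n := 2), eq_sub_iff_add_eq, ← Nat.cast_add, hsplit]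

theorem dvd_add_mod_iff {q m : ℕ} (hqm : q ∣ m) (n k : ℕ) : q ∣ n % m + k ↔ q ∣ n + k := by
  conv_rhs => rw [← Nat.mod_add_div n m, add_right_comm, Nat.dvd_add_left (hqm.mul_right _)]

theorem card_pair_period (h : ℕ) (s : Finset ℕ) (hs : ∀ p ∈ s, p.Prime) :
    (((range (∏ p ∈ s, p ^ 2)).filter fun r =>
      ∀ p ∈ s, ¬p ^ 2 ∣ r ∧ ¬p ^ 2 ∣ r + h).card : ℝ) =
        (∏ p ∈ s, (p : ℝ) ^ 2) * ∏ p ∈ s, pairLocal h p := by
  induction s using Finset.induction_on with
  | empty => simp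
  | insert a s ha ih =>
    have hap := hs a (Finset.mem_insert_self a s)
    have hs' : ∀ p ∈ s, p.Prime := fun p hp => hs p (Finset.mem_insert_of_mem hp)
    rw [prod_insert ha, prod_insert ha, prod_insert ha]
    have hco : (a ^ 2).Coprime (∏ p ∈ s, p ^ 2) := Nat.Coprime.prod_right fun p hp =>
      ((Nat.coprime_primes hap (hs' p hp)).2 fun h => ha (h ▸ hp)).pow 2 2
    have e : (range (a ^ 2 * ∏ p ∈ s, p ^ 2)).filter
        (fun r => ∀ p ∈ insert a s, ¬p ^ 2 ∣ r ∧ ¬p ^ 2 ∣ r + h) =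
        (range (a ^ 2 * ∏ p ∈ s, p ^ 2)).filter fun r =>
          (fun u => ¬a ^ 2 ∣ u ∧ ¬a ^ 2 ∣ u + h) (r % a ^ 2) ∧
          (fun u => ∀ p ∈ s, ¬p ^ 2 ∣ u ∧ ¬p ^ 2 ∣ u + h) (r % ∏ p ∈ s, p ^ 2) := by
      refine filter_congr fun r _ => ?_
      simp only [forall_mem_insert]
      refine and_congr (and_congr (not_congr ?_) (not_congr ?_))
        (forall₂_congr fun p hp => and_congr (not_congr ?_) (not_congr ?_))
      · simpa using (dvd_add_mod_iff (dvd_refl (a ^ 2)) r 0).symm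
      · exact (dvd_add_mod_iff (dvd_refl (a ^ 2)) r h).symm
      · simpa using (dvd_add_mod_iff (dvd_prod_of_mem (fun p => p ^ 2) hp) r 0).symm
      · exact (dvd_add_mod_iff (dvd_prod_of_mem (fun p => p ^ 2) hp) r h).symm
    have h3 := card_range_filter_mod (pow_pos hap.pos 2)
      (prod_pos fun p hp => pow_pos (hs' p hp).pos 2) hco
      (fun u => ¬a ^ 2 ∣ u ∧ ¬a ^ 2 ∣ u + h) (fun u => ∀ p ∈ s, ¬p ^ 2 ∣ u ∧ ¬p ^ 2 ∣ u + h)
    simp only at h3 e
    rw [e, h3, Nat.cast_mul, ih hs', card_pair_local hap]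
    ring

theorem sum_window_periodic {W : ℕ} {g : ℕ → ℝ} (hg : ∀ n, g n = g (n % W)) :
    ∀ n, ∑ j ∈ range W, g (n + j) = ∑ j ∈ range W, g j
  | 0 => by simp
  | n + 1 => by
    rw [← sum_window_periodic hg n]
    have h1 := sum_range_succ' (fun j => g (n + j)) W
    have h2 := sum_range_succ (fun j => g (n + j)) W
    have h3 : g (n + W) = g (n + 0) := by rw [hg, Nat.add_mod_right, ← hg, add_zero]
    simp only [show ∀ j, n + 1 + j = n + (j + 1) from fun j => by omega]
    linarith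

/-- The mean of a periodic function is its mean over a period. -/
theorem tendsto_spanMean_periodic {W : ℕ} (hW : 1 ≤ W) {g : ℕ → ℝ} {B : ℝ} (hB : ∀ n, |g n| ≤ B)
    (hg : ∀ n, g n = g (n % W)) :
    Tendsto (fun z => spanMean z g) spanFilter (𝓝 ((∑ j ∈ range W, g j) / W)) := by
  have hW0 : (W : ℝ) ≠ 0 := Nat.cast_ne_zero.2 (by omega)
  have h1 := (((tendsto_finsetSum (range W) fun j _ =>
    tendsto_spanMean_shift_sub g hB j).div_const (W : ℝ))).const_sub ((∑ j ∈ range W, g j) / W)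
  simp only [sum_const_zero, zero_div, sub_zero] at h1
  refine h1.congr' (eventually_spanHarm_pos.mono fun z hz => ?_)
  rw [sum_sub_distrib, ← spanMean_sum, sum_const, card_range, nsmul_eq_mul,
    spanMean_congr fun n _ => sum_window_periodic hg n, spanMean_const hz, sub_div, sub_sub_cancel,
    mul_div_cancel_left₀ _ hW0]

/-- **Pairs of squarefree numbers**, in the mean over spans. -/
theorem tendsto_spanMean_sqfree_pair (h : ℕ) :
    Tendsto (fun z => spanMean z fun n => sqfree n * sqfree (n + h)) spanFilter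
      (𝓝 (pairDensity h)) := by
  refine tendsto_spanMean_of_approx fun ε hε => ?_
  obtain ⟨D₀, hD₀⟩ := eventually_spanMean_sqfree_approx (a := 1) (b := 0) (c := 1) (d := h)
    le_rfl le_rfl (F := fun _ => 1) (fun _ => by norm_num) hε
  obtain ⟨Z, hZ⟩ := eventually_atTop.1 (Metric.tendsto_nhds.1 (tendsto_pairPartial h) ε hε)
  obtain ⟨D, hD⟩ : ∃ D, D = D₀ + Z := ⟨_, rfl⟩
  refine ⟨fun n => lowInd D (1 * n + 0) * lowInd D (1 * n + h), pairPartial h (D + 1), ?_,
    (hZ (D + 1) (by omega)).le, (hD₀ D (by omega)).mono fun z hz => le_of_eq_of_le ?_ hz⟩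
  · have e : (∑ j ∈ range (lowPer D), lowInd D (1 * j + 0) * lowInd D (1 * j + h)) / lowPer D =
        pairPartial h (D + 1) := by
      have hc := card_pair_period h (smallPrimes (D + 1)) fun p hp => (mem_smallPrimes.1 hp).2
      rw [natCast_card_filter] at hc
      simp only [lowPer, one_mul, add_zero, lowInd, ite_zero_mul_ite_zero, mul_one, ← forall₂_and]
      rw [hc, Nat.cast_prod]
      simp only [Nat.cast_pow]
      rw [mul_div_cancel_left₀ _ (prod_ne_zero_iff.2 fun p hp => pow_ne_zero _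
        (Nat.cast_ne_zero.2 (mem_smallPrimes.1 hp).2.ne_zero))]
      exact prod_filter_of_ne fun p _ hne => by
        by_contra hp
        exact hne (if_neg hp)
    rw [← e]
    refine tendsto_spanMean_periodic (lowPer_pos D) (B := 1) (fun n => ?_) fun n => by
      rw [← lowInd_form_mod, ← lowInd_form_mod]
    rw [abs_mul]
    exact mul_le_one₀ (abs_lowInd_le _ _) (abs_nonneg _) (abs_lowInd_le _ _)
  · simp only [one_mul, mul_one, add_zero]

theorem sqfree_sq (n : ℕ) : sqfree n * sqfree n = sqfree n := by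
  rw [sqfree]
  split_ifs <;> simp

theorem tendsto_spanMean_sqfree (k : ℕ) :
    Tendsto (fun z => spanMean z fun n => sqfree (n + k)) spanFilter (𝓝 (pairDensity 0)) := by
  have h0 : Tendsto (fun z => spanMean z fun n => sqfree n) spanFilter (𝓝 (pairDensity 0)) :=
    (tendsto_spanMean_sqfree_pair 0).congr fun z => spanMean_congr fun n _ => by
      rw [add_zero, sqfree_sq]
  simpa using (tendsto_spanMean_shift_sub sqfree ShortMoebius.abs_sqfree_le k).add h0

theorem pairDensity_zero_eq : pairDensity 0 = 6 / Real.pi ^ 2 := by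
  have h1 := riemannZeta_eulerProduct (s := 2) (by norm_num)
  rw [riemannZeta_two] at h1
  have e : ∀ z, (∏ p ∈ Nat.primesBelow z, (1 - (p : ℂ) ^ (-(2 : ℂ)))⁻¹)⁻¹ =
      ((pairPartial 0 z : ℝ) : ℂ) := fun z => by
    rw [prod_inv_distrib, inv_inv, pairPartial, Complex.ofReal_prod, Nat.primesBelow, prod_filter]
    refine prod_congr rfl fun p _ => ?_
    simp only [pairLocal, dvd_zero, if_true]
    split_ifs with hp
    · rw [Complex.cpow_neg, Complex.cpow_ofNat]
      push_cast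
      ring
    · norm_num
  have h2 := (h1.inv₀ (by simp [Real.pi_ne_zero])).congr e
  have h3 : Tendsto (pairPartial 0) atTop (𝓝 (((Real.pi : ℂ) ^ 2 / 6)⁻¹).re) :=
    ((Complex.continuous_re.tendsto _).comp h2).congr fun z => Complex.ofReal_re _
  rw [tendsto_nhds_unique (tendsto_pairPartial 0) h3, inv_div,
    ← Complex.ofReal_ofNat, ← Complex.ofReal_pow, ← Complex.ofReal_div, Complex.ofReal_re]

theorem pairPartial_ge (h : ℕ) : ∀ z : ℕ, 7 ≤ z →
    161 / 450 * (9 / 13 + 2 / ((z : ℝ) - 1 / 2)) ≤ pairPartial h z := by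
  intro z hz
  induction z, hz using Nat.le_induction with
  | base =>
    rw [pairPartial, prod_range_succ, prod_range_succ, prod_range_succ, prod_range_succ,
      prod_range_succ, prod_range_succ, prod_range_succ, prod_range_zero]
    have h2 := (pairLocal_bounds h 2).1
    have h3 := (pairLocal_bounds h 3).1
    have h5 := (pairLocal_bounds h 5).1
    have e : ∀ p, ¬p.Prime → pairLocal h p = 1 := fun p hp => if_neg hp
    rw [e 0 (by norm_num), e 1 (by norm_num), e 4 (by norm_num), e 6 (by norm_num)]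
    norm_num at h2 h3 h5 ⊢
    calc (161 / 450 : ℝ) = 1 / 2 * (7 / 9) * (23 / 25) := by norm_num
      _ ≤ pairLocal h 2 * pairLocal h 3 * pairLocal h 5 :=
        mul_le_mul (mul_le_mul h2 h3 (by norm_num) (by linarith)) h5 (by norm_num)
          (mul_nonneg (by linarith) (by linarith))
  | succ z hz ih =>
    have hz7 : (7 : ℝ) ≤ z := by exact_mod_cast hz
    rw [pairPartial, prod_range_succ]
    have hA : 9 / 13 + 2 / ((z : ℝ) - 1 / 2) ≤ 1 := by
      have : 2 / ((z : ℝ) - 1 / 2) ≤ 4 / 13 := by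
        rw [div_le_div_iff₀ (by linarith) (by norm_num)]
        linarith
      linarith
    have hstep : 2 / (z : ℝ) ^ 2 ≤ 2 / ((z : ℝ) - 1 / 2) - 2 / ((z : ℝ) + 1 / 2) := by
      rw [div_sub_div _ _ (by linarith) (by linarith),
        show 2 * ((z : ℝ) + 1 / 2) - ((z : ℝ) - 1 / 2) * 2 = 2 by ring]
      exact div_le_div_of_nonneg_left two_pos.le (mul_pos (by linarith) (by linarith))
        (by nlinarith)
    have hz2 : 2 / (z : ℝ) ^ 2 ≤ 1 := by
      rw [div_le_one (by positivity)]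
      nlinarith
    refine le_trans ?_ (mul_le_mul ih (pairLocal_bounds h z).1 (sub_nonneg.2 hz2)
      (pairPartial_nonneg h z))
    rw [mul_assoc]
    refine mul_le_mul_of_nonneg_left ?_ (by norm_num)
    push_cast
    rw [show (z : ℝ) + 1 - 1 / 2 = z + 1 / 2 by ring]
    have := mul_le_mul_of_nonneg_right hA (show 0 ≤ 2 / (z : ℝ) ^ 2 by positivity)
    linarith

theorem pairDensity_ge (h : ℕ) : 161 / 450 * (9 / 13) ≤ pairDensity h :=
  ge_of_tendsto (tendsto_pairPartial h) <| (eventually_ge_atTop 7).mono fun z hz =>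
    le_trans (mul_le_mul_of_nonneg_left (le_add_of_nonneg_right (by
      have : (7 : ℝ) ≤ z := by exact_mod_cast hz
      exact div_nonneg zero_le_two (by linarith))) (by norm_num)) (pairPartial_ge h z hz)

theorem pairDensity_lt_zero {h : ℕ} (hh : 1 ≤ h) : pairDensity h < pairDensity 0 := by
  obtain ⟨q, hqh, hq⟩ := Nat.exists_infinite_primes (h + 1)
  have hnd : ¬q ^ 2 ∣ h := fun hd => by
    have := Nat.le_of_dvd hh hd
    have := Nat.le_self_pow two_ne_zero q
    omega
  obtain ⟨r, hr⟩ : ∃ r : ℝ, r = pairLocal h q / pairLocal 0 q := ⟨_, rfl⟩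
  have h0 : 0 < pairLocal 0 q ∧ pairLocal h q < pairLocal 0 q := by
    have h4 : (4 : ℝ) ≤ (q : ℝ) ^ 2 := by
      have := Nat.pow_le_pow_left hq.two_le 2
      exact_mod_cast this
    simp only [pairLocal, if_pos hq, dvd_zero, if_true, if_neg hnd]
    have : 1 / (q : ℝ) ^ 2 < 2 / (q : ℝ) ^ 2 :=
      div_lt_div_of_pos_right one_lt_two (by positivity)
    have : 2 / (q : ℝ) ^ 2 ≤ 1 / 2 := by
      rw [div_le_iff₀ (by linarith)]
      linarith
    constructor <;> linarith
  have hr1 : r < 1 := hr ▸ (div_lt_one h0.1).2 h0.2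
  have hle : pairDensity h ≤ r * pairDensity 0 := by
    refine le_of_tendsto_of_tendsto (tendsto_pairPartial h)
      ((tendsto_pairPartial 0).const_mul r) ?_
    filter_upwards [eventually_gt_atTop q] with z hz
    rw [pairPartial, pairPartial, ← mul_prod_erase _ _ (mem_range.2 hz),
      ← mul_prod_erase _ (pairLocal 0) (mem_range.2 hz), ← mul_assoc, hr,
      div_mul_cancel₀ _ h0.1.ne']
    exact mul_le_mul_of_nonneg_left (prod_le_prod (fun p _ => (pairLocal_bounds h p).2.1)
      fun p _ => (pairLocal_bounds h p).2.2.1) (pairLocal_bounds h q).2.1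
  have := pairDensity_ge 0
  nlinarith

/-- The density of the pattern `(x, y)` of `(μ n, μ (n + h))`. -/
def moebiusPairDensity (h : ℕ) (x y : ℤ) : ℝ :=
  (1 - (x : ℝ) ^ 2) * (1 - (y : ℝ) ^ 2) +
    ((1 - (x : ℝ) ^ 2) * (3 * (y : ℝ) ^ 2 / 2 - 1) +
      (3 * (x : ℝ) ^ 2 / 2 - 1) * (1 - (y : ℝ) ^ 2)) * (6 / Real.pi ^ 2) +
    (3 * (x : ℝ) ^ 2 / 2 - 1) * (3 * (y : ℝ) ^ 2 / 2 - 1) * pairDensity h

theorem ite_moebius_eq {x : ℤ} (hx : x = -1 ∨ x = 0 ∨ x = 1) (n : ℕ) :
    (if μ n = x then 1 else 0 : ℝ) =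
      (1 - (x : ℝ) ^ 2) + (3 * (x : ℝ) ^ 2 / 2 - 1) * sqfree n + (x : ℝ) / 2 * mobR n := by
  by_cases hs : Squarefree n
  · have hm : μ n = 1 ∨ μ n = -1 := ArithmeticFunction.moebius_ne_zero_iff_eq_or.1
      (ArithmeticFunction.moebius_ne_zero_iff_squarefree.2 hs)
    simp only [sqfree, if_pos hs, mobR]
    rcases hm with e | e <;> rcases hx with rfl | rfl | rfl <;> simp [e] <;> norm_num
  · simp only [sqfree, if_neg hs, mobR, ArithmeticFunction.moebius_eq_zero_of_not_squarefree hs]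
    rcases hx with rfl | rfl | rfl <;> simp

/-- **The nine patterns**, in the mean over spans. -/
theorem tendsto_spanMean_moebius_pattern {h : ℕ} (hh : 1 ≤ h) {x y : ℤ}
    (hx : x = -1 ∨ x = 0 ∨ x = 1) (hy : y = -1 ∨ y = 0 ∨ y = 1) :
    Tendsto (fun z => spanMean z fun n => if μ n = x ∧ μ (n + h) = y then 1 else 0) spanFilter
      (𝓝 (moebiusPairDensity h x y)) := by
  obtain ⟨p0, hp0⟩ : ∃ t : ℝ, t = 1 - (x : ℝ) ^ 2 := ⟨_, rfl⟩
  obtain ⟨p1, hp1⟩ : ∃ t : ℝ, t = 3 * (x : ℝ) ^ 2 / 2 - 1 := ⟨_, rfl⟩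
  obtain ⟨p2, hp2⟩ : ∃ t : ℝ, t = (x : ℝ) / 2 := ⟨_, rfl⟩
  obtain ⟨q0, hq0⟩ : ∃ t : ℝ, t = 1 - (y : ℝ) ^ 2 := ⟨_, rfl⟩
  obtain ⟨q1, hq1⟩ : ∃ t : ℝ, t = 3 * (y : ℝ) ^ 2 / 2 - 1 := ⟨_, rfl⟩
  obtain ⟨q2, hq2⟩ : ∃ t : ℝ, t = (y : ℝ) / 2 := ⟨_, rfl⟩
  have hS : Tendsto (fun z => spanMean z fun n => sqfree n) spanFilter (𝓝 (pairDensity 0)) :=
    (tendsto_spanMean_sqfree 0).congr fun z => spanMean_congr fun n _ => by rw [add_zero]
  have hT := tendsto_spanMean_sqfree h
  have hA : Tendsto (fun z => spanMean z fun n => mobR n) spanFilter (𝓝 0) := by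
    simpa using tendsto_spanMean_mobR (a := 1) le_rfl 0
  have hB : Tendsto (fun z => spanMean z fun n => mobR (n + h)) spanFilter (𝓝 0) := by
    simpa using tendsto_spanMean_mobR (a := 1) le_rfl h
  have hAB : Tendsto (fun z => spanMean z fun n => mobR n * mobR (n + h)) spanFilter (𝓝 0) := by
    simpa using tendsto_spanMean_mobR_forms (a := 1) (b := 0) (c := 1) (d := h) le_rfl le_rfl
      (by omega)
  have hAT : Tendsto (fun z => spanMean z fun n => mobR n * sqfree (n + h)) spanFilter (𝓝 0) := by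
    simpa using tendsto_spanMean_mobR_sqfree (a := 1) (c := 1) le_rfl le_rfl 0 h
  have hBS : Tendsto (fun z => spanMean z fun n => mobR (n + h) * sqfree n) spanFilter (𝓝 0) := by
    simpa using tendsto_spanMean_mobR_sqfree (a := 1) (c := 1) le_rfl le_rfl h 0
  have hST := tendsto_spanMean_sqfree_pair h
  have hsum := ((((((((tendsto_const_nhds (x := p0 * q0) (f := spanFilter)).add
    (hT.const_mul (p0 * q1))).add (hB.const_mul (p0 * q2))).add (hS.const_mul (p1 * q0))).add
    (hST.const_mul (p1 * q1))).add (hBS.const_mul (p1 * q2))).add (hA.const_mul (p2 * q0))).add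
    (hAT.const_mul (p2 * q1))).add (hAB.const_mul (p2 * q2))
  simp only [mul_zero, add_zero] at hsum
  have hval : moebiusPairDensity h x y = p0 * q0 + p0 * q1 * pairDensity 0 +
      p1 * q0 * pairDensity 0 + p1 * q1 * pairDensity h := by
    rw [moebiusPairDensity, pairDensity_zero_eq, hp0, hp1, hq0, hq1]
    ring
  rw [hval]
  refine hsum.congr' (eventually_spanHarm_pos.mono fun z hz => ?_)
  rw [← spanMean_const hz (p0 * q0)]
  simp only [← spanMean_const_mul, ← spanMean_add]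
  refine spanMean_congr fun n _ => ?_
  rw [← one_mul (1 : ℝ), ← ite_zero_mul_ite_zero, ite_moebius_eq hx, ite_moebius_eq hy, hp0, hp1,
    hp2, hq0, hq1, hq2]
  ring

/-- **Each of the nine densities is positive.** -/
theorem moebiusPairDensity_pos {h : ℕ} (hh : 1 ≤ h) {x y : ℤ}
    (hx : x = -1 ∨ x = 0 ∨ x = 1) (hy : y = -1 ∨ y = 0 ∨ y = 1) :
    0 < moebiusPairDensity h x y := by
  have h1 := pairDensity_ge h
  have h2 := pairDensity_lt_zero hh
  rw [pairDensity_zero_eq] at h2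
  have h3 : 6 / Real.pi ^ 2 < 609 / 1000 := by
    rw [div_lt_div_iff₀ (by positivity) (by norm_num)]
    nlinarith [Real.pi_gt_d2]
  unfold moebiusPairDensity
  rcases hx with rfl | rfl | rfl <;> rcases hy with rfl | rfl | rfl <;> push_cast <;> linarith

end FA.LogChowla

end
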