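import Fermat.Agent.LogChowla.Main

/-!
# Three consecutive values of the Liouville function

The pair correlations vanish in the mean over spans and the product of two consecutive triples
`λ n λ (n + 1) λ (n + 2)` is `λ n λ (n + 3)`, so the triples are biased by at most `1 / 2` and
each of the eight patterns has mean at least `1 / 16` there.
-/

set_option autoImplicit false

noncomputable section

namespace FA.LogChowla

open Finset Filter
open scoped Topology

/-- `λ n λ (n + 1) λ (n + 2)`. -/
def lamTriple (n : ℕ) : ℝ := lam n * lam (n + 1) * lam (n + 2)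

theorem abs_lamTriple_le (n : ℕ) : |lamTriple n| ≤ 1 := by
  rw [lamTriple, abs_mul]
  exact mul_le_one₀ (abs_lam_mul_le _ _) (abs_nonneg _) (abs_lam_le _)

theorem lam_sq {n : ℕ} (hn : n ≠ 0) : lam n * lam n = 1 := by
  rcases ShortLiouville.liouville_eq_one_or hn with e | e <;> simp [lam, e]

theorem eventually_neg_half_le_triple {d η : ℝ} (hd : d = 1 ∨ d = -1) (hη : 0 < η) :
    ∀ᶠ z in spanFilter, -(1 / 2) - η ≤ d * spanMean z lamTriple := by
  have h3 : Tendsto (fun z => spanMean z fun n => lam n * lam (n + 3)) spanFilter (𝓝 0) :=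
    tendsto_spanMean_lam_mul (show 1 ≤ 3 by norm_num)
  have hs := tendsto_spanMean_shift_sub lamTriple abs_lamTriple_le 1
  filter_upwards [h3.eventually (ge_mem_nhds hη), (hs.const_mul d).eventually
    (ge_mem_nhds (show d * 0 < η by rw [mul_zero]; exact hη)), eventually_spanHarm_pos]
    with z hN3 hNs hN
  have hkey : (spanMean z fun n => -(d * lamTriple n + d * lamTriple (n + 1)) - 1) ≤
      spanMean z fun n => lam n * lam (n + 3) := by
    refine spanMean_mono fun n hn => ?_
    have e : lamTriple n * lamTriple (n + 1) = lam n * lam (n + 3) := by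
      have h1 := lam_sq (show n + 1 ≠ 0 by omega)
      have h2 := lam_sq (show n + 2 ≠ 0 by omega)
      rw [lamTriple, lamTriple, show n + 1 + 1 = n + 2 by omega, show n + 1 + 2 = n + 3 by omega]
      linear_combination (lam n * lam (n + 3) * lam (n + 2) * lam (n + 2)) * h1 +
        (lam n * lam (n + 3)) * h2
    rw [← e]
    have hT := abs_le.1 (abs_lamTriple_le n)
    have hT' := abs_le.1 (abs_lamTriple_le (n + 1))
    rcases hd with rfl | rfl
    · nlinarith
    · nlinarith
  have e2 : (spanMean z fun n => -(d * lamTriple n + d * lamTriple (n + 1)) - 1) =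
      -(d * spanMean z lamTriple) - d * (spanMean z fun n => lamTriple (n + 1)) - 1 := by
    have hw : ∑ n ∈ Ioc z.1 z.2, spanW z n = 1 := (isWeights_spanW hN).sum_eq
    conv_rhs => arg 2; rw [← hw]
    simp only [spanMean, mul_sum, ← sum_sub_distrib, ← sum_neg_distrib]
    exact sum_congr rfl fun n _ => by ring
  rw [e2] at hkey
  rw [mul_sub] at hNs
  linarith

/-- **Each pattern of three values**, in the logarithmic mean. -/
theorem eventually_spanMean_triple_ge {a b c η : ℝ} (ha : a = 1 ∨ a = -1) (hb : b = 1 ∨ b = -1)
    (hc : c = 1 ∨ c = -1) (hη : 0 < η) : ∀ᶠ z in spanFilter, 1 / 16 - η ≤ spanMean z fun n =>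
      (1 + a * lam n) * (1 + b * lam (n + 1)) * (1 + c * lam (n + 2)) / 8 := by
  have hd : a * b * c = 1 ∨ a * b * c = -1 := by
    rcases ha with rfl | rfl <;> rcases hb with rfl | rfl <;> rcases hc with rfl | rfl <;> norm_num
  have hlow : Tendsto (fun z => a * spanMean z lam + b * (spanMean z fun n => lam (n + 1)) +
      c * (spanMean z fun n => lam (n + 2)) + a * b * (spanMean z fun n => lam n * lam (n + 1)) +
      a * c * (spanMean z fun n => lam n * lam (n + 2)) +
      b * c * (spanMean z fun n => lam (n + 1) * lam (n + 2))) spanFilter (𝓝 0) := by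
    have h1 := tendsto_spanMean_lam_mul (show 1 ≤ 1 by norm_num)
    have h12 : Tendsto (fun z => spanMean z fun n => lam (n + 1) * lam (n + 2)) spanFilter (𝓝 0) :=
      tendsto_spanMean_shift (fun n => abs_lam_mul_le _ _) h1 1
    simpa using (((((tendsto_spanMean_lam.const_mul a).add
      ((tendsto_spanMean_shift abs_lam_le tendsto_spanMean_lam 1).const_mul b)).add
      ((tendsto_spanMean_shift abs_lam_le tendsto_spanMean_lam 2).const_mul c)).add
      (h1.const_mul (a * b))).add
      ((tendsto_spanMean_lam_mul (show 1 ≤ 2 by norm_num)).const_mul (a * c))).add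
      (h12.const_mul (b * c))
  filter_upwards [hlow.eventually (le_mem_nhds (show (0 : ℝ) > -η by linarith)),
    eventually_neg_half_le_triple hd hη, eventually_spanHarm_pos] with z hlowN hT hN
  have e : (spanMean z fun n =>
      (1 + a * lam n) * (1 + b * lam (n + 1)) * (1 + c * lam (n + 2)) / 8) =
      (1 + (a * spanMean z lam + b * (spanMean z fun n => lam (n + 1)) +
      c * (spanMean z fun n => lam (n + 2)) + a * b * (spanMean z fun n => lam n * lam (n + 1)) +
      a * c * (spanMean z fun n => lam n * lam (n + 2)) +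
      b * c * (spanMean z fun n => lam (n + 1) * lam (n + 2))) +
      a * b * c * spanMean z lamTriple) / 8 := by
    have hw : ∑ n ∈ Ioc z.1 z.2, spanW z n = 1 := (isWeights_spanW hN).sum_eq
    conv_rhs => arg 1; arg 1; arg 1; rw [← hw]
    simp only [spanMean, mul_sum, ← sum_add_distrib, sum_div, lamTriple]
    exact sum_congr rfl fun n _ => by ring
  rw [e]
  linarith

end FA.LogChowla

end
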