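import Fermat.Agent.LogChowla.Span

/-!
# Spans `(x / ω, x]`

A vanishing mean over spans is `o (log ω)` for the sums over `(x / ω, x]`, uniformly in `x ≥ ω`,
and a mean bounded below gives a positive lower density.
-/

set_option autoImplicit false

noncomputable section

namespace FA.LogChowla

open Finset Filter
open scoped Topology

theorem spanHarm_le_log_sub_log {U : ℕ} (hU : 1 ≤ U) : ∀ N : ℕ, U ≤ N →
    spanHarm (U, N) ≤ Real.log N - Real.log U := by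
  intro N hN
  induction N, hN using Nat.le_induction with
  | base => simp [spanHarm]
  | succ N hUN ih =>
    have hN0 : (0 : ℝ) < N := Nat.cast_pos.2 (hU.trans hUN)
    have h1 : ((N + 1 : ℕ) : ℝ)⁻¹ ≤ Real.log ((N + 1 : ℕ) : ℝ) - Real.log N := by
      rw [← Real.log_div (by positivity) hN0.ne']
      refine le_of_eq_of_le ?_ (Real.one_sub_inv_le_log_of_pos (by positivity))
      rw [inv_div]
      field_simp
      push_cast
      ring
    simp only [spanHarm] at ih ⊢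
    rw [sum_Ioc_succ_top hUN]
    linarith

/-- The span `(x / ω, x]` has mass `log ω + O (1)`. -/
theorem abs_spanHarm_floor_sub_log_le {x ω : ℝ} (hω : 1 ≤ ω) (hx : ω ≤ x) :
    |spanHarm (⌊x / ω⌋₊, ⌊x⌋₊) - Real.log ω| ≤ 2 := by
  have hω0 : 0 < ω := zero_lt_one.trans_le hω
  have hx0 : 0 < x := hω0.trans_le hx
  have hq : 1 ≤ x / ω := (one_le_div hω0).2 hx
  have hU : 1 ≤ ⌊x / ω⌋₊ := Nat.le_floor (by exact_mod_cast hq)
  have hUN : ⌊x / ω⌋₊ ≤ ⌊x⌋₊ := Nat.floor_le_floor (div_le_self hx0.le hω)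
  have hU0 : (0 : ℝ) < ⌊x / ω⌋₊ := Nat.cast_pos.2 hU
  have hN0 : (0 : ℝ) < ⌊x⌋₊ := Nat.cast_pos.2 (hU.trans hUN)
  have hfl : ∀ {y : ℝ}, 1 ≤ y → y / 2 ≤ ⌊y⌋₊ := fun {y} hy => by
    have : (1 : ℝ) ≤ ⌊y⌋₊ := Nat.one_le_cast.2 (Nat.le_floor (by exact_mod_cast hy))
    linarith [Nat.lt_floor_add_one y]
  have h1 := Real.log_le_log hN0 (Nat.floor_le hx0.le)
  have h2 := Real.log_le_log hU0 (Nat.floor_le (zero_le_one.trans hq))
  have h3 := Real.log_le_log (half_pos hx0) (hfl (hω.trans hx))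
  have h4 := Real.log_le_log (half_pos (zero_lt_one.trans_le hq)) (hfl hq)
  rw [Real.log_div hx0.ne' two_ne_zero] at h3
  rw [Real.log_div (div_pos hx0 hω0).ne' two_ne_zero, Real.log_div hx0.ne' hω0.ne'] at h4
  rw [Real.log_div hx0.ne' hω0.ne'] at h2
  have hlo := log_sub_log_le hU _ hUN
  have hhi := spanHarm_le_log_sub_log hU _ hUN
  have h5 : ((⌊x / ω⌋₊ : ℕ) : ℝ)⁻¹ ≤ 1 := inv_le_one_of_one_le₀ (Nat.one_le_cast.2 hU)
  have h6 : (0 : ℝ) ≤ ((⌊x⌋₊ : ℕ) : ℝ)⁻¹ := by positivity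
  rw [abs_le]
  constructor <;> linarith [Real.log_two_lt_d9]

/-- A vanishing mean over spans is `o (log ω)` over `(x / ω, x]`. -/
theorem exists_omega_abs_sum_le {f : ℕ → ℝ}
    (h : Tendsto (fun z => spanMean z f) spanFilter (𝓝 0)) {ε : ℝ} (hε : 0 < ε) :
    ∃ ω₀ : ℝ, ∀ x ω : ℝ, ω₀ ≤ ω → ω ≤ x →
      |∑ n ∈ Ioc ⌊x / ω⌋₊ ⌊x⌋₊, f n / n| ≤ ε * Real.log ω := by
  obtain ⟨B, hB⟩ := eventually_atTop.1
    (eventually_comap.1 (Metric.tendsto_nhds.1 h (ε / 2) (half_pos hε)))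
  refine ⟨Real.exp (max B 1 + 4), fun x ω hω hx => ?_⟩
  have hω1 : 1 ≤ ω :=
    (Real.one_le_exp (by linarith [le_max_right B 1])).trans hω
  have hlog : max B 1 + 4 ≤ Real.log ω := by
    rwa [Real.le_log_iff_exp_le (zero_lt_one.trans_le hω1)]
  obtain ⟨z, hz⟩ : ∃ z, z = (⌊x / ω⌋₊, ⌊x⌋₊) := ⟨_, rfl⟩
  have hW := abs_le.1 (abs_spanHarm_floor_sub_log_le hω1 hx)
  rw [← hz] at hW
  have hWpos : 0 < spanHarm z := by linarith [le_max_right B 1]
  have hmean := hB _ (by linarith [le_max_left B 1] : B ≤ spanHarm z) z rfl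
  rw [Real.dist_eq, sub_zero, spanMean_eq, abs_div, abs_of_pos hWpos, div_lt_iff₀ hWpos] at hmean
  have e : ∑ n ∈ Ioc ⌊x / ω⌋₊ ⌊x⌋₊, f n / n = ∑ n ∈ Ioc z.1 z.2, (n : ℝ)⁻¹ * f n := by
    rw [hz]
    exact sum_congr rfl fun n _ => div_eq_inv_mul _ _
  rw [e]
  refine hmean.le.trans ?_
  have := mul_le_mul_of_nonneg_left (show spanHarm z ≤ 2 * Real.log ω by
    linarith [le_max_right B 1]) (half_pos hε).le
  linarith

/-- **A mean over spans bounded below gives a positive lower density.** -/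
theorem exists_lowerDensity {P : ℕ → Prop} [DecidablePred P] {c : ℝ} (hc : 0 < c)
    (h : ∀ᶠ z in spanFilter, c ≤ spanMean z fun n => if P n then 1 else 0) :
    ∃ δ : ℝ, 0 < δ ∧ ∀ᶠ N : ℕ in atTop, δ * N ≤ ((Icc 1 N).filter P).card := by
  obtain ⟨B, hB⟩ := eventually_atTop.1 (eventually_comap.1 h)
  obtain ⟨ω, hω⟩ : ∃ ω : ℕ, ω = ⌈Real.exp (max B 1 + 2)⌉₊ := ⟨_, rfl⟩
  have hωB : Real.exp (max B 1 + 2) ≤ ω := hω ▸ Nat.le_ceil _
  have hω1 : (1 : ℝ) ≤ ω := (Real.one_le_exp (by linarith [le_max_right B 1])).trans hωB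
  have hω0 : (0 : ℝ) < ω := zero_lt_one.trans_le hω1
  refine ⟨c / ω, div_pos hc hω0, ?_⟩
  filter_upwards [eventually_ge_atTop ω] with N hN
  have hW := abs_le.1 (abs_spanHarm_floor_sub_log_le hω1 (x := N) (Nat.cast_le.2 hN))
  rw [Nat.floor_natCast, Nat.floor_div_natCast, Nat.floor_natCast] at hW
  have hlog : max B 1 + 2 ≤ Real.log ω := by rwa [Real.le_log_iff_exp_le hω0]
  have hW1 : 1 ≤ spanHarm (N / ω, N) := by linarith [le_max_right B 1]
  have hmean := hB _ (by linarith [le_max_left B 1] : B ≤ spanHarm (N / ω, N)) (N / ω, N) rfl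
  rw [spanMean_eq, le_div_iff₀ (by linarith)] at hmean
  simp only [mul_ite, mul_one, mul_zero] at hmean
  rw [← sum_filter] at hmean
  obtain ⟨U, hU⟩ : ∃ U, U = N / ω := ⟨_, rfl⟩
  rw [← hU] at hmean hW1
  have h1 : ∑ n ∈ (Ioc U N).filter P, (n : ℝ)⁻¹ ≤
      ((Icc 1 N).filter P).card * ((U : ℝ) + 1)⁻¹ := by
    refine (sum_le_card_nsmul _ _ ((U : ℝ) + 1)⁻¹ fun n hn => inv_anti₀ (by positivity) ?_).trans
      ((nsmul_eq_mul _ _).trans_le (mul_le_mul_of_nonneg_right (Nat.cast_le.2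
        (card_le_card (filter_subset_filter _ fun n hn => ?_))) (by positivity)))
    · exact_mod_cast (mem_Ioc.1 (mem_filter.1 hn).1).1
    · simp only [mem_Ioc] at hn
      exact mem_Icc.2 ⟨by omega, hn.2⟩
  have hN' : (N : ℝ) ≤ ((U : ℝ) + 1) * ω := by
    have h2 := (Nat.lt_div_mul_add (a := N) (Nat.cast_pos.1 hω0)).le
    rw [← hU, ← add_one_mul] at h2
    exact_mod_cast h2
  have h3 := (mul_le_mul_of_nonneg_left hW1 hc.le).trans (hmean.trans h1)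
  rw [mul_one, ← div_eq_mul_inv, le_div_iff₀ (by positivity)] at h3
  rw [div_mul_eq_mul_div, div_le_iff₀ hω0]
  refine (mul_le_mul_of_nonneg_left hN' hc.le).trans ?_
  rw [← mul_assoc]
  exact mul_le_mul_of_nonneg_right h3 hω0.le

end FA.LogChowla

end
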